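/-
S36 block [N] / [Desc-K]: **the order formulas of the norms are consequences of the norm–residue table**.

`Descent/NormPlumb.exists_normalisation(_strong)` takes, next to the two `NormTable`s, the two order
formulas `OrdFormula` (`v10 (Nα w) = v20 w + v11 w`, `v01 (Nα w) = q · v02 w`, and the mirrored ones for
`β`).  They follow from the tables and the valuation setting alone:

* approximation gives `s, t, r` with orders `(1,0,0)`, `(0,1,0)`, `(0,0,1)` at `(Va, Vb, Vc)`;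
* the table shows `Nm s, Nm t ∈ 𝔪_{Us}`, `Nm r ∈ 𝔪_{Ui}` and that norms of common units are units;
* `φ π = unit · s · t ^ (q - 1) · r` and `Nm (φ π) = π ^ q` force the orders `1, 1` (at `Us`) and `q`
  (at `Ui`).

Main results: `ordFormula_core` (one degeneracy map, explicit data), `ordFormula_alpha`,
`ordFormula_beta` (from a `ValSetting`), and `exists_normalisation_strong_of_tables`
(= `NormPlumb.exists_normalisation_strong` without the inputs `Oα`, `Oβ`).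
-/
import Mathlib
import Fermat.Agent.S36.Descent.NormPlumb

set_option autoImplicit false

namespace Fermat.Agent.S36.NormOrd

open Fermat.Agent.S36.Descent.NormPlumb Fermat.Agent.S36.V.SemiLocalW
open Fermat.Agent.P4.TwoValApprox

/-! ### Orders: positivity -/

section Pos

variable {F : Type*} [Field F] {A : ValuationSubring F} {ϖ x : F}

/-- A nonunit has positive order. -/
theorem one_le_of_hasOrd_of_lt (hϖ0 : ϖ ≠ 0) (hϖ : A.valuation ϖ < 1) {n : ℤ}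
    (hx : HasOrd A ϖ x n) (hlt : A.valuation x < 1) : 1 ≤ n := by
  by_contra hn
  have hn' : n ≤ 0 := by omega
  obtain ⟨k, rfl⟩ := Int.exists_eq_neg_ofNat hn'
  unfold HasOrd at hx
  rw [hx, zpow_neg, zpow_natCast] at hlt
  have hv0 : 0 < A.valuation ϖ := by
    rw [Valuation.pos_iff]; exact hϖ0
  have h1 : A.valuation ϖ ^ k ≤ 1 := pow_le_one₀ hv0.le hϖ.le
  have h2 : 1 ≤ (A.valuation ϖ ^ k)⁻¹ := (one_le_inv₀ (pow_pos hv0 k)).mpr h1
  exact absurd hlt (not_lt.mpr h2)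

theorem lt_one_of_hasOrd_one (hϖ : A.valuation ϖ < 1) (hx : HasOrd A ϖ x 1) :
    A.valuation x < 1 := by
  unfold HasOrd at hx
  rw [hx, zpow_one]; exact hϖ

end Pos

variable {F1 F2 : Type*} [Field F1] [Field F2]

/-! ### Consequences of the table -/

section Table

variable {φ : F1 →+* F2} {Nm : F2 →* F1} {q : ℕ} {Us Ui : ValuationSubring F1}
  {Va Vb Vc : ValuationSubring F2}

theorem norm_unit_split (T : NormTable φ Nm q Us Ui Va Vb Vc)
    (hVa : ∀ a, φ a ∈ Va ↔ a ∈ Us) (hVb : ∀ a, φ a ∈ Vb ↔ a ∈ Us) {u : F2}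
    (ha : Va.valuation u = 1) (hb : Vb.valuation u = 1) : Us.valuation (Nm u) = 1 := by
  obtain ⟨a₁, a₂, -, -, h⟩ := T.ucg_split hVa hVb ha hb
  exact h.left

theorem norm_unit_insep (T : NormTable φ Nm q Us Ui Va Vb Vc)
    (hVc : ∀ a, φ a ∈ Vc ↔ a ∈ Ui) {u : F2} (hc : Vc.valuation u = 1) :
    Ui.valuation (Nm u) = 1 := by
  obtain ⟨a, -, h⟩ := T.ucg_insep hVc hc
  exact h.left

theorem norm_lt_of_lt_a (T : NormTable φ Nm q Us Ui Va Vb Vc) {x : F2}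
    (ha : Va.valuation x < 1) (hb : x ∈ Vb) : Us.valuation (Nm x) < 1 := by
  obtain ⟨a₂, ha₂, h2⟩ := T.lift_b x hb
  have h1 : x - φ 0 ∈ Va.nonunits := by
    rw [map_zero, sub_zero, ValuationSubring.mem_nonunits_iff]; exact ha
  have h := T.norm_split x 0 a₂ Us.zero_mem ha₂ h1 h2
  rw [zero_mul, sub_zero, ValuationSubring.mem_nonunits_iff] at h
  exact h

theorem norm_lt_of_lt_b (hq : 2 ≤ q) (T : NormTable φ Nm q Us Ui Va Vb Vc) {x : F2}
    (ha : x ∈ Va) (hb : Vb.valuation x < 1) : Us.valuation (Nm x) < 1 := by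
  obtain ⟨a₁, ha₁, h1⟩ := T.lift_a x ha
  have h2 : x - φ 0 ∈ Vb.nonunits := by
    rw [map_zero, sub_zero, ValuationSubring.mem_nonunits_iff]; exact hb
  have h := T.norm_split x a₁ 0 ha₁ Us.zero_mem h1 h2
  rw [zero_pow (by omega), mul_zero, sub_zero, ValuationSubring.mem_nonunits_iff] at h
  exact h

theorem norm_lt_of_lt_c (hq : 2 ≤ q) (T : NormTable φ Nm q Us Ui Va Vb Vc) {x : F2}
    (hc : Vc.valuation x < 1) : Ui.valuation (Nm x) < 1 := by
  have h1 : x ^ q - φ 0 ∈ Vc.nonunits := by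
    rw [map_zero, sub_zero, ValuationSubring.mem_nonunits_iff, map_pow]
    exact pow_lt_one₀ zero_le hc (by omega)
  have h := T.norm_insep x 0 Ui.zero_mem h1
  rw [sub_zero, ValuationSubring.mem_nonunits_iff] at h
  exact h

/-- Order of the norm of a product `u · s ^ a · t ^ b · r ^ c`. -/
theorem hasOrd_norm_decomp (Nm : F2 →* F1) {A : ValuationSubring F1} {π : F1} (hπ0 : π ≠ 0)
    {u s t r : F2} (hs0 : s ≠ 0) (ht0 : t ≠ 0) (hr0 : r ≠ 0) (na nb nc : ℤ) {ou os ot or : ℤ}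
    (hu : HasOrd A π (Nm u) ou) (hs : HasOrd A π (Nm s) os) (ht : HasOrd A π (Nm t) ot)
    (hr : HasOrd A π (Nm r) or) :
    HasOrd A π (Nm (u * (s ^ na * t ^ nb * r ^ nc))) (ou + (na * os + nb * ot + nc * or)) := by
  rw [map_mul, map_mul, map_mul, map_zpow_of_ne Nm hs0, map_zpow_of_ne Nm ht0,
    map_zpow_of_ne Nm hr0]
  exact hu.mul hπ0 (((hs.zpow na).mul hπ0 (ht.zpow nb)).mul hπ0 (hr.zpow nc))

end Table

/-! ### The order formula of one degeneracy map -/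

section Core

variable {φ : F1 →+* F2} {Nm : F2 →* F1} {q : ℕ} {Us Ui : ValuationSubring F1}
  {Va Vb Vc : ValuationSubring F2} {π : F1} {Pm : F2}

/-- **The order formula from the table**, explicit data: `Va, Vc` unramified over `π`, `Vb` with
uniformiser `Pm` and `φ π ~ Pm ^ (q - 1)`, and elements `s, t, r` of orders `(1,0,0)`, `(0,1,0)`,
`(0,0,1)`. -/
theorem ordFormula_core (hq : 2 ≤ q) (hπ0 : π ≠ 0) (hπs : Us.valuation π < 1)
    (hπi : Ui.valuation π < 1) (hPm0 : Pm ≠ 0) (hPm : Vb.valuation Pm < 1)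
    (hPmpow : HasOrd Vb Pm (φ π) ((q : ℤ) - 1))
    (discUs : ∀ b : F1, b ≠ 0 → ∃ n : ℤ, HasOrd Us π b n)
    (discUi : ∀ b : F1, b ≠ 0 → ∃ n : ℤ, HasOrd Ui π b n)
    (hVa : ∀ a, φ a ∈ Va ↔ a ∈ Us) (hVb : ∀ a, φ a ∈ Vb ↔ a ∈ Us)
    (hVc : ∀ a, φ a ∈ Vc ↔ a ∈ Ui)
    (hs : ∃ s : F2, HasOrd Va (φ π) s 1 ∧ Vb.valuation s = 1 ∧ Vc.valuation s = 1)
    (ht : ∃ t : F2, Va.valuation t = 1 ∧ HasOrd Vb Pm t 1 ∧ Vc.valuation t = 1)
    (hr : ∃ r : F2, Va.valuation r = 1 ∧ Vb.valuation r = 1 ∧ HasOrd Vc (φ π) r 1)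
    (T : NormTable φ Nm q Us Ui Va Vb Vc) :
    OrdFormula Nm q Us Ui Va Vb Vc π (φ π) Pm (φ π) := by
  obtain ⟨s, hsa, hsb, hsc⟩ := hs
  obtain ⟨t, hta, htb, htc⟩ := ht
  obtain ⟨r, hra, hrb, hrc⟩ := hr
  have hφπ0 : φ π ≠ 0 := by rw [map_ne_zero]; exact hπ0
  have hφπa : Va.valuation (φ π) < 1 := (val_lt_one_map φ hVa).mpr hπs
  have hφπc : Vc.valuation (φ π) < 1 := (val_lt_one_map φ hVc).mpr hπi
  have hs0 : s ≠ 0 := ne_zero_of_val_eq_one _ hsb
  have ht0 : t ≠ 0 := ne_zero_of_val_eq_one _ hta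
  have hr0 : r ≠ 0 := ne_zero_of_val_eq_one _ hra
  have hsb' : HasOrd Vb Pm s 0 := hasOrd_zero_iff.mpr hsb
  have hsc' : HasOrd Vc (φ π) s 0 := hasOrd_zero_iff.mpr hsc
  have hta' : HasOrd Va (φ π) t 0 := hasOrd_zero_iff.mpr hta
  have htc' : HasOrd Vc (φ π) t 0 := hasOrd_zero_iff.mpr htc
  have hra' : HasOrd Va (φ π) r 0 := hasOrd_zero_iff.mpr hra
  have hrb' : HasOrd Vb Pm r 0 := hasOrd_zero_iff.mpr hrb
  -- quotient by `s ^ na * t ^ nb * r ^ nc` is a common unit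
  have key : ∀ (w : F2) (na nb nc : ℤ), HasOrd Va (φ π) w na → HasOrd Vb Pm w nb →
      HasOrd Vc (φ π) w nc →
      Va.valuation (w / (s ^ na * t ^ nb * r ^ nc)) = 1 ∧
      Vb.valuation (w / (s ^ na * t ^ nb * r ^ nc)) = 1 ∧
      Vc.valuation (w / (s ^ na * t ^ nb * r ^ nc)) = 1 := by
    intro w na nb nc ha hb hc
    refine ⟨?_, ?_, ?_⟩
    · have h := ha.div hφπ0 (((hsa.zpow na).mul hφπ0 (hta'.zpow nb)).mul hφπ0 (hra'.zpow nc))
      have e : na - (na * 1 + nb * 0 + nc * 0) = 0 := by ring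
      rw [e] at h
      exact hasOrd_zero_iff.mp h
    · have h := hb.div hPm0 (((hsb'.zpow na).mul hPm0 (htb.zpow nb)).mul hPm0 (hrb'.zpow nc))
      have e : nb - (na * 0 + nb * 1 + nc * 0) = 0 := by ring
      rw [e] at h
      exact hasOrd_zero_iff.mp h
    · have h := hc.div hφπ0 (((hsc'.zpow na).mul hφπ0 (htc'.zpow nb)).mul hφπ0 (hrc.zpow nc))
      have e : nc - (na * 0 + nb * 0 + nc * 1) = 0 := by ring
      rw [e] at h
      exact hasOrd_zero_iff.mp h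
  have hprod0 : ∀ na nb nc : ℤ, s ^ na * t ^ nb * r ^ nc ≠ 0 := fun na nb nc =>
    mul_ne_zero (mul_ne_zero (zpow_ne_zero _ hs0) (zpow_ne_zero _ ht0)) (zpow_ne_zero _ hr0)
  -- norms of `s, t, r`
  have hNs0 : Nm s ≠ 0 := map_ne_zero_of_ne Nm hs0
  have hNt0 : Nm t ≠ 0 := map_ne_zero_of_ne Nm ht0
  have hNr0 : Nm r ≠ 0 := map_ne_zero_of_ne Nm hr0
  obtain ⟨ns, hns⟩ := discUs (Nm s) hNs0
  obtain ⟨nt, hnt⟩ := discUs (Nm t) hNt0
  obtain ⟨nr, hnr⟩ := discUi (Nm r) hNr0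
  have hns1 : 1 ≤ ns := one_le_of_hasOrd_of_lt hπ0 hπs hns
    (norm_lt_of_lt_a T (lt_one_of_hasOrd_one hφπa hsa) (mem_of_val_eq_one hsb))
  have hnt1 : 1 ≤ nt := one_le_of_hasOrd_of_lt hπ0 hπs hnt
    (norm_lt_of_lt_b hq T (mem_of_val_eq_one hta) (lt_one_of_hasOrd_one hPm htb))
  have hnr1 : 1 ≤ nr := one_le_of_hasOrd_of_lt hπ0 hπi hnr
    (norm_lt_of_lt_c hq T (lt_one_of_hasOrd_one hφπc hrc))
  have hNrs : HasOrd Us π (Nm r) 0 := hasOrd_zero_iff.mpr (norm_unit_split T hVa hVb hra hrb)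
  have hNsi : HasOrd Ui π (Nm s) 0 := hasOrd_zero_iff.mpr (norm_unit_insep T hVc hsc)
  have hNti : HasOrd Ui π (Nm t) 0 := hasOrd_zero_iff.mpr (norm_unit_insep T hVc htc)
  -- the relation from `φ π`
  obtain ⟨k1, k2, k3⟩ := key (φ π) 1 ((q : ℤ) - 1) 1 hasOrd_self hPmpow hasOrd_self
  set u0 : F2 := φ π / (s ^ (1 : ℤ) * t ^ ((q : ℤ) - 1) * r ^ (1 : ℤ)) with hu0
  have hu0s : HasOrd Us π (Nm u0) 0 := hasOrd_zero_iff.mpr (norm_unit_split T hVa hVb k1 k2)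
  have hu0i : HasOrd Ui π (Nm u0) 0 := hasOrd_zero_iff.mpr (norm_unit_insep T hVc k3)
  have hφπeq : φ π = u0 * (s ^ (1 : ℤ) * t ^ ((q : ℤ) - 1) * r ^ (1 : ℤ)) := by
    rw [hu0, div_mul_cancel₀ _ (hprod0 _ _ _)]
  have hNφπ : Nm (φ π) = π ^ q := T.norm_map π
  have r1 : HasOrd Us π (Nm (φ π)) (0 + (1 * ns + ((q : ℤ) - 1) * nt + 1 * 0)) := by
    have h := hasOrd_norm_decomp Nm hπ0 hs0 ht0 hr0 1 ((q : ℤ) - 1) 1 hu0s hns hnt hNrs
    rwa [← hφπeq] at h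
  have r2 : HasOrd Ui π (Nm (φ π)) (0 + (1 * 0 + ((q : ℤ) - 1) * 0 + 1 * nr)) := by
    have h := hasOrd_norm_decomp Nm hπ0 hs0 ht0 hr0 1 ((q : ℤ) - 1) 1 hu0i hNsi hNti hnr
    rwa [← hφπeq] at h
  have r1' : HasOrd Us π (Nm (φ π)) ((q : ℤ) * 1) := by
    rw [hNφπ]; exact (hasOrd_self (A := Us) (ϖ := π)).pow q
  have r2' : HasOrd Ui π (Nm (φ π)) ((q : ℤ) * 1) := by
    rw [hNφπ]; exact (hasOrd_self (A := Ui) (ϖ := π)).pow q
  have E1 := HasOrd.unique hπ0 hπs r1' r1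
  have E2 := HasOrd.unique hπ0 hπi r2' r2
  have hq' : (2 : ℤ) ≤ (q : ℤ) := by exact_mod_cast hq
  have hnt_eq : nt = 1 := by
    by_contra hne
    have h2 : 2 ≤ nt := by omega
    nlinarith
  have hns_eq : ns = 1 := by
    rw [hnt_eq] at E1; linarith
  have hnr_eq : nr = q := by linarith
  rw [hns_eq] at hns
  rw [hnt_eq] at hnt
  rw [hnr_eq] at hnr
  -- the general element
  intro w hw na nb nc ha hb hc
  obtain ⟨c1, c2, c3⟩ := key w na nb nc ha hb hc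
  set u : F2 := w / (s ^ na * t ^ nb * r ^ nc) with hu
  have hus : HasOrd Us π (Nm u) 0 := hasOrd_zero_iff.mpr (norm_unit_split T hVa hVb c1 c2)
  have hui : HasOrd Ui π (Nm u) 0 := hasOrd_zero_iff.mpr (norm_unit_insep T hVc c3)
  have hweq : w = u * (s ^ na * t ^ nb * r ^ nc) := by
    rw [hu, div_mul_cancel₀ _ (hprod0 _ _ _)]
  constructor
  · have h := hasOrd_norm_decomp Nm hπ0 hs0 ht0 hr0 na nb nc hus hns hnt hNrs
    rw [← hweq] at h
    have e : 0 + (na * 1 + nb * 1 + nc * 0) = na + nb := by ring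
    rwa [e] at h
  · have h := hasOrd_norm_decomp Nm hπ0 hs0 ht0 hr0 na nb nc hui hNsi hNti hnr
    rw [← hweq] at h
    have e : 0 + (na * 0 + nb * 0 + nc * (q : ℤ)) = (q : ℤ) * nc := by ring
    rwa [e] at h

end Core

/-! ### From a `ValSetting` -/

section Setting

variable {φ ψ : F1 →+* F2} {q : ℕ} {U : Fin 2 → ValuationSubring F1}
  {V : Fin 3 → ValuationSubring F2} {π : F1} {Pm : F2}

/-- Elements with prescribed valuations at `V 0, V 1, V 2`. -/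
theorem exists_val_eq (S : ValSetting φ ψ q U V π Pm) (a : Fin 3 → F2) (ha : ∀ i, a i ≠ 0) :
    ∃ G : F2, ∀ i, (V i).valuation G = (V i).valuation (a i) := by
  obtain ⟨G, hG⟩ := exists_forall_div_sub_one_mem_nonunits V S.arch S.inc a ha
  exact ⟨G, fun i => valuation_eq_of_div_sub_one_mem_nonunits (V i) (ha i) (hG i)⟩

theorem exists_s (S : ValSetting φ ψ q U V π Pm) :
    ∃ s : F2, HasOrd (V 0) (φ π) s 1 ∧ (V 1).valuation s = 1 ∧ (V 2).valuation s = 1 := by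
  obtain ⟨G, hG⟩ := exists_val_eq S ![φ π, 1, 1] (by
    intro i; fin_cases i
    · exact S.φπ_ne
    · exact one_ne_zero
    · exact one_ne_zero)
  refine ⟨G, hasOrd_self.congr (hG 0), ?_, ?_⟩
  · have := hG 1
    simpa using this
  · have := hG 2
    simpa using this

theorem exists_t (S : ValSetting φ ψ q U V π Pm) :
    ∃ t : F2, (V 0).valuation t = 1 ∧ HasOrd (V 1) Pm t 1 ∧ (V 2).valuation t = 1 := by
  obtain ⟨G, hG⟩ := exists_val_eq S ![1, Pm, 1] (by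
    intro i; fin_cases i
    · exact one_ne_zero
    · exact S.Pm_ne
    · exact one_ne_zero)
  refine ⟨G, ?_, hasOrd_self.congr (hG 1), ?_⟩
  · have := hG 0
    simpa using this
  · have := hG 2
    simpa using this

theorem exists_r (S : ValSetting φ ψ q U V π Pm) :
    ∃ r : F2, (V 0).valuation r = 1 ∧ (V 1).valuation r = 1 ∧ HasOrd (V 2) (φ π) r 1 := by
  obtain ⟨G, hG⟩ := exists_val_eq S ![1, 1, φ π] (by
    intro i; fin_cases i
    · exact one_ne_zero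
    · exact one_ne_zero
    · exact S.φπ_ne)
  refine ⟨G, ?_, ?_, hasOrd_self.congr (hG 2)⟩
  · have := hG 0
    simpa using this
  · have := hG 1
    simpa using this

/-- **The order formula along `φ = α2`, from the table.** -/
theorem ordFormula_alpha (S : ValSetting φ ψ q U V π Pm) {Nm : F2 →* F1}
    (T : NormTable φ Nm q (U 0) (U 1) (V 0) (V 1) (V 2)) :
    OrdFormula Nm q (U 0) (U 1) (V 0) (V 1) (V 2) π (φ π) Pm (φ π) :=
  ordFormula_core S.q_two S.π_ne (S.π_lt 0) (S.π_lt 1) S.Pm_ne S.Pm_lt S.Pm_pow (S.discU 0)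
    (S.discU 1) S.φ0 S.φ1 S.φ2 (exists_s S) (exists_t S) (exists_r S) T

/-- **The order formula along `ψ = β2`, from the table.** -/
theorem ordFormula_beta (S : ValSetting φ ψ q U V π Pm) {Nm : F2 →* F1}
    (T : NormTable ψ Nm q (U 1) (U 0) (V 2) (V 1) (V 0)) :
    OrdFormula Nm q (U 1) (U 0) (V 2) (V 1) (V 0) π (φ π) Pm (φ π) := by
  have hs : ∃ s : F2, HasOrd (V 2) (ψ π) s 1 ∧ (V 1).valuation s = 1 ∧ (V 0).valuation s = 1 := by
    obtain ⟨r, h0, h1, h2⟩ := exists_r S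
    rw [S.φψ] at h2
    exact ⟨r, h2, h1, h0⟩
  have ht : ∃ t : F2, (V 2).valuation t = 1 ∧ HasOrd (V 1) Pm t 1 ∧ (V 0).valuation t = 1 := by
    obtain ⟨t, h0, h1, h2⟩ := exists_t S
    exact ⟨t, h2, h1, h0⟩
  have hr : ∃ r : F2, (V 2).valuation r = 1 ∧ (V 1).valuation r = 1 ∧ HasOrd (V 0) (ψ π) r 1 := by
    obtain ⟨s, h0, h1, h2⟩ := exists_s S
    rw [S.φψ] at h0
    exact ⟨s, h2, h1, h0⟩
  have hpow : HasOrd (V 1) Pm (ψ π) ((q : ℤ) - 1) := by
    have := S.Pm_pow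
    rwa [S.φψ] at this
  have h := ordFormula_core S.q_two S.π_ne (S.π_lt 1) (S.π_lt 0) S.Pm_ne S.Pm_lt hpow (S.discU 1)
    (S.discU 0) S.ψ2 S.ψ1 S.ψ0 hs ht hr T
  rwa [← S.φψ] at h

/-- **`NormPlumb.exists_normalisation_strong` with the order formulas discharged**: the global inputs
(I-G) of block [D] from the valuation setting, the two norm tables and the constants alone. -/
theorem exists_normalisation_strong_of_tables {Nα Nβ : F2 →* F1} (S : ValSetting φ ψ q U V π Pm)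
    (Tα : NormTable φ Nα q (U 0) (U 1) (V 0) (V 1) (V 2))
    (Tβ : NormTable ψ Nβ q (U 1) (U 0) (V 2) (V 1) (V 0))
    {O : Type*} [CommRing O] [Algebra O F1] {e : ℕ} (hC : ConstHyp O U e) (hqe : Nat.Coprime q e)
    {E : ℕ} (hpow : ∀ i (x : F2), (V i).valuation x < 1 → x ^ E * (φ π)⁻¹ ∈ V i)
    (he0 : (e : F2) ≠ 0) (heV : ∀ i, ((e : F2))⁻¹ ∈ V i)
    {f : F2} (hf : f ≠ 0) {ca cb ha hb : F1} (hha : ha ≠ 0) (hhb : hb ≠ 0)
    (hca : ∃ (n : ℤ) (u : O), IsUnit u ∧ ca = π ^ n * algebraMap O F1 u)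
    (hcb : ∃ (n : ℤ) (u : O), IsUnit u ∧ cb = π ^ n * algebraMap O F1 u)
    (hNa : Nα f = ca * ha ^ e) (hNb : Nβ f = cb * hb ^ e) :
    ∃ (m : ℤ) (G : F2), G ≠ 0 ∧
      (∀ i, (f ^ ((q + 1) * (q - 1)) * (φ π) ^ m / G ^ e - 1) * (φ π)⁻¹ ∈ V i) ∧
      GoodNorm O Nα U e (f ^ ((q + 1) * (q - 1)) * (φ π) ^ m / G ^ e) ∧
      GoodNorm O Nβ U e (f ^ ((q + 1) * (q - 1)) * (φ π) ^ m / G ^ e) :=
  exists_normalisation_strong S Tα Tβ (ordFormula_alpha S Tα) (ordFormula_beta S Tβ) hC hqe hpow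
    he0 heV hf hha hhb hca hcb hNa hNb

end Setting

end Fermat.Agent.S36.NormOrd
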