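import Mathlib
import Fermat.Agent.P3G.KrullChart

/-!
# S36, block (R1), abstract core: regularity of a chart at a crossing point of two components

`R` is a chart: a noetherian integrally closed domain, algebra over the discrete valuation ring `O`
(uniformiser `ϖ`), with fraction field `F ⊇ K = Frac O`; `V i` are finitely many valuation rings of
`F` containing `R` (the vertical / Gauss valuation rings) with `ϖ ∈ 𝔪_{V i}` and
`⋂ (𝔪_{V i} ∩ R) ⊆ ϖ R` (the setting of `P3G.KrullChart`).  `𝔫` is a prime of `R` through which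
exactly two components `P₁ = 𝔪_{V i₁} ∩ R`, `P₂ = 𝔪_{V i₂} ∩ R` pass.

**The `m`-th power trick** (`exists_mul_eq_of_crossing`).  Let `h ∈ R` be a function with
* `h ∉ P₁`, `v_{i₂}(h) = m · v_{i₂}(ϖ)`, `ϖ` a uniformiser of `V i₂`,
* no horizontal zero through `𝔫` (`h` is a unit of every place of `F / K` centred at `𝔫`),
and let `u ∈ P₂ ∖ P₁` be such that `h ≡ c u ^ m` modulo `P₁`, locally at `𝔫`
(`ord_y (h | C₁) ≥ m` for the local parameter `u | C₁`).  Then `P₂ R_𝔫 = u R_𝔫`.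

Consequently (`exists_mul_mem_span_pair`) if `𝔫 R_𝔫 = (u, v, ϖ)` then `𝔫 R_𝔫 = (u, v)`: the local ring
`R_𝔫` is regular.  `hord_of_mem_sup_pow` produces the congruence `h ≡ c u ^ m` from
`h ∈ P₁ + 𝔫 ^ m` when `u` generates `𝔫` modulo `P₁`, locally at `𝔫`.

In the application (`S36`, level `q M₀`): `h = Δ(z) / Δ(q z)`, `m = 12`, `(V i₁, V i₂)` the two Gauss
valuation rings, `u` the crossing coordinate of `P3G.TwoComponents.exists_crossing_coordinates`.
-/

set_option autoImplicit false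
set_option linter.unusedSectionVars false
set_option linter.style.haveILetI false

namespace Fermat.Agent.S36.RegularCrossing

open Fermat.Agent.N4.Cover.Globalize Fermat.Agent.P3G.Krull Fermat.Agent.P3G.KrullChart
open AlgebraicCurve

/-! ### Valuation subrings: two small lemmas -/

section VS

variable {F : Type*} [Field F]

theorem valuation_eq_one_of_notMem_nonunits {A : ValuationSubring F} {x : F} (hx : x ∈ A)
    (hx' : x ∉ A.nonunits) : A.valuation x = 1 := by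
  have h1 := (A.valuation_le_one_iff x).2 hx
  have h2 : ¬ A.valuation x < 1 := fun h => hx' (A.mem_nonunits_iff.2 h)
  exact le_antisymm h1 (not_lt.1 h2)

theorem inv_mem_of_notMem_nonunits {A : ValuationSubring F} {x : F} (hx : x ∈ A)
    (hx' : x ∉ A.nonunits) : x⁻¹ ∈ A := by
  rw [← A.valuation_le_one_iff, map_inv₀, valuation_eq_one_of_notMem_nonunits hx hx', inv_one]

theorem valuation_ne_zero_of_ne_zero (A : ValuationSubring F) {x : F} (hx : x ≠ 0) :
    A.valuation x ≠ 0 := (A.valuation.ne_zero_iff).2 hx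

end VS

variable {O K F R : Type*}
  [CommRing O] [IsDomain O] [IsDiscreteValuationRing O]
  [Field K] [Algebra O K] [IsFractionRing O K]
  [Field F] [Algebra K F] [Algebra O F] [IsScalarTower O K F]
  [CommRing R] [IsDomain R] [IsNoetherianRing R]
  [Algebra R F] [IsFractionRing R F] [Algebra O R] [IsScalarTower O R F]

section Main

variable {ϖ : O} (hϖ : Irreducible ϖ)
variable {ι : Type*} [Finite ι] (V : ι → ValuationSubring F)
  (hV : ∀ i (r : R), algebraMap R F r ∈ V i)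
  (hϖV : ∀ i, algebraMap R F (algebraMap O R ϖ) ∈ (V i).nonunits)
  (hsat : ∀ r : R, (∀ i, algebraMap R F r ∈ (V i).nonunits) → algebraMap O R ϖ ∣ r)
  (𝔫 : Ideal R) [h𝔫 : 𝔫.IsPrime]

/-- An element of `R` outside `𝔫` is a unit of every valuation ring of `F` containing `R` whose
centre on `R` is contained in `𝔫`. -/
theorem valuation_eq_one_of_notMem {A : ValuationSubring F}
    (hA : ∀ r : R, algebraMap R F r ∈ A)
    (hc : ∀ r : R, algebraMap R F r ∈ A.nonunits → r ∈ 𝔫) {r : R} (hr : r ∉ 𝔫) :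
    A.valuation (algebraMap R F r) = 1 :=
  valuation_eq_one_of_notMem_nonunits (hA r) (fun h => hr (hc r h))

/-- If `u ^ m * r = h * a` with `r, a ∉ 𝔫` and `h` a unit of the valuation ring `A ⊇ R` centred
inside `𝔫`, then `u` is a unit of `A`. -/
theorem valuation_eq_one_of_pow_mul_eq {A : ValuationSubring F}
    (hA : ∀ r : R, algebraMap R F r ∈ A)
    (hc : ∀ r : R, algebraMap R F r ∈ A.nonunits → r ∈ 𝔫) {u h r a : R} {m : ℕ} (hm : m ≠ 0)
    (hr : r ∉ 𝔫) (ha : a ∉ 𝔫) (hh : algebraMap R F h ∉ A.nonunits) (hrel : u ^ m * r = h * a) :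
    A.valuation (algebraMap R F u) = 1 := by
  have h1 := congrArg (fun x => A.valuation (algebraMap R F x)) hrel
  simp only [map_mul, map_pow] at h1
  rw [valuation_eq_one_of_notMem 𝔫 hA hc hr, valuation_eq_one_of_notMem 𝔫 hA hc ha,
    valuation_eq_one_of_notMem_nonunits (hA h) hh, mul_one, mul_one] at h1
  have h2 := (A.valuation_le_one_iff _).2 (hA u)
  by_contra hne
  have h3 : A.valuation (algebraMap R F u) < 1 := lt_of_le_of_ne h2 hne
  have h4 : A.valuation (algebraMap R F u) ^ m < 1 := pow_lt_one₀ zero_le h3 hm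
  exact (ne_of_lt h4) h1

include hϖ hsat hϖV in
/-- **The `m`-th power trick**: `P₂ R_𝔫 = u R_𝔫`. -/
theorem exists_mul_eq_of_crossing [IsIntegrallyClosed R] (i₁ i₂ : ι)
    (hthrough : ∀ i, vCentre (V i) (hV i) ≤ 𝔫 → i = i₁ ∨ i = i₂)
    (h1le : vCentre (V i₁) (hV i₁) ≤ 𝔫) (h2le : vCentre (V i₂) (hV i₂) ≤ 𝔫)
    (hunif : ∀ y ∈ (V i₂).nonunits, y * (algebraMap R F (algebraMap O R ϖ))⁻¹ ∈ V i₂)
    {h u : R} {m : ℕ} (hm : m ≠ 0)
    (hh1 : h ∉ vCentre (V i₁) (hV i₁))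
    (hh2 : (V i₂).valuation (algebraMap R F h) =
      (V i₂).valuation (algebraMap R F (algebraMap O R ϖ)) ^ m)
    (hhor : ∀ v : Place K F, (∀ r : R, algebraMap R F r ∈ v.toValuationSubring) →
      (∀ r : R, algebraMap R F r ∈ v.toValuationSubring.nonunits → r ∈ 𝔫) →
      algebraMap R F h ∉ v.toValuationSubring.nonunits)
    (hu1 : u ∉ vCentre (V i₁) (hV i₁)) (hu2 : u ∈ vCentre (V i₂) (hV i₂))
    (hord : ∃ s c : R, s ∉ 𝔫 ∧ s * h - c * u ^ m ∈ vCentre (V i₁) (hV i₁)) :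
    ∀ r ∈ vCentre (V i₂) (hV i₂), ∃ s c : R, s ∉ 𝔫 ∧ s * r = c * u := by
  classical
  set π : F := algebraMap R F (algebraMap O R ϖ) with hπ
  set w := (V i₂).valuation with hw
  have hinj := IsFractionRing.injective R F
  -- nonvanishing
  have hh0 : h ≠ 0 := fun h0 => hh1 (h0 ▸ Ideal.zero_mem _)
  have hu0 : u ≠ 0 := fun h0 => hu1 (h0 ▸ Ideal.zero_mem _)
  have hhF : algebraMap R F h ≠ 0 := algebraMap_ne_zero hh0
  have huF : algebraMap R F u ≠ 0 := algebraMap_ne_zero hu0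
  have hπ0 : π ≠ 0 := by
    intro h0
    have hwh : w (algebraMap R F h) = 0 := by rw [hh2, h0, map_zero, zero_pow hm]
    exact hhF ((w.zero_iff).1 hwh)
  have hwπ : w π ≠ 0 := (w.ne_zero_iff).2 hπ0
  -- the two vertical valuations at `h`, `u`
  have hval1 : ∀ {x : R}, x ∉ vCentre (V i₁) (hV i₁) →
      (V i₁).valuation (algebraMap R F x) = 1 := fun {x} hx =>
    valuation_eq_one_of_notMem_nonunits (hV i₁ x)
      (fun hx' => hx ((mem_vCentre_iff (V i₁) (hV i₁)).2 hx'))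
  have hle2 : ∀ {x : R}, x ∈ vCentre (V i₂) (hV i₂) → w (algebraMap R F x) ≤ w π := by
    intro x hx
    have h1 := hunif _ ((mem_vCentre_iff (V i₂) (hV i₂)).1 hx)
    have h2 := ((V i₂).valuation_le_one_iff _).2 h1
    rw [map_mul, map_inv₀] at h2
    exact (mul_inv_le_iff₀ (lt_of_le_of_ne zero_le (Ne.symm hwπ))).1 h2 |>.trans (by rw [one_mul])
  -- Step 1: `u ^ m / h ∈ R_𝔫`
  obtain ⟨a, r, hr, hx⟩ := exists_mul_eq_of_valuationSubrings_at (K := K) hϖ V hV hϖV hsat 𝔫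
    ((algebraMap R F u) ^ m * (algebraMap R F h)⁻¹)
    (by
      intro i hi
      rcases hthrough i hi with rfl | rfl
      · refine mul_mem (pow_mem (hV _ u) m) ?_
        rw [← (V _).valuation_le_one_iff, map_inv₀, hval1 hh1, inv_one]
      · rw [← (V _).valuation_le_one_iff, map_mul, map_pow, map_inv₀]
        show w (algebraMap R F u) ^ m * (w (algebraMap R F h))⁻¹ ≤ 1
        rw [hh2, ← inv_pow, ← mul_pow]
        refine pow_le_one₀ zero_le ?_
        rw [mul_inv_le_iff₀ (lt_of_le_of_ne zero_le (Ne.symm hwπ)), one_mul]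
        exact hle2 hu2)
    (by
      intro v h1 h2
      exact mul_mem (pow_mem (h1 u) m) (inv_mem_of_notMem_nonunits (h1 h) (hhor v h1 h2)))
  have hrel : u ^ m * r = h * a := by
    apply hinj
    rw [map_mul, map_mul, map_pow, ← hx]
    field_simp
  -- Step 2: `a ∉ 𝔫`
  have ha : a ∉ 𝔫 := by
    obtain ⟨s₀, c₀, hs₀, hsc⟩ := hord
    intro ha
    have hP1 : (vCentre (V i₁) (hV i₁)).IsPrime := inferInstance
    have key : u ^ m * (s₀ * r - c₀ * a) = (s₀ * h - c₀ * u ^ m) * a := by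
      have : u ^ m * (s₀ * r - c₀ * a) = s₀ * (u ^ m * r) - c₀ * u ^ m * a := by ring
      rw [this, hrel]; ring
    have hmem : u ^ m * (s₀ * r - c₀ * a) ∈ vCentre (V i₁) (hV i₁) := by
      rw [key]; exact Ideal.mul_mem_right _ _ hsc
    have hmem2 : s₀ * r - c₀ * a ∈ vCentre (V i₁) (hV i₁) := by
      rcases hP1.mem_or_mem hmem with h' | h'
      · exact absurd (hP1.mem_of_pow_mem m h') hu1
      · exact h'
    have h3 : s₀ * r ∈ 𝔫 := by
      have : s₀ * r = (s₀ * r - c₀ * a) + c₀ * a := by ring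
      rw [this]
      exact 𝔫.add_mem (h1le hmem2) (𝔫.mul_mem_left _ ha)
    exact (h𝔫.mem_or_mem h3).elim hs₀ hr
  -- the second vertical valuation of `u`
  have hwu : w (algebraMap R F u) = w π := by
    have h1 := congrArg (fun x => w (algebraMap R F x)) hrel
    simp only [map_mul, map_pow] at h1
    have hc2 : ∀ x : R, algebraMap R F x ∈ (V i₂).nonunits → x ∈ 𝔫 := fun x hx =>
      h2le ((mem_vCentre_iff (V i₂) (hV i₂)).2 hx)
    rw [valuation_eq_one_of_notMem 𝔫 (hV i₂) hc2 hr, valuation_eq_one_of_notMem 𝔫 (hV i₂) hc2 ha,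
      mul_one, mul_one, hh2] at h1
    exact (pow_left_inj₀ zero_le zero_le hm).1 h1
  -- Step 3: `r' / u ∈ R_𝔫` for `r' ∈ P₂`
  intro r' hr'
  obtain ⟨c, s, hs, hx'⟩ := exists_mul_eq_of_valuationSubrings_at (K := K) hϖ V hV hϖV hsat 𝔫
    (algebraMap R F r' * (algebraMap R F u)⁻¹)
    (by
      intro i hi
      rcases hthrough i hi with rfl | rfl
      · refine mul_mem (hV _ r') ?_
        rw [← (V _).valuation_le_one_iff, map_inv₀, hval1 hu1, inv_one]
      · rw [← (V _).valuation_le_one_iff, map_mul, map_inv₀]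
        show w (algebraMap R F r') * (w (algebraMap R F u))⁻¹ ≤ 1
        rw [hwu, mul_inv_le_iff₀ (lt_of_le_of_ne zero_le (Ne.symm hwπ)), one_mul]
        exact hle2 hr')
    (by
      intro v h1 h2
      refine mul_mem (h1 r') ?_
      rw [← v.toValuationSubring.valuation_le_one_iff, map_inv₀,
        valuation_eq_one_of_pow_mul_eq 𝔫 h1 h2 hm hr ha (hhor v h1 h2) hrel, inv_one])
  refine ⟨s, c, hs, ?_⟩
  apply hinj
  rw [map_mul, map_mul, ← hx']
  field_simp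

end Main

/-! ### Consequences and the congruence `h ≡ c u ^ m` -/

section Consequences

variable (𝔫 : Ideal R) [h𝔫 : 𝔫.IsPrime]

/-- **Regular system of parameters.**  If `𝔫 R_𝔫 = (u, v, ϖ)` and `ϖ ∈ u R_𝔫` then
`𝔫 R_𝔫 = (u, v)`. -/
theorem exists_mul_mem_span_pair {u v p : R}
    (hp : ∃ s c : R, s ∉ 𝔫 ∧ s * p = c * u)
    (hgen : ∀ x ∈ 𝔫, ∃ s : R, s ∉ 𝔫 ∧ s * x ∈ Ideal.span {u, v, p}) :
    ∀ x ∈ 𝔫, ∃ s : R, s ∉ 𝔫 ∧ s * x ∈ Ideal.span {u, v} := by
  obtain ⟨s₀, c₀, hs₀, hsc⟩ := hp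
  intro x hx
  obtain ⟨s, hs, hmem⟩ := hgen x hx
  obtain ⟨a, z, hz, hsum⟩ := Ideal.mem_span_insert.1 hmem
  obtain ⟨b, z', hz', hsum'⟩ := Ideal.mem_span_insert.1 hz
  obtain ⟨d, rfl⟩ := Ideal.mem_span_singleton'.1 hz'
  refine ⟨s₀ * s, fun h => (h𝔫.mem_or_mem h).elim hs₀ hs, ?_⟩
  have : s₀ * s * x = (s₀ * a + d * c₀) * u + (s₀ * b) * v := by
    rw [mul_assoc, hsum, hsum']
    have : s₀ * (a * u + (b * v + d * p)) = s₀ * a * u + s₀ * b * v + d * (s₀ * p) := by ring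
    rw [this, hsc]; ring
  rw [this]
  exact Ideal.add_mem _ (Ideal.mul_mem_left _ _ (Ideal.subset_span (by simp)))
    (Ideal.mul_mem_left _ _ (Ideal.subset_span (by simp)))

/-- If `u` generates `𝔫` modulo the prime `P`, locally at `𝔫`, then `u ^ m` generates `𝔫 ^ m`
modulo `P`, locally at `𝔫`. -/
theorem exists_mul_sub_mem_of_mem_pow (P : Ideal R) {u : R}
    (hgen : ∀ x ∈ 𝔫, ∃ s c : R, s ∉ 𝔫 ∧ s * x - c * u ∈ P) (m : ℕ) :
    ∀ x ∈ 𝔫 ^ m, ∃ s c : R, s ∉ 𝔫 ∧ s * x - c * u ^ m ∈ P := by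
  induction m with
  | zero =>
    intro x _
    exact ⟨1, x, fun h => h𝔫.ne_top ((Ideal.eq_top_iff_one _).2 h), by simp⟩
  | succ m ih =>
    intro x hx
    rw [pow_succ] at hx
    refine Submodule.mul_induction_on hx ?_ ?_
    · intro y hy z hz
      obtain ⟨s₁, c₁, hs₁, h₁⟩ := ih y hy
      obtain ⟨s₂, c₂, hs₂, h₂⟩ := hgen z hz
      refine ⟨s₁ * s₂, c₁ * c₂, fun h => (h𝔫.mem_or_mem h).elim hs₁ hs₂, ?_⟩
      have : s₁ * s₂ * (y * z) - c₁ * c₂ * u ^ (m + 1) =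
          (s₁ * y - c₁ * u ^ m) * (s₂ * z) + (c₁ * u ^ m) * (s₂ * z - c₂ * u) := by ring
      rw [this]
      exact P.add_mem (P.mul_mem_right _ h₁) (P.mul_mem_left _ h₂)
    · intro y z ⟨s₁, c₁, hs₁, h₁⟩ ⟨s₂, c₂, hs₂, h₂⟩
      refine ⟨s₁ * s₂, s₂ * c₁ + s₁ * c₂, fun h => (h𝔫.mem_or_mem h).elim hs₁ hs₂, ?_⟩
      have : s₁ * s₂ * (y + z) - (s₂ * c₁ + s₁ * c₂) * u ^ (m + 1) =
          s₂ * (s₁ * y - c₁ * u ^ (m + 1)) + s₁ * (s₂ * z - c₂ * u ^ (m + 1)) := by ring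
      rw [this]
      exact P.add_mem (P.mul_mem_left _ h₁) (P.mul_mem_left _ h₂)

/-- The congruence `hord` of `exists_mul_eq_of_crossing` from `h ∈ P + 𝔫 ^ m`
(`ord_y (h | C₁) ≥ m`), when `u` generates `𝔫` modulo `P`, locally at `𝔫`. -/
theorem hord_of_mem_sup_pow (P : Ideal R) {u h : R} {m : ℕ}
    (hgen : ∀ x ∈ 𝔫, ∃ s c : R, s ∉ 𝔫 ∧ s * x - c * u ∈ P) (hh : h ∈ P ⊔ 𝔫 ^ m) :
    ∃ s c : R, s ∉ 𝔫 ∧ s * h - c * u ^ m ∈ P := by
  obtain ⟨p, hp, x, hx, rfl⟩ := Submodule.mem_sup.1 hh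
  obtain ⟨s, c, hs, hsc⟩ := exists_mul_sub_mem_of_mem_pow 𝔫 P hgen m x hx
  refine ⟨s, c, hs, ?_⟩
  have : s * (p + x) - c * u ^ m = s * p + (s * x - c * u ^ m) := by ring
  rw [this]
  exact P.add_mem (P.mul_mem_left _ hp) hsc

/-- `hgen` for a crossing coordinate: if `𝔫 R_𝔫 = (u, v, p)` with `v, p ∈ P` then `u` generates `𝔫`
modulo `P`, locally at `𝔫`. -/
theorem hgen_of_span_triple (P : Ideal R) {u v p : R} (hv : v ∈ P) (hp : p ∈ P)
    (hgen : ∀ x ∈ 𝔫, ∃ s : R, s ∉ 𝔫 ∧ s * x ∈ Ideal.span {u, v, p}) :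
    ∀ x ∈ 𝔫, ∃ s c : R, s ∉ 𝔫 ∧ s * x - c * u ∈ P := by
  intro x hx
  obtain ⟨s, hs, hmem⟩ := hgen x hx
  obtain ⟨a, z, hz, hsum⟩ := Ideal.mem_span_insert.1 hmem
  obtain ⟨b, z', hz', hsum'⟩ := Ideal.mem_span_insert.1 hz
  obtain ⟨d, rfl⟩ := Ideal.mem_span_singleton'.1 hz'
  refine ⟨s, a, hs, ?_⟩
  rw [hsum, hsum', add_sub_cancel_left]
  exact P.add_mem (P.mul_mem_left _ hv) (P.mul_mem_left _ hp)

end Consequences

end Fermat.Agent.S36.RegularCrossing
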