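/-
S36 block [N], part (N-G): general norm–residue lemmas.  Mathlib only.

* `residue_norm` : for a local ring `A` and a finite free `A`-algebra `B`,
  `N_{B/A}(b) mod 𝔪 = N_{(B/𝔪B)/k}(b mod 𝔪B)`.
* `algebraNorm_prod` : the norm of a product of two algebras is the product of the norms.
* `norm_of_scalar_add_nilpotent` : on a finite-dimensional `k`-algebra, `N(c + ν) = c ^ dim` for `ν`
  nilpotent.
* `norm_of_pow_mem` : for a field extension `k'/k` of degree `q = char k` in which every `q`-th
  power lies in `k`, `N(x) = x ^ q`.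
-/
import Mathlib

set_option autoImplicit false

noncomputable section

namespace Fermat.Agent.S36.NormResidueGen

open IsLocalRing Module

section Residue

variable {A B : Type*} [CommRing A] [CommRing B] [Algebra A B] [IsLocalRing A]
  [Module.Finite A B] [Module.Free A B]

attribute [local instance] Ideal.Quotient.field

/-- **(G1)** The norm commutes with reduction modulo the maximal ideal. -/
theorem residue_norm (b : B) :
    Ideal.Quotient.mk (maximalIdeal A) (Algebra.norm A b) =
      Algebra.norm (A ⧸ maximalIdeal A)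
        (Ideal.Quotient.mk ((maximalIdeal A).map (algebraMap A B)) b) := by
  classical
  let ι := Module.Free.ChooseBasisIndex A B
  let bas : Basis ι A B := Module.Free.chooseBasis A B
  rw [Algebra.norm_eq_matrix_det bas, Algebra.norm_eq_matrix_det (basisQuotient bas),
    RingHom.map_det]
  congr 1
  ext i j
  rw [RingHom.mapMatrix_apply, Matrix.map_apply, Algebra.leftMulMatrix_eq_repr_mul,
    Algebra.leftMulMatrix_eq_repr_mul, basisQuotient_apply, ← map_mul, basisQuotient_repr]

end Residue

section Prod

variable {k R₁ R₂ : Type*} [CommRing k] [CommRing R₁] [CommRing R₂] [Algebra k R₁] [Algebra k R₂]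
  [Module.Free k R₁] [Module.Finite k R₁] [Module.Free k R₂] [Module.Finite k R₂]

/-- **(G2)** The norm on a product algebra. -/
theorem algebraNorm_prod (x : R₁ × R₂) :
    Algebra.norm k x = Algebra.norm k x.1 * Algebra.norm k x.2 := by
  rw [Algebra.norm_apply, Algebra.norm_apply, Algebra.norm_apply, ← LinearMap.det_prodMap]
  congr 1

end Prod

section CharQ

variable {k R' : Type*} [Field k] [CommRing R'] [Algebra k R'] [Module.Finite k R']
  (q : ℕ) [hq : Fact q.Prime] [CharP k q]

/-- If `x ^ (q ^ s)` is the scalar `a`, then `N(x) ^ (q ^ s) = a ^ dim`. -/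
theorem norm_pow_eq_of_pow_eq (x : R') (a : k) (s : ℕ) (h : x ^ (q ^ s) = algebraMap k R' a) :
    Algebra.norm k x ^ (q ^ s) = a ^ finrank k R' := by
  rw [← map_pow, h, Algebra.norm_algebraMap]

include hq in
theorem pow_q_pow_injective (s : ℕ) : Function.Injective (fun x : k => x ^ (q ^ s)) := by
  intro x y hxy
  have := iterateFrobenius_inj k q s
  apply this
  simpa [iterateFrobenius_def] using hxy

/-- **(G3)** `N(x) = c ^ dim` if `x ^ (q ^ s) = c ^ (q ^ s)` (e.g. `x = c + nilpotent`). -/
theorem norm_eq_pow_finrank_of_pow_eq (x : R') (c : k) (s : ℕ)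
    (h : x ^ (q ^ s) = algebraMap k R' (c ^ (q ^ s))) :
    Algebra.norm k x = c ^ finrank k R' := by
  apply pow_q_pow_injective (k := k) q s
  change Algebra.norm k x ^ (q ^ s) = (c ^ finrank k R') ^ (q ^ s)
  rw [norm_pow_eq_of_pow_eq q x _ s h, ← pow_mul, ← pow_mul, mul_comm]

/-- **(G4)** If `[R' : k] = q` and `x ^ q` is the scalar `a`, then `N(x) = a`. -/
theorem norm_eq_of_pow_q_eq (hdim : finrank k R' = q) (x : R') (a : k)
    (h : x ^ q = algebraMap k R' a) : Algebra.norm k x = a := by
  apply pow_q_pow_injective (k := k) q 1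
  change Algebra.norm k x ^ (q ^ 1) = a ^ (q ^ 1)
  rw [norm_pow_eq_of_pow_eq q x a 1 (by simpa using h), hdim, pow_one]

end CharQ

end Fermat.Agent.S36.NormResidueGen
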