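/-
S36 block [N], parts (N-A), (N-B): norm–residue formulas in the "places into `Ω`" language.
Mathlib only (+ `NormResidueGen`).

`A` a local ring with `θ : A →+* Ω` of kernel `𝔪_A` (`Ω` a field of characteristic `q`), `B` a finite
free `A`-algebra of rank `n`.

* `norm_residue_insep` (N-B): one place `π : B →+* Ω` with `π ∘ algebraMap = φ ∘ θ`,
  `ker π = 𝔪_A B`, `n = q`, and `π(b)^q ∈ φ(θ A)` for all `b`  ⟹  `φ (θ (N b)) = π b ^ q`.
* `norm_residue_two'`, `norm_residue_two` (N-A): two places `π_a, π_b` over `θ`, of residue degree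
  one, with `𝔪_A B = ker π_a ⊓ J`, `(ker π_b)^m ≤ J` and `ker π_a`, `ker π_b` coprime  ⟹
  `θ (N b) = π_a b * π_b b ^ (n - 1)`.
* `norm_two_char`: the underlying statement on a finite-dimensional algebra over a field.
-/
import Mathlib
import Fermat.Agent.S36.NormResidueGen

set_option autoImplicit false
set_option linter.unusedSectionVars false
set_option linter.style.haveILetI false

noncomputable section

namespace Fermat.Agent.S36.NormResiduePlaces

open IsLocalRing Module Fermat.Agent.S36.NormResidueGen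

section TwoChar

variable {k R Ω : Type*} [Field k] [CommRing R] [Algebra k R] [Module.Finite k R] [Field Ω]
  (q : ℕ) [hq : Fact q.Prime] [CharP k q]
  (ϑ : k →+* Ω) (χa χb : R →+* Ω)
  (ha : ∀ c, χa (algebraMap k R c) = ϑ c) (hb : ∀ c, χb (algebraMap k R c) = ϑ c)
  (dega : ∀ x, ∃ c, χa x = ϑ c)
  (J : Ideal R) (m : ℕ) (hJ : (RingHom.ker χb) ^ m ≤ J)
  (hfac : RingHom.ker χa ⊓ J = ⊥)
  (hcop : IsCoprime (RingHom.ker χa) (RingHom.ker χb))

/-- The CRT map as an algebra homomorphism. -/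
def crtHom (I J : Ideal R) : R →ₐ[k] (R ⧸ I) × (R ⧸ J) :=
  (Ideal.Quotient.mkₐ k I).prod (Ideal.Quotient.mkₐ k J)

theorem crtHom_bijective (I J : Ideal R) (hIJ : I ⊓ J = ⊥) (hc : IsCoprime I J) :
    Function.Bijective (crtHom (k := k) I J) := by
  constructor
  · rw [injective_iff_map_eq_zero]
    intro x hx
    have h1 : Ideal.Quotient.mk I x = 0 := congrArg Prod.fst hx
    have h2 : Ideal.Quotient.mk J x = 0 := congrArg Prod.snd hx
    rw [Ideal.Quotient.eq_zero_iff_mem] at h1 h2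
    have : x ∈ I ⊓ J := ⟨h1, h2⟩
    rw [hIJ] at this
    exact this
  · rintro ⟨y1, y2⟩
    obtain ⟨z, hz⟩ := (Ideal.quotientInfEquivQuotientProd I J hc).surjective (y1, y2)
    obtain ⟨x, rfl⟩ := Ideal.Quotient.mk_surjective z
    refine ⟨x, ?_⟩
    rw [← hz]
    rfl

/-- The CRT algebra isomorphism. -/
def crtEquiv (I J : Ideal R) (hIJ : I ⊓ J = ⊥) (hc : IsCoprime I J) :
    R ≃ₐ[k] (R ⧸ I) × (R ⧸ J) :=
  AlgEquiv.ofBijective (crtHom (k := k) I J) (crtHom_bijective I J hIJ hc)

theorem crtEquiv_apply (I J : Ideal R) (hIJ : I ⊓ J = ⊥) (hc : IsCoprime I J) (x : R) :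
    crtEquiv (k := k) I J hIJ hc x = (Ideal.Quotient.mk I x, Ideal.Quotient.mk J x) := rfl

include ha in
theorem mk_eq_algebraMap_of_eq (x : R) (c : k) (hc : χa x = ϑ c) :
    Ideal.Quotient.mk (RingHom.ker χa) x = algebraMap k (R ⧸ RingHom.ker χa) c := by
  rw [← Ideal.Quotient.mk_algebraMap, ← sub_eq_zero, ← map_sub,
    Ideal.Quotient.eq_zero_iff_mem, RingHom.mem_ker, map_sub, ha, hc, sub_self]

include ha dega in
/-- the quotient by the kernel of a degree-one character is one-dimensional. -/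
theorem algebraMap_quot_ker_bijective :
    Function.Bijective (algebraMap k (R ⧸ RingHom.ker χa)) := by
  have hne : RingHom.ker χa ≠ ⊤ := RingHom.ker_ne_top χa
  haveI : Nontrivial (R ⧸ RingHom.ker χa) := Ideal.Quotient.nontrivial_iff.mpr hne
  refine ⟨(algebraMap k (R ⧸ RingHom.ker χa)).injective, ?_⟩
  intro y
  obtain ⟨x, rfl⟩ := Ideal.Quotient.mk_surjective y
  obtain ⟨c, hc⟩ := dega x
  exact ⟨c, (mk_eq_algebraMap_of_eq ϑ χa ha x c hc).symm⟩

include ha dega in
theorem finrank_quot_ker : finrank k (R ⧸ RingHom.ker χa) = 1 := by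
  have e : k ≃ₗ[k] (R ⧸ RingHom.ker χa) :=
    LinearEquiv.ofBijective (Algebra.linearMap k (R ⧸ RingHom.ker χa))
      (algebraMap_quot_ker_bijective ϑ χa ha dega)
  rw [← e.finrank_eq, finrank_self]

include ha dega in
theorem norm_quot_ker (x : R) (c : k) (hc : χa x = ϑ c) :
    Algebra.norm k (Ideal.Quotient.mk (RingHom.ker χa) x) = c := by
  rw [mk_eq_algebraMap_of_eq ϑ χa ha x c hc, Algebra.norm_algebraMap,
    finrank_quot_ker ϑ χa ha dega, pow_one]

include hq hb hJ in
theorem norm_quot_ker_pow (x : R) (c : k) (hc : χb x = ϑ c) :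
    Algebra.norm k (Ideal.Quotient.mk J x) = c ^ finrank k (R ⧸ J) := by
  obtain ⟨s, hs⟩ : ∃ s, m ≤ q ^ s := ⟨m, (Nat.lt_pow_self hq.out.one_lt).le⟩
  haveI : Nontrivial R := χb.domain_nontrivial
  have hchar : CharP R q := charP_of_injective_algebraMap (algebraMap k R).injective q
  apply norm_eq_pow_finrank_of_pow_eq q _ c s
  have h1 : (x - algebraMap k R c) ^ (q ^ s) ∈ J := by
    apply hJ
    apply Ideal.pow_le_pow_right hs
    apply Ideal.pow_mem_pow
    rw [RingHom.mem_ker, map_sub, hb, hc, sub_self]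
  rw [sub_pow_char_pow, ← Ideal.Quotient.eq_zero_iff_mem, map_sub, sub_eq_zero, map_pow, map_pow,
    Ideal.Quotient.mk_algebraMap] at h1
  rw [h1, map_pow]

include hq ha hb dega hJ hfac hcop in
/-- **Two degree-one characters, the second with multiplicity** (`J` an ideal containing a power of
`ker χb`, with `ker χa ⊓ J = ⊥`). -/
theorem norm_two_char (x : R) (ca cb : k) (hca : χa x = ϑ ca) (hcb : χb x = ϑ cb) :
    Algebra.norm k x = ca * cb ^ (finrank k R - 1) := by
  have hc' : IsCoprime (RingHom.ker χa) J := by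
    have h1 : IsCoprime (RingHom.ker χa) ((RingHom.ker χb) ^ m) := hcop.pow_right
    obtain ⟨u, hu, v, hv, huv⟩ := Ideal.isCoprime_iff_exists.mp h1
    exact Ideal.isCoprime_iff_exists.mpr ⟨u, hu, v, hJ hv, huv⟩
  let e := crtEquiv (k := k) (RingHom.ker χa) J hfac hc'
  have hdim : finrank k R = 1 + finrank k (R ⧸ J) := by
    rw [e.toLinearEquiv.finrank_eq, finrank_prod, finrank_quot_ker ϑ χa ha dega]
  rw [← Algebra.norm_eq_of_algEquiv e x, crtEquiv_apply, algebraNorm_prod,
    norm_quot_ker ϑ χa ha dega x ca hca, norm_quot_ker_pow q ϑ χb hb J m hJ x cb hcb, hdim,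
    Nat.add_sub_cancel_left]

end TwoChar

attribute [local instance] Ideal.Quotient.field

variable {A B Ω : Type*} [CommRing A] [IsLocalRing A] [CommRing B] [Algebra A B]
  [Module.Finite A B] [Module.Free A B] [Field Ω]
  (q : ℕ) [hq : Fact q.Prime] [CharP Ω q]
  (θ : A →+* Ω) (hθ : RingHom.ker θ = maximalIdeal A)

/-- The residue field embedding induced by `θ`. -/
def thetaBar : (A ⧸ maximalIdeal A) →+* Ω :=
  Ideal.Quotient.lift (maximalIdeal A) θ (fun a ha => by rw [← hθ] at ha; exact ha)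

@[simp] theorem thetaBar_mk (a : A) : thetaBar θ hθ (Ideal.Quotient.mk _ a) = θ a := rfl

theorem thetaBar_injective : Function.Injective (thetaBar θ hθ) :=
  (thetaBar θ hθ).injective

include hθ in
theorem charP_residue : CharP (A ⧸ maximalIdeal A) q :=
  RingHom.charP (thetaBar θ hθ) (thetaBar_injective θ hθ) q

local notation "pB" => Ideal.map (algebraMap A B) (maximalIdeal A)

theorem finiteQuot : Module.Finite (A ⧸ maximalIdeal A) (B ⧸ pB) :=
  Module.Finite.of_restrictScalars_finite A _ _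

attribute [local instance] finiteQuot

include hθ in
/-- `θ (N b)` is computed on the special fibre. -/
theorem theta_norm (b : B) :
    θ (Algebra.norm A b) =
      thetaBar θ hθ (Algebra.norm (A ⧸ maximalIdeal A) (Ideal.Quotient.mk pB b)) := by
  rw [← residue_norm, thetaBar_mk]

section Insep

variable (φ : Ω →+* Ω) (π : B →+* Ω)
  (hπ : ∀ a : A, π (algebraMap A B a) = φ (θ a))
  (hker : RingHom.ker π = Ideal.map (algebraMap A B) (maximalIdeal A))
  (hdim : finrank A B = q)

include hθ hπ hker hdim in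
/-- **(N-B)** the purely inseparable one-prime case. -/
theorem norm_residue_insep (b : B) (a : A) (hb : π b ^ q = φ (θ a)) :
    φ (θ (Algebra.norm A b)) = π b ^ q := by
  haveI := charP_residue q θ hθ
  have h1 : (Ideal.Quotient.mk pB b) ^ q =
      algebraMap (A ⧸ maximalIdeal A) (B ⧸ pB) (Ideal.Quotient.mk _ a) := by
    rw [← map_pow, Ideal.Quotient.algebraMap_quotient_map_quotient, ← sub_eq_zero, ← map_sub,
      Ideal.Quotient.eq_zero_iff_mem, ← hker, RingHom.mem_ker, map_sub, map_pow, hb, hπ, sub_self]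
  have h2 := norm_eq_of_pow_q_eq (k := A ⧸ maximalIdeal A) (R' := B ⧸ pB) q
    (by rw [finrank_quotient_map, hdim]) _ _ h1
  rw [theta_norm θ hθ, h2, thetaBar_mk, hb]

end Insep

section Two

variable (πa πb : B →+* Ω)
  (hπa : ∀ a : A, πa (algebraMap A B a) = θ a)
  (hπb : ∀ a : A, πb (algebraMap A B a) = θ a)
  (J : Ideal B) (m : ℕ) (hJ : (RingHom.ker πb) ^ m ≤ J)
  (hfac : Ideal.map (algebraMap A B) (maximalIdeal A) = RingHom.ker πa ⊓ J)
  (hcop : IsCoprime (RingHom.ker πa) (RingHom.ker πb))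

include hθ hπa in
theorem map_le_ker : pB ≤ RingHom.ker πa := by
  rw [Ideal.map_le_iff_le_comap]
  intro a ha
  rw [Ideal.mem_comap, RingHom.mem_ker, hπa, ← RingHom.mem_ker, hθ]
  exact ha

/-- the place induced on the special fibre. -/
def barPlace : (B ⧸ pB) →+* Ω :=
  Ideal.Quotient.lift pB πa (fun _ hx => map_le_ker θ hθ πa hπa hx)

@[simp] theorem barPlace_mk (b : B) : barPlace θ hθ πa hπa (Ideal.Quotient.mk pB b) = πa b := rfl

theorem barPlace_algebraMap (c : A ⧸ maximalIdeal A) :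
    barPlace θ hθ πa hπa (algebraMap (A ⧸ maximalIdeal A) (B ⧸ pB) c) = thetaBar θ hθ c := by
  obtain ⟨a, rfl⟩ := Ideal.Quotient.mk_surjective c
  rw [Ideal.Quotient.algebraMap_quotient_map_quotient, barPlace_mk, hπa, thetaBar_mk]

theorem ker_barPlace :
    RingHom.ker (barPlace θ hθ πa hπa) = (RingHom.ker πa).map (Ideal.Quotient.mk pB) :=
  Ideal.ker_quotient_lift _ _

include hq hθ hπa hπb hJ hfac hcop in
/-- **(N-A)** two places of residue degree one, the second with multiplicity: `J` is an ideal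
containing a power of `ker πb` with `𝔪_A B = ker πa ⊓ J`. -/
theorem norm_residue_two' (dega : ∀ b, ∃ a, πa b = θ a) (degb : ∀ b, ∃ a, πb b = θ a) (b : B) :
    θ (Algebra.norm A b) = πa b * πb b ^ (finrank A B - 1) := by
  haveI := charP_residue q θ hθ
  obtain ⟨a₁, ha₁⟩ := dega b
  obtain ⟨a₂, ha₂⟩ := degb b
  have hle : pB ≤ J := by
    rw [hfac]; exact inf_le_right
  have hJ' : (RingHom.ker (barPlace θ hθ πb hπb)) ^ m ≤ J.map (Ideal.Quotient.mk pB) := by
    rw [ker_barPlace, ← Ideal.map_pow]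
    exact Ideal.map_mono hJ
  have hfac' : RingHom.ker (barPlace θ hθ πa hπa) ⊓ J.map (Ideal.Quotient.mk pB) = ⊥ := by
    rw [eq_bot_iff]
    rintro y ⟨hy1, hy2⟩
    obtain ⟨x, rfl⟩ := Ideal.Quotient.mk_surjective y
    rw [SetLike.mem_coe, RingHom.mem_ker, barPlace_mk] at hy1
    rw [SetLike.mem_coe, Ideal.mem_map_iff_of_surjective _ Ideal.Quotient.mk_surjective] at hy2
    obtain ⟨x', hx', hxx'⟩ := hy2
    have h1 : x - x' ∈ pB := by
      rw [← Ideal.Quotient.eq_zero_iff_mem, map_sub, hxx', sub_self]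
    have h2 : x ∈ J := by
      have := add_mem (hle h1) hx'
      rwa [sub_add_cancel] at this
    rw [Ideal.mem_bot, Ideal.Quotient.eq_zero_iff_mem, hfac]
    exact ⟨hy1, h2⟩
  have hcop' : IsCoprime (RingHom.ker (barPlace θ hθ πa hπa))
      (RingHom.ker (barPlace θ hθ πb hπb)) := by
    obtain ⟨u, hu, v, hv, huv⟩ := Ideal.isCoprime_iff_exists.mp hcop
    refine Ideal.isCoprime_iff_exists.mpr
      ⟨Ideal.Quotient.mk pB u, ?_, Ideal.Quotient.mk pB v, ?_, ?_⟩
    · rw [RingHom.mem_ker, barPlace_mk]; exact hu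
    · rw [RingHom.mem_ker, barPlace_mk]; exact hv
    · rw [← map_add, huv, map_one]
  have key := norm_two_char (k := A ⧸ maximalIdeal A) (R := B ⧸ pB) q (thetaBar θ hθ)
    (barPlace θ hθ πa hπa) (barPlace θ hθ πb hπb) (barPlace_algebraMap θ hθ πa hπa)
    (barPlace_algebraMap θ hθ πb hπb)
    (by
      intro y
      obtain ⟨x, rfl⟩ := Ideal.Quotient.mk_surjective y
      obtain ⟨a, ha⟩ := dega x
      exact ⟨Ideal.Quotient.mk _ a, by rw [barPlace_mk, thetaBar_mk, ha]⟩)
    (J.map (Ideal.Quotient.mk pB)) m hJ' hfac' hcop' (Ideal.Quotient.mk pB b)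
    (Ideal.Quotient.mk _ a₁) (Ideal.Quotient.mk _ a₂)
    (by rw [barPlace_mk, thetaBar_mk, ha₁]) (by rw [barPlace_mk, thetaBar_mk, ha₂])
  rw [theta_norm θ hθ, key, finrank_quotient_map, map_mul, map_pow, thetaBar_mk, thetaBar_mk,
    ha₁, ha₂]

omit hJ hfac in
include hq hθ hπa hπb hcop in
/-- **(N-A)**, ideal-theoretic form: `𝔪_A B = ker πa ⊓ (ker πb) ^ m`. -/
theorem norm_residue_two
    (hfac : Ideal.map (algebraMap A B) (maximalIdeal A) = RingHom.ker πa ⊓ (RingHom.ker πb) ^ m)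
    (dega : ∀ b, ∃ a, πa b = θ a) (degb : ∀ b, ∃ a, πb b = θ a) (b : B) :
    θ (Algebra.norm A b) = πa b * πb b ^ (finrank A B - 1) :=
  norm_residue_two' q θ hθ πa πb hπa hπb _ m le_rfl hfac hcop dega degb b

end Two

end Fermat.Agent.S36.NormResiduePlaces
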