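/-
S36 block [N], place-free forms (1/2): the norm–residue formulas WITHOUT places, in terms of ideals.
Mathlib + `S36/NormResiduePlaces` (CRT algebra isomorphism) only.

* `norm_two_ideal` : `R` a finite-dimensional algebra over a field `k` of characteristic `q`; ideals
  `Ia` (residue degree one), `Pb`, `J` with `Pb ^ m ≤ J`, `Ia ⊓ J = ⊥`, `Ia`, `Pb` coprime; if
  `x ≡ ca mod Ia` and `x ≡ cb mod Pb` (`ca, cb ∈ k`) then `N(x) = ca * cb ^ (dim R - 1)`.
* `norm_split_local` : `A` local with residue characteristic `q`, `B` finite free over `A`;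
  `𝔪_A B = Pa ⊓ J` etc.; `b ≡ a₁ mod Pa`, `b ≡ a₂ mod Pb` ⟹ `N(b) ≡ a₁ a₂ ^ (n - 1) mod 𝔪_A`.
* `norm_insep_local` : `[B : A] = q`, `b ^ q ≡ a mod 𝔪_A B` ⟹ `N(b) ≡ a mod 𝔪_A`.
-/
import Mathlib
import Fermat.Agent.S36.NormResiduePlaces

set_option autoImplicit false
set_option linter.unusedSectionVars false
set_option linter.style.haveILetI false

noncomputable section

namespace Fermat.Agent.S36.NormResidueFree

open IsLocalRing Module Fermat.Agent.S36.NormResidueGen Fermat.Agent.S36.NormResiduePlaces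

section TwoIdeal

variable {k R : Type*} [Field k] [CommRing R] [Algebra k R] [Module.Finite k R]
  (q : ℕ) [hq : Fact q.Prime] [CharP k q]
  (Ia Pb J : Ideal R) (hIa : Ia ≠ ⊤)
  (dega : ∀ x : R, ∃ c : k, x - algebraMap k R c ∈ Ia)
  (m : ℕ) (hJ : Pb ^ m ≤ J) (hfac : Ia ⊓ J = ⊥) (hcop : IsCoprime Ia Pb)

include hIa dega in
theorem finrank_quot_of_deg_one : finrank k (R ⧸ Ia) = 1 := by
  haveI : Nontrivial (R ⧸ Ia) := Ideal.Quotient.nontrivial_iff.mpr hIa
  have hbij : Function.Bijective (algebraMap k (R ⧸ Ia)) := by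
    refine ⟨(algebraMap k (R ⧸ Ia)).injective, ?_⟩
    intro y
    obtain ⟨x, rfl⟩ := Ideal.Quotient.mk_surjective y
    obtain ⟨c, hc⟩ := dega x
    refine ⟨c, ?_⟩
    rw [← Ideal.Quotient.mk_algebraMap, eq_comm, ← sub_eq_zero, ← map_sub,
      Ideal.Quotient.eq_zero_iff_mem]
    exact hc
  have e : k ≃ₗ[k] (R ⧸ Ia) := LinearEquiv.ofBijective (Algebra.linearMap k (R ⧸ Ia)) hbij
  rw [← e.finrank_eq, finrank_self]

include hq hIa dega hJ hfac hcop in
/-- **Two ideals, the first of residue degree one, the second with multiplicity** (place-free form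
of `NormResiduePlaces.norm_two_char`). -/
theorem norm_two_ideal (x : R) (ca cb : k) (hca : x - algebraMap k R ca ∈ Ia)
    (hcb : x - algebraMap k R cb ∈ Pb) :
    Algebra.norm k x = ca * cb ^ (finrank k R - 1) := by
  have hc' : IsCoprime Ia J := by
    have h1 : IsCoprime Ia (Pb ^ m) := hcop.pow_right
    obtain ⟨u, hu, v, hv, huv⟩ := Ideal.isCoprime_iff_exists.mp h1
    exact Ideal.isCoprime_iff_exists.mpr ⟨u, hu, v, hJ hv, huv⟩
  let e := crtEquiv (k := k) Ia J hfac hc'
  have hdim : finrank k R = 1 + finrank k (R ⧸ J) := by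
    rw [e.toLinearEquiv.finrank_eq, finrank_prod, finrank_quot_of_deg_one Ia hIa dega]
  -- first factor
  have h1 : Algebra.norm k (Ideal.Quotient.mk Ia x) = ca := by
    have : Ideal.Quotient.mk Ia x = algebraMap k (R ⧸ Ia) ca := by
      rw [← Ideal.Quotient.mk_algebraMap, ← sub_eq_zero, ← map_sub, Ideal.Quotient.eq_zero_iff_mem]
      exact hca
    rw [this, Algebra.norm_algebraMap, finrank_quot_of_deg_one Ia hIa dega, pow_one]
  -- second factor
  have h2 : Algebra.norm k (Ideal.Quotient.mk J x) = cb ^ finrank k (R ⧸ J) := by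
    obtain ⟨s, hs⟩ : ∃ s, m ≤ q ^ s := ⟨m, (Nat.lt_pow_self hq.out.one_lt).le⟩
    haveI : Nontrivial R := by
      by_contra hnt
      rw [not_nontrivial_iff_subsingleton] at hnt
      exact hIa (Subsingleton.elim _ _)
    have hchar : CharP R q := charP_of_injective_algebraMap (algebraMap k R).injective q
    apply norm_eq_pow_finrank_of_pow_eq q _ cb s
    have h3 : (x - algebraMap k R cb) ^ (q ^ s) ∈ J :=
      hJ (Ideal.pow_le_pow_right hs (Ideal.pow_mem_pow hcb _))
    rw [sub_pow_char_pow, ← Ideal.Quotient.eq_zero_iff_mem, map_sub, sub_eq_zero, map_pow, map_pow,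
      Ideal.Quotient.mk_algebraMap] at h3
    rw [h3, map_pow]
  rw [← Algebra.norm_eq_of_algEquiv e x, crtEquiv_apply, algebraNorm_prod, h1, h2, hdim,
    Nat.add_sub_cancel_left]

end TwoIdeal

attribute [local instance] Ideal.Quotient.field

section Local

variable {A B : Type*} [CommRing A] [IsLocalRing A] [CommRing B] [Algebra A B]
  [Module.Finite A B] [Module.Free A B]
  (q : ℕ) [hq : Fact q.Prime] [hchar : CharP (A ⧸ maximalIdeal A) q]

local notation "pB" => Ideal.map (algebraMap A B) (maximalIdeal A)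

attribute [local instance] finiteQuot

theorem mem_of_mk_mem_map {I : Ideal B} (hI : pB ≤ I) {b : B}
    (h : Ideal.Quotient.mk pB b ∈ I.map (Ideal.Quotient.mk pB)) : b ∈ I := by
  rw [Ideal.mem_map_iff_of_surjective _ Ideal.Quotient.mk_surjective] at h
  obtain ⟨b', hb', hbb'⟩ := h
  have h1 : b - b' ∈ pB := by
    rw [← Ideal.Quotient.eq_zero_iff_mem, map_sub, hbb', sub_self]
  have := add_mem (hI h1) hb'
  rwa [sub_add_cancel] at this

include hq hchar in
/-- **(N-A), place-free, local form.** `𝔪_A B = Pa ⊓ J`, `Pb ^ m ≤ J`, `Pa`, `Pb` coprime, `Pa` of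
residue degree one: if `b ≡ a₁ mod Pa` and `b ≡ a₂ mod Pb` then
`N(b) ≡ a₁ a₂ ^ (n - 1) mod 𝔪_A`. -/
theorem norm_split_local (Pa Pb J : Ideal B) (hPa : Pa ≠ ⊤)
    (dega : ∀ b : B, ∃ a : A, b - algebraMap A B a ∈ Pa)
    (m : ℕ) (hJ : Pb ^ m ≤ J) (hfac : pB = Pa ⊓ J) (hcop : IsCoprime Pa Pb)
    (b : B) (a₁ a₂ : A) (h₁ : b - algebraMap A B a₁ ∈ Pa) (h₂ : b - algebraMap A B a₂ ∈ Pb) :
    Algebra.norm A b - a₁ * a₂ ^ (finrank A B - 1) ∈ maximalIdeal A := by
  have hlea : pB ≤ Pa := by rw [hfac]; exact inf_le_left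
  have hleJ : pB ≤ J := by rw [hfac]; exact inf_le_right
  have key := norm_two_ideal (k := A ⧸ maximalIdeal A) (R := B ⧸ pB) q
    (Pa.map (Ideal.Quotient.mk pB)) (Pb.map (Ideal.Quotient.mk pB)) (J.map (Ideal.Quotient.mk pB))
    (by
      intro htop
      apply hPa
      rw [Ideal.eq_top_iff_one]
      apply mem_of_mk_mem_map hlea
      rw [htop]
      exact Submodule.mem_top)
    (by
      intro y
      obtain ⟨x, rfl⟩ := Ideal.Quotient.mk_surjective y
      obtain ⟨a, ha⟩ := dega x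
      refine ⟨Ideal.Quotient.mk _ a, ?_⟩
      rw [Ideal.Quotient.algebraMap_quotient_map_quotient, ← map_sub]
      exact Ideal.mem_map_of_mem _ ha)
    m
    (by rw [← Ideal.map_pow]; exact Ideal.map_mono hJ)
    (by
      rw [eq_bot_iff]
      rintro y ⟨hy1, hy2⟩
      obtain ⟨x, rfl⟩ := Ideal.Quotient.mk_surjective y
      have h1 := mem_of_mk_mem_map hlea hy1
      have h2 := mem_of_mk_mem_map hleJ hy2
      rw [Ideal.mem_bot, Ideal.Quotient.eq_zero_iff_mem, hfac]
      exact ⟨h1, h2⟩)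
    (by
      obtain ⟨u, hu, v, hv, huv⟩ := Ideal.isCoprime_iff_exists.mp hcop
      refine Ideal.isCoprime_iff_exists.mpr
        ⟨Ideal.Quotient.mk pB u, Ideal.mem_map_of_mem _ hu, Ideal.Quotient.mk pB v,
          Ideal.mem_map_of_mem _ hv, ?_⟩
      rw [← map_add, huv, map_one])
    (Ideal.Quotient.mk pB b) (Ideal.Quotient.mk _ a₁) (Ideal.Quotient.mk _ a₂)
    (by
      rw [Ideal.Quotient.algebraMap_quotient_map_quotient, ← map_sub]
      exact Ideal.mem_map_of_mem _ h₁)
    (by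
      rw [Ideal.Quotient.algebraMap_quotient_map_quotient, ← map_sub]
      exact Ideal.mem_map_of_mem _ h₂)
  rw [← Ideal.Quotient.eq_zero_iff_mem, map_sub, map_mul, map_pow, residue_norm, key,
    finrank_quotient_map, sub_self]

include hq hchar in
/-- **(N-B), place-free, local form.** `[B : A] = q` and `b ^ q ≡ a mod 𝔪_A B` ⟹
`N(b) ≡ a mod 𝔪_A`. -/
theorem norm_insep_local (hdim : finrank A B = q) (b : B) (a : A)
    (h : b ^ q - algebraMap A B a ∈ pB) : Algebra.norm A b - a ∈ maximalIdeal A := by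
  have h1 : (Ideal.Quotient.mk pB b) ^ q =
      algebraMap (A ⧸ maximalIdeal A) (B ⧸ pB) (Ideal.Quotient.mk _ a) := by
    rw [← map_pow, Ideal.Quotient.algebraMap_quotient_map_quotient, ← sub_eq_zero, ← map_sub,
      Ideal.Quotient.eq_zero_iff_mem]
    exact h
  have h2 := norm_eq_of_pow_q_eq (k := A ⧸ maximalIdeal A) (R' := B ⧸ pB) q
    (by rw [finrank_quotient_map, hdim]) _ _ h1
  rw [← Ideal.Quotient.eq_zero_iff_mem, map_sub, residue_norm, h2, sub_self]

end Local

end Fermat.Agent.S36.NormResidueFree
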