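/-
S36 block [N], part (N-V): the norm–residue and norm–valuation formulas in the language of
valuation subrings with places (the language of block [V]).  Mathlib + `N4F/E/TwoPrimes` (structure of
the integral closure of a DVR) + `S36/NormResiduePlaces`.

Setting: `A` a DVR with uniformiser `ϖ`, `F = Frac A`, `L / F` finite separable, `θ : A →+* Ω` a place
with kernel `𝔪_A`, `Ω` a field of characteristic `q`.

* `norm_residue_two_vs` : two valuation subrings `Va`, `Vb` of `L` over `A` with places `eva`, `evb`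
  over `θ` of residue degree one; `Va` unramified (`rama`), `Vb` with uniformiser `t` and
  `t ^ m / ϖ ∈ Vb`; `Va ∩ Vb` integral over `A`; `[L : F] = m + 1`.  Then for `b ∈ Va ∩ Vb`:
  `N_{L/F}(b) = ν ∈ A` with `θ ν = eva b * evb b ^ m`.
* `norm_residue_insep_vs` : one valuation subring `V` over `A`, unramified, its place `ev` over
  `φ ∘ θ` with `ev(y)^q ∈ φ(θ A)`; `V` integral over `A`; `[L : F] = q`.  Then for `b ∈ V`:
  `N(b) = ν ∈ A` with `φ (θ ν) = ev b ^ q`.
* `norm_val_two` : in the first situation (with `v_b(ϖ) = m v_b(t)` exactly, `m ≥ 1`):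
  `v_a(x) = i`, `v_b(x) = j` ⟹ `N(x) = unit * ϖ ^ (i + j)`.
* `norm_val_insep` : in the second situation: `v(x) = i` ⟹ `N(x) = unit * ϖ ^ ([L : F] * i)`.
-/
import Mathlib
import Fermat.Agent.N4F.E.TwoPrimes
import Fermat.Agent.S36.NormResiduePlaces

set_option autoImplicit false
set_option maxHeartbeats 400000
set_option synthInstance.maxHeartbeats 400000
set_option linter.unusedSectionVars false
set_option linter.style.haveILetI false

noncomputable section

namespace Fermat.Agent.S36.NormVal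

open IsLocalRing Module Fermat.Agent.N4F.E.TwoPrimes Fermat.Agent.S36.NormResiduePlaces

section Basic

variable {A F L : Type*} [CommRing A] [IsDomain A] [IsDiscreteValuationRing A] [Field F]
  [Algebra A F] [IsFractionRing A F] [Field L] [Algebra F L] [Algebra A L] [IsScalarTower A F L]
  [FiniteDimensional F L] [Algebra.IsSeparable F L]

omit [IsDomain A] [IsDiscreteValuationRing A] in
/-- A valuation subring containing the image of `A` contains every element integral over `A`. -/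
theorem mem_of_isIntegral (V : ValuationSubring L) (hA : ∀ a : A, algebraMap A L a ∈ V) {y : L}
    (hy : IsIntegral A y) : y ∈ V := by
  obtain ⟨p, hp, hpy⟩ := hy
  let g : A →+* ↥V := (algebraMap A L).codRestrict V.toSubring hA
  have h1 : IsIntegral ↥V y := by
    refine ⟨p.map g, hp.map g, ?_⟩
    rw [Polynomial.eval₂_map]
    exact hpy
  obtain ⟨z, hz⟩ := IsIntegrallyClosed.isIntegral_iff.mp h1
  rw [← hz]
  exact z.2

variable (A F L) in
/-- The norm over `F` of an element of the integral closure is the image of its norm over `A`. -/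
theorem norm_coe_integralClosure (c : integralClosure A L) :
    Algebra.norm F (c : L) = algebraMap A F (Algebra.norm A c) := by
  obtain ⟨-, hfin, hfree, -⟩ := integralClosure_structure A F L (integralClosure A L)
  haveI := hfin
  haveI := hfree
  haveI : IsLocalization (Algebra.algebraMapSubmonoid (integralClosure A L) (nonZeroDivisors A)) L :=
    IsIntegralClosure.isLocalization A F L (integralClosure A L)
  exact Algebra.norm_localization A (nonZeroDivisors A) (Rₘ := F) (Sₘ := L) c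

variable (A F L) in
theorem finrank_integralClosure :
    finrank A (integralClosure A L) = finrank F L :=
  (integralClosure_structure A F L (integralClosure A L)).2.2.2

/-- The inclusion of the integral closure into a valuation subring containing `A`. -/
def incl (V : ValuationSubring L) (hA : ∀ a : A, algebraMap A L a ∈ V) :
    integralClosure A L →+* ↥V :=
  ((integralClosure A L).val.toRingHom).codRestrict V.toSubring
    (fun c => mem_of_isIntegral V hA c.2)

omit [IsDomain A] [IsDiscreteValuationRing A] in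
@[simp] theorem coe_incl (V : ValuationSubring L) (hA : ∀ a : A, algebraMap A L a ∈ V)
    (c : integralClosure A L) : ((incl V hA c : ↥V) : L) = (c : L) := rfl

end Basic

section Two

variable {A F L : Type*} [CommRing A] [IsDomain A] [IsDiscreteValuationRing A] [Field F]
  [Algebra A F] [IsFractionRing A F] [Field L] [Algebra F L] [Algebra A L] [IsScalarTower A F L]
  [FiniteDimensional F L] [Algebra.IsSeparable F L]
  {Ω : Type*} [Field Ω] (q : ℕ) [hq : Fact q.Prime] [CharP Ω q]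
  (θ : A →+* Ω) (hθ : RingHom.ker θ = maximalIdeal A)
  (ϖ : A) (hϖ : Irreducible ϖ)
  (Va Vb : ValuationSubring L)
  (hAa : ∀ a : A, algebraMap A L a ∈ Va) (hAb : ∀ a : A, algebraMap A L a ∈ Vb)
  (eva : ↥Va →+* Ω) (evb : ↥Vb →+* Ω)
  (heva : ∀ a : A, eva ⟨algebraMap A L a, hAa a⟩ = θ a)
  (hevb : ∀ a : A, evb ⟨algebraMap A L a, hAb a⟩ = θ a)
  (kera : ∀ y : ↥Va, eva y = 0 ↔ (y : L) ∈ Va.nonunits)
  (kerb : ∀ y : ↥Vb, evb y = 0 ↔ (y : L) ∈ Vb.nonunits)
  (dega : ∀ y : ↥Va, ∃ a : A, eva y = θ a)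
  (degb : ∀ y : ↥Vb, ∃ a : A, evb y = θ a)
  (rama : ∀ y ∈ Va.nonunits, y * (algebraMap A L ϖ)⁻¹ ∈ Va)
  (t : L) (hta : t ∈ Va) (hta' : t ∉ Va.nonunits) (htb : t ∈ Vb.nonunits)
  (unifb : ∀ y ∈ Vb.nonunits, y * t⁻¹ ∈ Vb)
  (m : ℕ) (ramb : t ^ m * (algebraMap A L ϖ)⁻¹ ∈ Vb)
  (hint : ∀ y : L, y ∈ Va → y ∈ Vb → IsIntegral A y)
  (hdeg : finrank F L = m + 1)

local notation "C" => integralClosure A L

include hq hθ hϖ heva hevb kera kerb dega degb rama hta hta' htb unifb ramb hint hdeg in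
/-- **(N-A), valuation-subring form, on the integral closure.** -/
theorem norm_residue_two_closure (c : integralClosure A L) :
    θ (Algebra.norm A c) =
      eva (incl Va hAa c) * evb (incl Vb hAb c) ^ m := by
  obtain ⟨-, hfin, hfree, hrank⟩ := integralClosure_structure A F L (integralClosure A L)
  haveI := hfin
  haveI := hfree
  let πa : C →+* Ω := eva.comp (incl Va hAa)
  let πb : C →+* Ω := evb.comp (incl Vb hAb)
  have hπa : ∀ a : A, πa (algebraMap A C a) = θ a := fun a => heva a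
  have hπb : ∀ a : A, πb (algebraMap A C a) = θ a := fun a => hevb a
  have hϖL : algebraMap A L ϖ ≠ 0 := by
    have hinj : Function.Injective (algebraMap A L) := by
      rw [IsScalarTower.algebraMap_eq A F L]
      exact (algebraMap F L).injective.comp (IsFractionRing.injective A F)
    rw [Ne, map_eq_zero_iff _ hinj]
    exact hϖ.ne_zero
  have hθϖ : θ ϖ = 0 := by
    rw [← RingHom.mem_ker, hθ, hϖ.maximalIdeal_eq]
    exact Ideal.mem_span_singleton_self ϖ
  -- `t` as an element of `C`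
  have htint : IsIntegral A t := hint t hta (Vb.nonunits_subset htb)
  let tc : C := ⟨t, htint⟩
  have hπbt : πb tc = 0 := (kerb _).2 htb
  have hπat : πa tc ≠ 0 := fun h => hta' ((kera _).1 h)
  -- coprimality
  have hcop : IsCoprime (RingHom.ker πa) (RingHom.ker πb) := by
    obtain ⟨a0, ha0⟩ := dega (incl Va hAa tc)
    have ha0' : θ a0 ≠ 0 := by rw [← ha0]; exact hπat
    have hu : IsUnit a0 := by
      by_contra hnu
      apply ha0'
      rw [← RingHom.mem_ker, hθ]
      exact (IsLocalRing.mem_maximalIdeal a0).2 hnu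
    obtain ⟨a1, ha1⟩ := hu.exists_right_inv
    refine Ideal.isCoprime_iff_exists.mpr
      ⟨1 - algebraMap A C a1 * tc, ?_, algebraMap A C a1 * tc, ?_, by ring⟩
    · rw [RingHom.mem_ker, map_sub, map_one, map_mul, hπa]
      have : πa tc = θ a0 := ha0
      rw [this, ← map_mul, mul_comm, ha1, map_one, sub_self]
    · rw [RingHom.mem_ker, map_mul, hπbt, mul_zero]
  -- the ideal `J`
  let ϖb : ↥Vb := ⟨algebraMap A L ϖ, hAb ϖ⟩
  let J : Ideal C := Ideal.comap (incl Vb hAb) (Ideal.span {ϖb})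
  have hJ : (RingHom.ker πb) ^ m ≤ J := by
    let tb : ↥Vb := ⟨t, Vb.nonunits_subset htb⟩
    have h1 : RingHom.ker evb ≤ Ideal.span {tb} := by
      intro y hy
      rw [RingHom.mem_ker, kerb] at hy
      rw [Ideal.mem_span_singleton']
      refine ⟨⟨_, unifb _ hy⟩, Subtype.ext ?_⟩
      have ht0 : t ≠ 0 := by
        rintro rfl
        exact hta' (by rw [Va.mem_nonunits_iff]; simp)
      change (y : L) * t⁻¹ * t = y
      rw [inv_mul_cancel_right₀ ht0]
    have h2 : Ideal.span {tb} ^ m ≤ Ideal.span {ϖb} := by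
      rw [Ideal.span_singleton_pow, Ideal.span_singleton_le_span_singleton]
      refine ⟨⟨_, ramb⟩, Subtype.ext ?_⟩
      change t ^ m = algebraMap A L ϖ * (t ^ m * (algebraMap A L ϖ)⁻¹)
      rw [mul_comm (t ^ m), mul_inv_cancel_left₀ hϖL]
    have h3 : RingHom.ker πb = Ideal.comap (incl Vb hAb) (RingHom.ker evb) := by
      ext x
      rw [Ideal.mem_comap, RingHom.mem_ker, RingHom.mem_ker]
      rfl
    rw [h3]
    exact (Ideal.le_comap_pow _ m).trans (Ideal.comap_mono ((Ideal.pow_right_mono h1 m).trans h2))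
  have hfac : Ideal.map (algebraMap A C) (maximalIdeal A) = RingHom.ker πa ⊓ J := by
    rw [hϖ.maximalIdeal_eq, Ideal.map_span, Set.image_singleton]
    ext x
    rw [Ideal.mem_span_singleton', Ideal.mem_inf, RingHom.mem_ker, Ideal.mem_comap,
      Ideal.mem_span_singleton']
    constructor
    · rintro ⟨w, rfl⟩
      refine ⟨?_, incl Vb hAb w, ?_⟩
      · rw [map_mul, hπa, hθϖ, mul_zero]
      · rw [map_mul]
        rfl
    · rintro ⟨h1, w, hw⟩
      have h1' : (x : L) ∈ Va.nonunits := (kera _).1 h1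
      have h2 : (x : L) * (algebraMap A L ϖ)⁻¹ ∈ Va := rama _ h1'
      have hw' : (w : L) * algebraMap A L ϖ = (x : L) := congrArg Subtype.val hw
      have h3 : (x : L) * (algebraMap A L ϖ)⁻¹ = (w : L) := by
        rw [← hw', mul_inv_cancel_right₀ hϖL]
      have h4 : IsIntegral A ((x : L) * (algebraMap A L ϖ)⁻¹) := by
        apply hint _ h2
        rw [h3]
        exact w.2
      refine ⟨⟨_, h4⟩, Subtype.ext ?_⟩
      change (x : L) * (algebraMap A L ϖ)⁻¹ * algebraMap A L ϖ = x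
      rw [inv_mul_cancel_right₀ hϖL]
  have key := norm_residue_two' (A := A) (B := C) q θ hθ πa πb hπa hπb J m hJ hfac hcop
    (fun b => dega _) (fun b => degb _) c
  rw [key, hrank, hdeg, Nat.add_sub_cancel]
  rfl

include hq hθ hϖ heva hevb kera kerb dega degb rama hta hta' htb unifb ramb hint hdeg in
/-- **(N-A), valuation-subring form**: for `b ∈ Va ∩ Vb`, the norm `N_{L/F}(b)` lies in `A` and
`θ (N b) = eva b * evb b ^ m`. -/
theorem norm_residue_two_vs {b : L} (hba : b ∈ Va) (hbb : b ∈ Vb) :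
    ∃ ν : A, algebraMap A F ν = Algebra.norm F b ∧ θ ν = eva ⟨b, hba⟩ * evb ⟨b, hbb⟩ ^ m := by
  refine ⟨Algebra.norm A (⟨b, hint b hba hbb⟩ : integralClosure A L),
    (norm_coe_integralClosure A F L ⟨b, hint b hba hbb⟩).symm, ?_⟩
  exact norm_residue_two_closure q θ hθ ϖ hϖ Va Vb hAa hAb eva evb heva hevb kera kerb dega degb
    rama t hta hta' htb unifb m ramb hint hdeg ⟨b, hint b hba hbb⟩

end Two

section Insep

variable {A F L : Type*} [CommRing A] [IsDomain A] [IsDiscreteValuationRing A] [Field F]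
  [Algebra A F] [IsFractionRing A F] [Field L] [Algebra F L] [Algebra A L] [IsScalarTower A F L]
  [FiniteDimensional F L] [Algebra.IsSeparable F L]
  {Ω : Type*} [Field Ω] (q : ℕ) [hq : Fact q.Prime] [CharP Ω q]
  (θ : A →+* Ω) (hθ : RingHom.ker θ = maximalIdeal A) (φ : Ω →+* Ω)
  (ϖ : A) (hϖ : Irreducible ϖ)
  (V : ValuationSubring L)
  (hA : ∀ a : A, algebraMap A L a ∈ V)
  (ev : ↥V →+* Ω)
  (hev : ∀ a : A, ev ⟨algebraMap A L a, hA a⟩ = φ (θ a))
  (ker : ∀ y : ↥V, ev y = 0 ↔ (y : L) ∈ V.nonunits)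
  (insep : ∀ y : ↥V, ∃ a : A, ev y ^ q = φ (θ a))
  (ram : ∀ y ∈ V.nonunits, y * (algebraMap A L ϖ)⁻¹ ∈ V)
  (hint : ∀ y : L, y ∈ V → IsIntegral A y)
  (hdeg : finrank F L = q)

local notation "C" => integralClosure A L

include hq hθ hϖ hev ker insep ram hint hdeg in
/-- **(N-B), valuation-subring form, on the integral closure.** -/
theorem norm_residue_insep_closure (c : integralClosure A L) :
    φ (θ (Algebra.norm A c)) = ev (incl V hA c) ^ q := by
  obtain ⟨-, hfin, hfree, hrank⟩ := integralClosure_structure A F L (integralClosure A L)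
  haveI := hfin
  haveI := hfree
  let π : C →+* Ω := ev.comp (incl V hA)
  have hπ : ∀ a : A, π (algebraMap A C a) = φ (θ a) := fun a => hev a
  have hϖL : algebraMap A L ϖ ≠ 0 := by
    have hinj : Function.Injective (algebraMap A L) := by
      rw [IsScalarTower.algebraMap_eq A F L]
      exact (algebraMap F L).injective.comp (IsFractionRing.injective A F)
    rw [Ne, map_eq_zero_iff _ hinj]
    exact hϖ.ne_zero
  have hθϖ : θ ϖ = 0 := by
    rw [← RingHom.mem_ker, hθ, hϖ.maximalIdeal_eq]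
    exact Ideal.mem_span_singleton_self ϖ
  have hker : RingHom.ker π = Ideal.map (algebraMap A C) (maximalIdeal A) := by
    rw [hϖ.maximalIdeal_eq, Ideal.map_span, Set.image_singleton]
    ext x
    rw [Ideal.mem_span_singleton', RingHom.mem_ker]
    constructor
    · intro h1
      have h1' : (x : L) ∈ V.nonunits := (ker _).1 h1
      have h2 : (x : L) * (algebraMap A L ϖ)⁻¹ ∈ V := ram _ h1'
      refine ⟨⟨_, hint _ h2⟩, Subtype.ext ?_⟩
      change (x : L) * (algebraMap A L ϖ)⁻¹ * algebraMap A L ϖ = x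
      rw [inv_mul_cancel_right₀ hϖL]
    · rintro ⟨w, rfl⟩
      rw [map_mul, hπ, hθϖ, map_zero, mul_zero]
  obtain ⟨a, ha⟩ := insep (incl V hA c)
  exact norm_residue_insep (A := A) (B := C) q θ hθ φ π hπ hker (hrank.trans hdeg) c a ha

include hq hθ hϖ hev ker insep ram hint hdeg in
/-- **(N-B), valuation-subring form**: for `b ∈ V`, the norm `N_{L/F}(b)` lies in `A` and
`φ (θ (N b)) = ev b ^ q`. -/
theorem norm_residue_insep_vs {b : L} (hb : b ∈ V) :
    ∃ ν : A, algebraMap A F ν = Algebra.norm F b ∧ φ (θ ν) = ev ⟨b, hb⟩ ^ q := by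
  refine ⟨Algebra.norm A (⟨b, hint b hb⟩ : integralClosure A L),
    (norm_coe_integralClosure A F L ⟨b, hint b hb⟩).symm, ?_⟩
  exact norm_residue_insep_closure q θ hθ φ ϖ hϖ V hA ev hev ker insep ram hint hdeg
    ⟨b, hint b hb⟩

end Insep

section ZPow

variable (F L : Type*) [Field F] [Field L] [Algebra F L] [FiniteDimensional F L]

/-- The field norm as a monoid-with-zero homomorphism. -/
def normHom₀ : L →*₀ F :=
  { Algebra.norm F with
    map_zero' := Algebra.norm_zero }

@[simp] theorem normHom₀_apply (x : L) : normHom₀ F L x = Algebra.norm F x := rfl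

variable {F L} in
theorem norm_zpow (x : L) (i : ℤ) : Algebra.norm F (x ^ i) = Algebra.norm F x ^ i := by
  rw [← normHom₀_apply, ← normHom₀_apply, map_zpow₀]

end ZPow

section Val

variable {A F L : Type*} [CommRing A] [IsDomain A] [IsDiscreteValuationRing A] [Field F]
  [Algebra A F] [IsFractionRing A F] [Field L] [Algebra F L] [Algebra A L] [IsScalarTower A F L]
  [FiniteDimensional F L] [Algebra.IsSeparable F L]

variable (A F) in
/-- An element integral over `A` together with its inverse has a unit norm. -/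
theorem exists_unit_norm_of_isIntegral {x : L} (hx0 : x ≠ 0) (hx : IsIntegral A x)
    (hx' : IsIntegral A x⁻¹) : ∃ u : Aˣ, Algebra.norm F x = algebraMap A F (u : A) := by
  have h1 := norm_coe_integralClosure A F L ⟨x, hx⟩
  have h2 := norm_coe_integralClosure A F L ⟨x⁻¹, hx'⟩
  have h3 : Algebra.norm A (⟨x, hx⟩ : integralClosure A L) *
      Algebra.norm A (⟨x⁻¹, hx'⟩ : integralClosure A L) = 1 := by
    apply IsFractionRing.injective A F
    rw [map_mul, ← h1, ← h2, map_one, ← map_mul]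
    change Algebra.norm F (x * x⁻¹) = 1
    rw [mul_inv_cancel₀ hx0, map_one]
  exact ⟨Units.mkOfMulEqOne _ _ h3, h1⟩

/-- `N_{L/F}(ϖ) = ϖ ^ [L : F]`. -/
theorem norm_algebraMap_unif (ϖ : A) :
    Algebra.norm F (algebraMap A L ϖ) = (algebraMap A F ϖ) ^ finrank F L := by
  rw [IsScalarTower.algebraMap_apply A F L, Algebra.norm_algebraMap]

variable (F) in
include F in
theorem algebraMap_ne_zero_of_irreducible {ϖ : A} (hϖ : Irreducible ϖ) :
    algebraMap A L ϖ ≠ 0 := by
  have hinj : Function.Injective (algebraMap A L) := by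
    rw [IsScalarTower.algebraMap_eq A F L]
    exact (algebraMap F L).injective.comp (IsFractionRing.injective A F)
  rw [Ne, map_eq_zero_iff _ hinj]
  exact hϖ.ne_zero

/-- an element of valuation one lies in the valuation subring together with its inverse. -/
theorem mem_and_inv_mem_of_valuation_eq_one (V : ValuationSubring L) {u : L}
    (hu : V.valuation u = 1) : u ≠ 0 ∧ u ∈ V ∧ u⁻¹ ∈ V := by
  refine ⟨?_, (V.valuation_le_one_iff u).1 hu.le, (V.valuation_le_one_iff u⁻¹).1 ?_⟩
  · rintro rfl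
    rw [map_zero] at hu
    exact zero_ne_one hu
  · rw [map_inv₀, hu, inv_one]

section ValInsep

variable (ϖ : A) (hϖ : Irreducible ϖ) (V : ValuationSubring L)
  (hint : ∀ y : L, y ∈ V → IsIntegral A y)

include hϖ hint in
/-- **Valuation of a norm, one valuation ring over `A` with `e = 1`** (so `f = [L : F]`). -/
theorem norm_val_insep {x : L} {i : ℤ}
    (hx : V.valuation x = V.valuation (algebraMap A L ϖ) ^ i) :
    ∃ u : Aˣ, Algebra.norm F x =
      algebraMap A F (u : A) * (algebraMap A F ϖ) ^ ((finrank F L : ℤ) * i) := by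
  have hϖL : algebraMap A L ϖ ≠ 0 := algebraMap_ne_zero_of_irreducible F hϖ
  have hv0 : V.valuation (algebraMap A L ϖ) ≠ 0 := (Valuation.ne_zero_iff _).2 hϖL
  have hu1 : V.valuation (x * (algebraMap A L ϖ ^ i)⁻¹) = 1 := by
    rw [map_mul, map_inv₀, map_zpow₀, hx, mul_inv_cancel₀ (zpow_ne_zero _ hv0)]
  obtain ⟨hu0, hu, hu'⟩ := mem_and_inv_mem_of_valuation_eq_one V hu1
  obtain ⟨w, hw⟩ := exists_unit_norm_of_isIntegral A F hu0 (hint _ hu) (hint _ hu')
  refine ⟨w, ?_⟩
  have hx' : x = x * (algebraMap A L ϖ ^ i)⁻¹ * algebraMap A L ϖ ^ i := by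
    rw [inv_mul_cancel_right₀ (zpow_ne_zero _ hϖL)]
  rw [hx', map_mul, hw, norm_zpow, norm_algebraMap_unif (F := F), ← zpow_natCast, ← zpow_mul]

end ValInsep

end Val

section ValTwo

variable {A F L : Type*} [CommRing A] [IsDomain A] [IsDiscreteValuationRing A] [Field F]
  [Algebra A F] [IsFractionRing A F] [Field L] [Algebra F L] [Algebra A L] [IsScalarTower A F L]
  [FiniteDimensional F L] [Algebra.IsSeparable F L]
  {Ω : Type*} [Field Ω] (q : ℕ) [hq : Fact q.Prime] [CharP Ω q]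
  (θ : A →+* Ω) (hθ : RingHom.ker θ = maximalIdeal A)
  (ϖ : A) (hϖ : Irreducible ϖ)
  (Va Vb : ValuationSubring L)
  (hAa : ∀ a : A, algebraMap A L a ∈ Va) (hAb : ∀ a : A, algebraMap A L a ∈ Vb)
  (eva : ↥Va →+* Ω) (evb : ↥Vb →+* Ω)
  (heva : ∀ a : A, eva ⟨algebraMap A L a, hAa a⟩ = θ a)
  (hevb : ∀ a : A, evb ⟨algebraMap A L a, hAb a⟩ = θ a)
  (kera : ∀ y : ↥Va, eva y = 0 ↔ (y : L) ∈ Va.nonunits)
  (kerb : ∀ y : ↥Vb, evb y = 0 ↔ (y : L) ∈ Vb.nonunits)
  (dega : ∀ y : ↥Va, ∃ a : A, eva y = θ a)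
  (degb : ∀ y : ↥Vb, ∃ a : A, evb y = θ a)
  (rama : ∀ y ∈ Va.nonunits, y * (algebraMap A L ϖ)⁻¹ ∈ Va)
  (t : L) (hta : t ∈ Va) (hta' : t ∉ Va.nonunits) (htb : t ∈ Vb.nonunits)
  (unifb : ∀ y ∈ Vb.nonunits, y * t⁻¹ ∈ Vb)
  (m : ℕ) (hm : 1 ≤ m)
  (ramb : Vb.valuation (algebraMap A L ϖ) = Vb.valuation t ^ m)
  (hint : ∀ y : L, y ∈ Va → y ∈ Vb → IsIntegral A y)
  (hdeg : finrank F L = m + 1)

/-- In a DVR, an element of the maximal ideal is `unit * ϖ ^ n` with `n ≥ 1`. -/
theorem exists_unit_mul_pow_of_mem_maximalIdeal {ϖ : A} (hϖ : Irreducible ϖ) {ν : A} (hν0 : ν ≠ 0)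
    (hν : ν ∈ maximalIdeal A) : ∃ (n : ℕ) (u : Aˣ), 1 ≤ n ∧ ν = (u : A) * ϖ ^ n := by
  obtain ⟨n, u, hn⟩ := IsDiscreteValuationRing.eq_unit_mul_pow_irreducible hν0 hϖ
  refine ⟨n, u, ?_, hn⟩
  by_contra h
  have hn0 : n = 0 := by omega
  rw [hn0, pow_zero, mul_one] at hn
  rw [hn] at hν
  exact (IsLocalRing.mem_maximalIdeal _).1 hν u.isUnit

include hq hθ hϖ heva hevb kera kerb dega degb rama hta hta' htb unifb hm ramb hint hdeg in
/-- the norms of the two "uniformisers" `ϖ / t ^ m` (for `Va`) and `t` (for `Vb`) are both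
`unit * ϖ`. -/
theorem norm_unifs :
    (∃ u : Aˣ, Algebra.norm F (algebraMap A L ϖ * (t ^ m)⁻¹) = algebraMap A F (u : A) * algebraMap A F ϖ) ∧
    (∃ u : Aˣ, Algebra.norm F t = algebraMap A F (u : A) * algebraMap A F ϖ) := by
  have hϖL : algebraMap A L ϖ ≠ 0 := algebraMap_ne_zero_of_irreducible F hϖ
  have ht0 : t ≠ 0 := by
    rintro rfl
    exact hta' (by rw [Va.mem_nonunits_iff]; simp)
  have hvat : Va.valuation t = 1 := by
    have h1 : Va.valuation t ≤ 1 := (Va.valuation_le_one_iff t).2 hta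
    have h2 : ¬ Va.valuation t < 1 := fun h => hta' (Va.mem_nonunits_iff.2 h)
    exact le_antisymm h1 (not_lt.1 h2)
  have hvbt0 : Vb.valuation t ≠ 0 := (Valuation.ne_zero_iff _).2 ht0
  have hθϖ : θ ϖ = 0 := by
    rw [← RingHom.mem_ker, hθ, hϖ.maximalIdeal_eq]
    exact Ideal.mem_span_singleton_self ϖ
  have hϖa : algebraMap A L ϖ ∈ Va.nonunits := by
    rw [← kera ⟨_, hAa ϖ⟩, heva, hθϖ]
  have ramb' : t ^ m * (algebraMap A L ϖ)⁻¹ ∈ Vb := by
    rw [← Vb.valuation_le_one_iff, map_mul, map_pow, map_inv₀, ramb,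
      mul_inv_cancel₀ (pow_ne_zero _ hvbt0)]
  have hfin : FiniteDimensional F L := inferInstance
  -- the element `t`
  have htint : IsIntegral A t := hint t hta (Vb.nonunits_subset htb)
  have h1 := norm_residue_two_closure q θ hθ ϖ hϖ Va Vb hAa hAb eva evb heva hevb kera kerb dega
    degb rama t hta hta' htb unifb m ramb' hint hdeg ⟨t, htint⟩
  have hevbt : evb (incl Vb hAb ⟨t, htint⟩) = 0 := (kerb _).2 htb
  rw [hevbt, zero_pow (by omega), mul_zero] at h1
  have hνt : Algebra.norm A (⟨t, htint⟩ : integralClosure A L) ∈ maximalIdeal A := by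
    rw [← hθ]; exact h1
  have hNt := norm_coe_integralClosure A F L ⟨t, htint⟩
  have hνt0 : Algebra.norm A (⟨t, htint⟩ : integralClosure A L) ≠ 0 := by
    intro h0
    rw [h0, map_zero] at hNt
    exact ht0 (Algebra.norm_eq_zero_iff.1 hNt)
  obtain ⟨nb, ub, hnb, hb⟩ := exists_unit_mul_pow_of_mem_maximalIdeal hϖ hνt0 hνt
  -- the element `s = ϖ / t ^ m`
  set s : L := algebraMap A L ϖ * (t ^ m)⁻¹ with hs
  have hs0 : s ≠ 0 := mul_ne_zero hϖL (inv_ne_zero (pow_ne_zero _ ht0))
  have hvas : Va.valuation s = Va.valuation (algebraMap A L ϖ) := by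
    rw [hs, map_mul, map_inv₀, map_pow, hvat, one_pow, inv_one, mul_one]
  have hvbs : Vb.valuation s = 1 := by
    rw [hs, map_mul, map_inv₀, map_pow, ramb, mul_inv_cancel₀ (pow_ne_zero _ hvbt0)]
  have hsa : s ∈ Va.nonunits := by
    rw [Va.mem_nonunits_iff, hvas, ← Va.mem_nonunits_iff]; exact hϖa
  have hsb : s ∈ Vb := (Vb.valuation_le_one_iff s).1 hvbs.le
  have hsint : IsIntegral A s := hint s (Va.nonunits_subset hsa) hsb
  have h2 := norm_residue_two_closure q θ hθ ϖ hϖ Va Vb hAa hAb eva evb heva hevb kera kerb dega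
    degb rama t hta hta' htb unifb m ramb' hint hdeg ⟨s, hsint⟩
  have hevas : eva (incl Va hAa ⟨s, hsint⟩) = 0 := (kera _).2 hsa
  rw [hevas, zero_mul] at h2
  have hνs : Algebra.norm A (⟨s, hsint⟩ : integralClosure A L) ∈ maximalIdeal A := by
    rw [← hθ]; exact h2
  have hNs := norm_coe_integralClosure A F L ⟨s, hsint⟩
  have hνs0 : Algebra.norm A (⟨s, hsint⟩ : integralClosure A L) ≠ 0 := by
    intro h0
    rw [h0, map_zero] at hNs
    exact hs0 (Algebra.norm_eq_zero_iff.1 hNs)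
  obtain ⟨na, ua, hna, ha⟩ := exists_unit_mul_pow_of_mem_maximalIdeal hϖ hνs0 hνs
  -- the relation `s * t ^ m = ϖ`
  have hrel : s * t ^ m = algebraMap A L ϖ := by
    rw [hs, inv_mul_cancel_right₀ (pow_ne_zero _ ht0)]
  have hrelN : Algebra.norm A (⟨s, hsint⟩ : integralClosure A L) *
      Algebra.norm A (⟨t, htint⟩ : integralClosure A L) ^ m = ϖ ^ (m + 1) := by
    have hN : Algebra.norm F s * Algebra.norm F t ^ m = algebraMap A F ϖ ^ (m + 1) := by
      rw [← map_pow, ← map_mul, hrel, norm_algebraMap_unif, hdeg]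
    apply IsFractionRing.injective A F
    rw [map_mul, map_pow, map_pow, ← hNs, ← hNt]
    exact hN
  rw [ha, hb, mul_pow, ← pow_mul] at hrelN
  have hrelN' : ((ua * ub ^ m : Aˣ) : A) * ϖ ^ (na + nb * m) = ((1 : Aˣ) : A) * ϖ ^ (m + 1) := by
    rw [Units.val_one, one_mul, ← hrelN, Units.val_mul, Units.val_pow_eq_pow_val, pow_add]
    ring
  have hexp : na + nb * m = m + 1 :=
    IsDiscreteValuationRing.unit_mul_pow_congr_pow hϖ hϖ _ _ _ _ hrelN'
  have hnb1 : nb = 1 := by
    by_contra hne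
    have : 2 ≤ nb := by omega
    have : 2 * m ≤ nb * m := Nat.mul_le_mul_right m this
    omega
  have hna1 : na = 1 := by
    rw [hnb1, one_mul] at hexp; omega
  refine ⟨⟨ua, ?_⟩, ⟨ub, ?_⟩⟩
  · rw [show s = ((⟨s, hsint⟩ : integralClosure A L) : L) from rfl, hNs, ha, hna1, pow_one, map_mul]
  · rw [show t = ((⟨t, htint⟩ : integralClosure A L) : L) from rfl, hNt, hb, hnb1, pow_one, map_mul]

omit [IsDomain A] [IsDiscreteValuationRing A] [IsFractionRing A F] in
theorem algebraMap_units_zpow (u : Aˣ) (i : ℤ) :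
    algebraMap A F ((u ^ i : Aˣ) : A) = (algebraMap A F (u : A)) ^ i := by
  have h : Units.map ((algebraMap A F : A →+* F) : A →* F) (u ^ i) =
      (Units.map ((algebraMap A F : A →+* F) : A →* F) u) ^ i := map_zpow _ u i
  have h' := congrArg (fun v : Fˣ => (v : F)) h
  simp only [Units.coe_map, Units.val_zpow_eq_zpow_val] at h'
  exact h'

include hq hθ hϖ heva hevb kera kerb dega degb rama hta hta' htb unifb hm ramb hint hdeg in
/-- **Valuation of a norm, two valuation rings over `A` with `(e, f) = (1, 1)` and `(m, 1)`**: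
if `v_a(x) = i` and `v_b(x) = j` then `N(x) = unit * ϖ ^ (i + j)`. -/
theorem norm_val_two {x : L} {i j : ℤ}
    (hxa : Va.valuation x = Va.valuation (algebraMap A L ϖ) ^ i)
    (hxb : Vb.valuation x = Vb.valuation t ^ j) :
    ∃ u : Aˣ, Algebra.norm F x = algebraMap A F (u : A) * (algebraMap A F ϖ) ^ (i + j) := by
  obtain ⟨⟨ua, hNa⟩, ⟨ub, hNb⟩⟩ := norm_unifs (F := F) q θ hθ ϖ hϖ Va Vb hAa hAb eva evb heva hevb
    kera kerb dega degb rama t hta hta' htb unifb m hm ramb hint hdeg
  have hϖL : algebraMap A L ϖ ≠ 0 := algebraMap_ne_zero_of_irreducible F hϖ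
  have hϖF : algebraMap A F ϖ ≠ 0 := by
    rw [Ne, map_eq_zero_iff _ (IsFractionRing.injective A F)]
    exact hϖ.ne_zero
  have ht0 : t ≠ 0 := by
    rintro rfl
    exact hta' (by rw [Va.mem_nonunits_iff]; simp)
  have hvat : Va.valuation t = 1 := by
    have h1 : Va.valuation t ≤ 1 := (Va.valuation_le_one_iff t).2 hta
    have h2 : ¬ Va.valuation t < 1 := fun h => hta' (Va.mem_nonunits_iff.2 h)
    exact le_antisymm h1 (not_lt.1 h2)
  have hvbt0 : Vb.valuation t ≠ 0 := (Valuation.ne_zero_iff _).2 ht0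
  have hvaϖ0 : Va.valuation (algebraMap A L ϖ) ≠ 0 := (Valuation.ne_zero_iff _).2 hϖL
  set s : L := algebraMap A L ϖ * (t ^ m)⁻¹ with hs
  have hs0 : s ≠ 0 := mul_ne_zero hϖL (inv_ne_zero (pow_ne_zero _ ht0))
  have hvas : Va.valuation s = Va.valuation (algebraMap A L ϖ) := by
    rw [hs, map_mul, map_inv₀, map_pow, hvat, one_pow, inv_one, mul_one]
  have hvbs : Vb.valuation s = 1 := by
    rw [hs, map_mul, map_inv₀, map_pow, ramb, mul_inv_cancel₀ (pow_ne_zero _ hvbt0)]
  -- the unit part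
  have hua : Va.valuation (x * (s ^ i)⁻¹ * (t ^ j)⁻¹) = 1 := by
    rw [map_mul, map_mul, map_inv₀, map_inv₀, map_zpow₀, map_zpow₀, hxa, hvas, hvat, one_zpow,
      inv_one, mul_one, mul_inv_cancel₀ (zpow_ne_zero _ hvaϖ0)]
  have hub : Vb.valuation (x * (s ^ i)⁻¹ * (t ^ j)⁻¹) = 1 := by
    rw [map_mul, map_mul, map_inv₀, map_inv₀, map_zpow₀, map_zpow₀, hxb, hvbs, one_zpow,
      inv_one, mul_one, mul_inv_cancel₀ (zpow_ne_zero _ hvbt0)]
  obtain ⟨hu0, hua1, hua2⟩ := mem_and_inv_mem_of_valuation_eq_one Va hua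
  obtain ⟨-, hub1, hub2⟩ := mem_and_inv_mem_of_valuation_eq_one Vb hub
  obtain ⟨w, hw⟩ := exists_unit_norm_of_isIntegral A F hu0 (hint _ hua1 hub1) (hint _ hua2 hub2)
  have hx : x = x * (s ^ i)⁻¹ * (t ^ j)⁻¹ * s ^ i * t ^ j := by
    have h1 : s ^ i ≠ 0 := zpow_ne_zero _ hs0
    have h2 : t ^ j ≠ 0 := zpow_ne_zero _ ht0
    field_simp
  refine ⟨w * ua ^ i * ub ^ j, ?_⟩
  rw [hx, map_mul, map_mul, hw, norm_zpow, norm_zpow, hNa, hNb, Units.val_mul, Units.val_mul,
    map_mul, map_mul, algebraMap_units_zpow, algebraMap_units_zpow, mul_zpow, mul_zpow,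
    zpow_add₀ hϖF]
  ring

end ValTwo

end Fermat.Agent.S36.NormVal
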