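/-
S36 block [N], place-free forms (2/2): the norm–residue formulas in the language of valuation subrings,
WITHOUT places — the shape consumed by `S36/D/NormGlue.SplitInsep` (block [D]) and by
`S36/Descent/NormPlumb`.

Setting: `A` a DVR with uniformiser `ϖ` and residue characteristic `q`, `F = Frac A`, `L / F` finite
separable.

* `norm_split_vs` : `Va`, `Vb` valuation subrings of `L` over `A`; `Va` unramified of residue degree
  one (`lifta`); `Vb` with uniformiser `t` (a unit of `Va`) and `t ^ m / ϖ ∈ Vb`; `Va ∩ Vb` integral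
  over `A`; `[L : F] = m + 1`.  If `w ≡ a₁` on `Va` and `w ≡ a₂` on `Vb` (`a₁, a₂ ∈ A`) then
  `N_{L/F}(w) = ν ∈ A` with `ν ≡ a₁ a₂ ^ m mod 𝔪_A`.
* `norm_insep_vs` : `V` the only valuation subring over `A`, unramified, `[L : F] = q`.  If
  `w ^ q ≡ a` on `V` then `N(w) = ν ∈ A`, `ν ≡ a mod 𝔪_A`.
* `norm_split`, `norm_insep` : the same for a base `U : ValuationSubring F1` (a DVR), `F2 / F1`,
  conclusions `Algebra.norm F1 w - a₁ * a₂ ^ m ∈ U.nonunits`, `Algebra.norm F1 w - a ∈ U.nonunits`.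
-/
import Mathlib
import Fermat.Agent.S36.NormVal
import Fermat.Agent.S36.NormResidueFree

set_option autoImplicit false
set_option maxHeartbeats 400000
set_option synthInstance.maxHeartbeats 400000
set_option linter.unusedSectionVars false
set_option linter.style.haveILetI false

noncomputable section

namespace Fermat.Agent.S36.NormFree

open IsLocalRing Module Fermat.Agent.N4F.E.TwoPrimes Fermat.Agent.S36.NormVal
  Fermat.Agent.S36.NormResidueFree

attribute [local instance] Ideal.Quotient.field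

/-- the residue field of a local ring in whose maximal ideal the prime `q` lies has
characteristic `q`. -/
theorem charP_quot_of_mem {A : Type*} [CommRing A] [IsLocalRing A] (q : ℕ) [hq : Fact q.Prime]
    (hqA : (q : A) ∈ maximalIdeal A) : CharP (A ⧸ maximalIdeal A) q := by
  obtain ⟨p, hp⟩ := CharP.exists (A ⧸ maximalIdeal A)
  have h0 : ((q : ℕ) : A ⧸ maximalIdeal A) = 0 := by
    rw [← map_natCast (Ideal.Quotient.mk (maximalIdeal A)), Ideal.Quotient.eq_zero_iff_mem]
    exact hqA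
  have hdvd : p ∣ q := (CharP.cast_eq_zero_iff (A ⧸ maximalIdeal A) p q).1 h0
  have hp1 : p ≠ 1 := CharP.char_ne_one (A ⧸ maximalIdeal A) p
  rcases (Nat.dvd_prime hq.out).1 hdvd with h | h
  · exact absurd h hp1
  · rw [← h]; exact hp

section VS

variable {A F L : Type*} [CommRing A] [IsDomain A] [IsDiscreteValuationRing A] [Field F]
  [Algebra A F] [IsFractionRing A F] [Field L] [Algebra F L] [Algebra A L] [IsScalarTower A F L]
  [FiniteDimensional F L] [Algebra.IsSeparable F L]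
  (q : ℕ) [hq : Fact q.Prime] (hqA : (q : A) ∈ maximalIdeal A)
  (ϖ : A) (hϖ : Irreducible ϖ)

local notation "C" => integralClosure A L

/-- the centre on the integral closure of a valuation subring containing `A`. -/
def centre (V : ValuationSubring L) (hA : ∀ a : A, algebraMap A L a ∈ V) : Ideal C :=
  Ideal.comap (incl V hA) (maximalIdeal ↥V)

omit [IsDomain A] [IsDiscreteValuationRing A] in
theorem mem_centre_iff (V : ValuationSubring L) (hA : ∀ a : A, algebraMap A L a ∈ V) (c : C) :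
    c ∈ centre V hA ↔ (c : L) ∈ V.nonunits := by
  rw [centre, Ideal.mem_comap, ← ValuationSubring.coe_mem_nonunits_iff]
  rfl

omit [IsDomain A] [IsDiscreteValuationRing A] in
theorem centre_ne_top (V : ValuationSubring L) (hA : ∀ a : A, algebraMap A L a ∈ V) :
    centre V hA ≠ ⊤ :=
  Ideal.comap_ne_top _ (IsLocalRing.maximalIdeal.isMaximal _).ne_top

section Split

variable (Va Vb : ValuationSubring L)
  (hAa : ∀ a : A, algebraMap A L a ∈ Va) (hAb : ∀ a : A, algebraMap A L a ∈ Vb)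
  (hϖa : algebraMap A L ϖ ∈ Va.nonunits)
  (lifta : ∀ y ∈ Va, ∃ a : A, y - algebraMap A L a ∈ Va.nonunits)
  (rama : ∀ y ∈ Va.nonunits, y * (algebraMap A L ϖ)⁻¹ ∈ Va)
  (t : L) (hta : t ∈ Va) (hta' : t ∉ Va.nonunits) (htb : t ∈ Vb.nonunits)
  (unifb : ∀ y ∈ Vb.nonunits, y * t⁻¹ ∈ Vb)
  (m : ℕ) (ramb : t ^ m * (algebraMap A L ϖ)⁻¹ ∈ Vb)
  (hint : ∀ y : L, y ∈ Va → y ∈ Vb → IsIntegral A y)
  (hdeg : finrank F L = m + 1)

include hq hqA hϖ hAa hAb hϖa lifta rama hta hta' htb unifb ramb hint hdeg in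
/-- **(N-A), place-free, on the integral closure.** -/
theorem norm_split_closure (c : C) (a₁ a₂ : A)
    (h₁ : (c : L) - algebraMap A L a₁ ∈ Va.nonunits)
    (h₂ : (c : L) - algebraMap A L a₂ ∈ Vb.nonunits) :
    Algebra.norm A c - a₁ * a₂ ^ m ∈ maximalIdeal A := by
  obtain ⟨-, hfin, hfree, hrank⟩ := integralClosure_structure A F L (integralClosure A L)
  haveI := hfin
  haveI := hfree
  haveI := charP_quot_of_mem q hqA
  have hϖL : algebraMap A L ϖ ≠ 0 := algebraMap_ne_zero_of_irreducible F hϖ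
  let Pa : Ideal C := centre Va hAa
  let Pb : Ideal C := centre Vb hAb
  let ϖb : ↥Vb := ⟨algebraMap A L ϖ, hAb ϖ⟩
  let J : Ideal C := Ideal.comap (incl Vb hAb) (Ideal.span {ϖb})
  have hϖPa : algebraMap A C ϖ ∈ Pa := (mem_centre_iff Va hAa _).2 hϖa
  have dega : ∀ b : C, ∃ a : A, b - algebraMap A C a ∈ Pa := by
    intro b
    obtain ⟨a, ha⟩ := lifta (b : L) (mem_of_isIntegral Va hAa b.2)
    exact ⟨a, (mem_centre_iff Va hAa _).2 ha⟩
  -- `t` as an element of `C`
  have htint : IsIntegral A t := hint t hta (Vb.nonunits_subset htb)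
  let tc : C := ⟨t, htint⟩
  have htPb : tc ∈ Pb := (mem_centre_iff Vb hAb _).2 htb
  have htPa : tc ∉ Pa := fun h => hta' ((mem_centre_iff Va hAa _).1 h)
  have hcop : IsCoprime Pa Pb := by
    obtain ⟨a0, ha0⟩ := dega tc
    have hu : IsUnit a0 := by
      by_contra hnu
      have h1 : a0 ∈ maximalIdeal A := (IsLocalRing.mem_maximalIdeal a0).2 hnu
      rw [hϖ.maximalIdeal_eq, Ideal.mem_span_singleton'] at h1
      obtain ⟨r, rfl⟩ := h1
      apply htPa
      have h2 : algebraMap A C (r * ϖ) ∈ Pa := by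
        rw [map_mul]; exact Pa.mul_mem_left _ hϖPa
      have := add_mem ha0 h2
      rwa [sub_add_cancel] at this
    obtain ⟨a1, ha1⟩ := hu.exists_right_inv
    refine Ideal.isCoprime_iff_exists.mpr
      ⟨algebraMap A C a1 * (algebraMap A C a0 - tc), ?_, algebraMap A C a1 * tc,
        Pb.mul_mem_left _ htPb, ?_⟩
    · apply Pa.mul_mem_left
      have := Pa.neg_mem ha0
      rwa [neg_sub] at this
    · rw [← mul_add, sub_add_cancel, ← map_mul, mul_comm, ha1, map_one]
  have hJ : Pb ^ m ≤ J := by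
    let tb : ↥Vb := ⟨t, Vb.nonunits_subset htb⟩
    have ht0 : t ≠ 0 := by
      rintro rfl
      exact hta' (by rw [Va.mem_nonunits_iff]; simp)
    have h1 : maximalIdeal ↥Vb ≤ Ideal.span {tb} := by
      intro y hy
      rw [← ValuationSubring.coe_mem_nonunits_iff] at hy
      rw [Ideal.mem_span_singleton']
      refine ⟨⟨_, unifb _ hy⟩, Subtype.ext ?_⟩
      change (y : L) * t⁻¹ * t = y
      rw [inv_mul_cancel_right₀ ht0]
    have h2 : Ideal.span {tb} ^ m ≤ Ideal.span {ϖb} := by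
      rw [Ideal.span_singleton_pow, Ideal.span_singleton_le_span_singleton]
      refine ⟨⟨_, ramb⟩, Subtype.ext ?_⟩
      change t ^ m = algebraMap A L ϖ * (t ^ m * (algebraMap A L ϖ)⁻¹)
      rw [mul_comm (t ^ m), mul_inv_cancel_left₀ hϖL]
    exact (Ideal.le_comap_pow _ m).trans (Ideal.comap_mono ((Ideal.pow_right_mono h1 m).trans h2))
  have hfac : Ideal.map (algebraMap A C) (maximalIdeal A) = Pa ⊓ J := by
    rw [hϖ.maximalIdeal_eq, Ideal.map_span, Set.image_singleton]
    ext x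
    rw [Ideal.mem_span_singleton', Ideal.mem_inf, Ideal.mem_comap, Ideal.mem_span_singleton']
    constructor
    · rintro ⟨w, rfl⟩
      refine ⟨Pa.mul_mem_left _ hϖPa, incl Vb hAb w, ?_⟩
      rw [map_mul]
      rfl
    · rintro ⟨h1, w, hw⟩
      have h1' : (x : L) ∈ Va.nonunits := (mem_centre_iff Va hAa _).1 h1
      have h2 : (x : L) * (algebraMap A L ϖ)⁻¹ ∈ Va := rama _ h1'
      have hw' : (w : L) * algebraMap A L ϖ = (x : L) := congrArg Subtype.val hw
      have h3 : (x : L) * (algebraMap A L ϖ)⁻¹ = (w : L) := by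
        rw [← hw', mul_inv_cancel_right₀ hϖL]
      have h4 : IsIntegral A ((x : L) * (algebraMap A L ϖ)⁻¹) := by
        apply hint _ h2
        rw [h3]
        exact w.2
      refine ⟨⟨_, h4⟩, Subtype.ext ?_⟩
      change (x : L) * (algebraMap A L ϖ)⁻¹ * algebraMap A L ϖ = x
      rw [inv_mul_cancel_right₀ hϖL]
  have key := norm_split_local (A := A) (B := C) q Pa Pb J (centre_ne_top Va hAa) dega m hJ hfac
    hcop c a₁ a₂ ((mem_centre_iff Va hAa _).2 h₁) ((mem_centre_iff Vb hAb _).2 h₂)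
  rwa [hrank, hdeg, Nat.add_sub_cancel] at key

include hq hqA hϖ hAa hAb hϖa lifta rama hta hta' htb unifb ramb hint hdeg in
/-- **(N-A), place-free, valuation-subring form**: if `w ≡ a₁` on `Va` and `w ≡ a₂` on `Vb` then
`N_{L/F}(w) = ν ∈ A` with `ν ≡ a₁ a₂ ^ m mod 𝔪_A`. -/
theorem norm_split_vs (w : L) (a₁ a₂ : A)
    (h₁ : w - algebraMap A L a₁ ∈ Va.nonunits) (h₂ : w - algebraMap A L a₂ ∈ Vb.nonunits) :
    ∃ ν : A, algebraMap A F ν = Algebra.norm F w ∧ ν - a₁ * a₂ ^ m ∈ maximalIdeal A := by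
  have hwa : w ∈ Va := by
    have := add_mem (Va.nonunits_subset h₁) (hAa a₁)
    rwa [sub_add_cancel] at this
  have hwb : w ∈ Vb := by
    have := add_mem (Vb.nonunits_subset h₂) (hAb a₂)
    rwa [sub_add_cancel] at this
  refine ⟨Algebra.norm A (⟨w, hint w hwa hwb⟩ : integralClosure A L),
    (norm_coe_integralClosure A F L ⟨w, hint w hwa hwb⟩).symm, ?_⟩
  exact norm_split_closure q hqA ϖ hϖ Va Vb hAa hAb hϖa lifta rama t hta hta' htb unifb m ramb
    hint hdeg ⟨w, hint w hwa hwb⟩ a₁ a₂ h₁ h₂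

end Split

section Insep

variable (V : ValuationSubring L)
  (hA : ∀ a : A, algebraMap A L a ∈ V)
  (ram : ∀ y ∈ V.nonunits, y * (algebraMap A L ϖ)⁻¹ ∈ V)
  (hint : ∀ y : L, y ∈ V → IsIntegral A y)
  (hdeg : finrank F L = q)

omit [IsDomain A] [IsDiscreteValuationRing A] [IsFractionRing A F] [IsScalarTower A F L]
  [FiniteDimensional F L] [Algebra.IsSeparable F L] [Algebra F L] in
/-- a valuation subring contains `w` as soon as it contains a positive power of `w`. -/
theorem mem_of_pow_mem (V : ValuationSubring L) {w : L} {n : ℕ} (hn : n ≠ 0) (h : w ^ n ∈ V) :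
    w ∈ V := by
  by_contra hw
  rw [← V.valuation_le_one_iff, not_le] at hw
  have h1 : 1 < V.valuation (w ^ n) := by
    rw [map_pow]
    exact one_lt_pow₀ hw hn
  rw [← V.valuation_le_one_iff] at h
  exact absurd h (not_le.2 h1)

include hq hqA hϖ hA ram hint hdeg in
/-- **(N-B), place-free, on the integral closure.** -/
theorem norm_insep_closure (c : C) (a : A)
    (h : (c : L) ^ q - algebraMap A L a ∈ V.nonunits) :
    Algebra.norm A c - a ∈ maximalIdeal A := by
  obtain ⟨-, hfin, hfree, hrank⟩ := integralClosure_structure A F L (integralClosure A L)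
  haveI := hfin
  haveI := hfree
  haveI := charP_quot_of_mem q hqA
  have hϖL : algebraMap A L ϖ ≠ 0 := algebraMap_ne_zero_of_irreducible F hϖ
  have h1 : c ^ q - algebraMap A C a ∈ Ideal.map (algebraMap A C) (maximalIdeal A) := by
    rw [hϖ.maximalIdeal_eq, Ideal.map_span, Set.image_singleton, Ideal.mem_span_singleton']
    have h2 : ((c : L) ^ q - algebraMap A L a) * (algebraMap A L ϖ)⁻¹ ∈ V := ram _ h
    refine ⟨⟨_, hint _ h2⟩, Subtype.ext ?_⟩
    change ((c : L) ^ q - algebraMap A L a) * (algebraMap A L ϖ)⁻¹ * algebraMap A L ϖ = _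
    rw [inv_mul_cancel_right₀ hϖL]
    rfl
  exact norm_insep_local (A := A) (B := C) q (hrank.trans hdeg) c a h1

include hq hqA hϖ hA ram hint hdeg in
/-- **(N-B), place-free, valuation-subring form**: if `w ^ q ≡ a` on `V` then `N_{L/F}(w) = ν ∈ A`
with `ν ≡ a mod 𝔪_A`. -/
theorem norm_insep_vs (w : L) (a : A) (h : w ^ q - algebraMap A L a ∈ V.nonunits) :
    ∃ ν : A, algebraMap A F ν = Algebra.norm F w ∧ ν - a ∈ maximalIdeal A := by
  have hwq : w ^ q ∈ V := by
    have := add_mem (V.nonunits_subset h) (hA a)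
    rwa [sub_add_cancel] at this
  have hw : w ∈ V := mem_of_pow_mem V hq.out.ne_zero hwq
  refine ⟨Algebra.norm A (⟨w, hint w hw⟩ : integralClosure A L),
    (norm_coe_integralClosure A F L ⟨w, hint w hw⟩).symm, ?_⟩
  exact norm_insep_closure q hqA ϖ hϖ V hA ram hint hdeg ⟨w, hint w hw⟩ a h

end Insep

end VS

/-! ### The shape of `S36/D/NormGlue.SplitInsep` (block [D]) and of `Descent/NormPlumb`:
fields `F1 ⊆ F2`, the base a valuation subring `U` of `F1` which is a DVR. -/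

section Subring

variable {F1 F2 : Type*} [Field F1] [Field F2] [Algebra F1 F2] [FiniteDimensional F1 F2]
  [Algebra.IsSeparable F1 F2]
  (q : ℕ) [hq : Fact q.Prime]
  (U : ValuationSubring F1) [IsDiscreteValuationRing ↥U]
  (hqU : (q : F1) ∈ U.nonunits)
  (ϖ : F1) (hϖ : ϖ ∈ U.nonunits) (hϖu : ∀ y ∈ U.nonunits, y * ϖ⁻¹ ∈ U)

/-- the algebra structure of `F2` over the valuation subring `U` of `F1`. -/
@[reducible] def algU : Algebra ↥U F2 := ((algebraMap F1 F2).comp U.subtype).toAlgebra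

omit [FiniteDimensional F1 F2] [Algebra.IsSeparable F1 F2] in
theorem isScalarTower_U : letI := algU (F2 := F2) U; IsScalarTower ↥U F1 F2 :=
  letI := algU (F2 := F2) U
  IsScalarTower.of_algebraMap_eq fun _ => rfl

include hϖ hϖu in
/-- a nonzero generator of the maximal ideal is irreducible. -/
theorem irreducible_unif (hϖ0 : ϖ ≠ 0) : Irreducible (⟨ϖ, U.nonunits_subset hϖ⟩ : ↥U) := by
  rw [IsDiscreteValuationRing.irreducible_iff_uniformizer]
  apply le_antisymm
  · intro y hy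
    rw [← ValuationSubring.coe_mem_nonunits_iff] at hy
    rw [Ideal.mem_span_singleton']
    refine ⟨⟨_, hϖu _ hy⟩, Subtype.ext ?_⟩
    change (y : F1) * ϖ⁻¹ * ϖ = y
    rw [inv_mul_cancel_right₀ hϖ0]
  · rw [Ideal.span_singleton_le_iff_mem, ← ValuationSubring.coe_mem_nonunits_iff]
    exact hϖ

variable (π : ↥U) (hπ : Irreducible π)

section SplitS

variable (Va Vb : ValuationSubring F2)
  (hUa : ∀ a ∈ U, algebraMap F1 F2 a ∈ Va) (hUb : ∀ a ∈ U, algebraMap F1 F2 a ∈ Vb)
  (hπa : algebraMap F1 F2 (π : F1) ∈ Va.nonunits)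
  (lifta : ∀ y ∈ Va, ∃ a ∈ U, y - algebraMap F1 F2 a ∈ Va.nonunits)
  (rama : ∀ y ∈ Va.nonunits, y * (algebraMap F1 F2 (π : F1))⁻¹ ∈ Va)
  (t : F2) (hta : t ∈ Va) (hta' : t ∉ Va.nonunits) (htb : t ∈ Vb.nonunits)
  (unifb : ∀ y ∈ Vb.nonunits, y * t⁻¹ ∈ Vb)
  (m : ℕ) (ramb : t ^ m * (algebraMap F1 F2 (π : F1))⁻¹ ∈ Vb)
  (hint : ∀ y : F2, y ∈ Va → y ∈ Vb → ((algebraMap F1 F2).comp U.subtype).IsIntegralElem y)
  (hdeg : finrank F1 F2 = m + 1)

include hq hqU hπ hUa hUb hπa lifta rama hta hta' htb unifb ramb hint hdeg in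
/-- **(N-A) in the shape of `NormGlue.SplitInsep.norm_split`.** -/
theorem norm_split (w : F2) (a₁ a₂ : F1) (ha₁ : a₁ ∈ U) (ha₂ : a₂ ∈ U)
    (h₁ : w - algebraMap F1 F2 a₁ ∈ Va.nonunits) (h₂ : w - algebraMap F1 F2 a₂ ∈ Vb.nonunits) :
    Algebra.norm F1 w - a₁ * a₂ ^ m ∈ U.nonunits := by
  have hqA : ((q : ℕ) : ↥U) ∈ maximalIdeal ↥U := by
    rw [← ValuationSubring.coe_mem_nonunits_iff]
    exact_mod_cast hqU
  letI : Algebra ↥U F2 := algU U
  haveI : IsScalarTower ↥U F1 F2 := isScalarTower_U U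
  obtain ⟨ν, hν1, hν2⟩ := norm_split_vs (A := ↥U) (F := F1) (L := F2) q hqA π hπ Va Vb
    (fun a => hUa _ a.2) (fun a => hUb _ a.2) hπa
    (fun y hy => by
      obtain ⟨a, ha, h⟩ := lifta y hy
      exact ⟨⟨a, ha⟩, h⟩)
    rama t hta hta' htb unifb m ramb hint hdeg w ⟨a₁, ha₁⟩ ⟨a₂, ha₂⟩ h₁ h₂
  rw [← ValuationSubring.coe_mem_nonunits_iff] at hν2
  have : Algebra.norm F1 w = (ν : F1) := hν1.symm
  rw [this]
  exact hν2

end SplitS

section InsepS

variable (V : ValuationSubring F2)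
  (hU : ∀ a ∈ U, algebraMap F1 F2 a ∈ V)
  (ram : ∀ y ∈ V.nonunits, y * (algebraMap F1 F2 (π : F1))⁻¹ ∈ V)
  (hint : ∀ y : F2, y ∈ V → ((algebraMap F1 F2).comp U.subtype).IsIntegralElem y)
  (hdeg : finrank F1 F2 = q)

include hq hqU hπ hU ram hint hdeg in
/-- **(N-B) in the shape of `NormGlue.SplitInsep.norm_insep`.** -/
theorem norm_insep (w : F2) (a : F1) (ha : a ∈ U)
    (h : w ^ q - algebraMap F1 F2 a ∈ V.nonunits) :
    Algebra.norm F1 w - a ∈ U.nonunits := by
  have hqA : ((q : ℕ) : ↥U) ∈ maximalIdeal ↥U := by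
    rw [← ValuationSubring.coe_mem_nonunits_iff]
    exact_mod_cast hqU
  letI : Algebra ↥U F2 := algU U
  haveI : IsScalarTower ↥U F1 F2 := isScalarTower_U U
  obtain ⟨ν, hν1, hν2⟩ := norm_insep_vs (A := ↥U) (F := F1) (L := F2) q hqA π hπ V
    (fun a => hU _ a.2) ram hint hdeg w ⟨a, ha⟩ h
  rw [← ValuationSubring.coe_mem_nonunits_iff] at hν2
  have : Algebra.norm F1 w = (ν : F1) := hν1.symm
  rw [this]
  exact hν2

end InsepS

end Subring

end Fermat.Agent.S36.NormFree
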