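/-
S36 block [N], final instantiation: **the two norm tables of the level `M₀ q → M₀ q²` from a
`ThreeVal`**, in the shape `Descent/NormPlumb.NormTable` (= the global fields of
`D/NormGlue.SplitInsep`), with `Nm = P4.FrobStep.normAlong`.

For `T : ThreeVal K M0 q O sv` (abstract `T.V11`, `T.V02`; `V20 = gaussVS K (M₀ q²) O`,
`V10 = gaussVS K (M₀ q) O`, `V01 = sv.V`):

* `normTable_alpha` : `NormTable α₂ N_{α₂} q V10 V01 V20 V11 V02`;
* `normTable_beta`  : `NormTable β₂ N_{β₂} q V01 V10 V02 V11 V20`;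
* the four norm–residue formulas separately: `norm_split_alpha`, `norm_insep_alpha`,
  `norm_split_beta`, `norm_insep_beta`.

Proof: `NormFree.norm_split / norm_insep` over the two discrete valuation rings `V10`, `V01` of
`FF K (M₀ q)` (uniformiser: a uniformiser `ϖ` of `O`), fed with the fields of `T`; the degrees
`[F₂ : α₂ F₁] = [F₂ : β₂ F₁] = q` and `IsDiscreteValuationRing ↥sv.V` are from `V/CountAlong`.
No Fricke transport and no place is used.
-/
import Mathlib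
import Fermat.Agent.S36.NormFree
import Fermat.Agent.S36.V.ThreeVal
import Fermat.Agent.S36.V.CountAlong
import Fermat.Agent.S36.Descent.NormPlumb
import Fermat.Agent.P4.FrobStep

set_option autoImplicit false
set_option maxHeartbeats 400000
set_option synthInstance.maxHeartbeats 400000
set_option linter.unusedSectionVars false
set_option linter.style.haveILetI false

open ModularCurve AlgebraicCurve
open Fermat.Agent.S28.Gauss Fermat.Agent.N4.Setting Fermat.Agent.N4.FibreEmbedding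
open Fermat.Agent.N4F.E.DegreeLevelRaise Fermat.Agent.N4F.E.GaussDVR
open Fermat.Agent.P3G.SecondValuation Fermat.Agent.S36.V.MidVal Fermat.Agent.S36.V.ThreeVal
open Fermat.Agent.P4.FrobStep Fermat.Agent.S36.Descent.NormPlumb IsLocalRing

noncomputable section

namespace Fermat.Agent.S36.NormThreeVal

/-! ### Generic forms over a base with uniformiser in `O` -/

section Generic

variable {K : Type} [Field K] [CharZero K] {N1 N2 : ℕ} [NeZero N1] [NeZero N2] {q : ℕ}
  [hq : Fact q.Prime] {O : Subring K} [IsDiscreteValuationRing ↥O] [IsFractionRing ↥O K]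

/-- A valuation subring of `FF K N1` containing the constants of `O`, with a uniformiser of `O` as
uniformiser. -/
structure BaseHyp (U : ValuationSubring (FF K N1)) (ϖ : ↥O) : Prop where
  const_mem : ∀ c : ↥O, algebraMap K (FF K N1) (c : K) ∈ U
  unif_mem : algebraMap K (FF K N1) (ϖ : K) ∈ U.nonunits
  unif : ∀ y ∈ U.nonunits, y * (algebraMap K (FF K N1) (ϖ : K))⁻¹ ∈ U

theorem algebraMap_unif_ne_zero {N : ℕ} [NeZero N] {ϖ : ↥O} (hϖ : Irreducible ϖ) :
    algebraMap K (FF K N) (ϖ : K) ≠ 0 := by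
  rw [Ne, map_eq_zero]
  exact fun h0 => hϖ.ne_zero (Subtype.ext h0)

/-- `q = c ϖ` in `O`. -/
theorem exists_natCast_eq_mul {ϖ : ↥O} (hϖ : Irreducible ϖ)
    (hqO : ((q : ℕ) : ↥O) ∈ maximalIdeal ↥O) : ∃ c : ↥O, ((q : ℕ) : ↥O) = c * ϖ := by
  rw [hϖ.maximalIdeal_eq, Ideal.mem_span_singleton'] at hqO
  obtain ⟨c, hc⟩ := hqO
  exact ⟨c, hc.symm⟩

theorem natCast_eq_algebraMap_mul {N : ℕ} [NeZero N] {ϖ c : ↥O} (hc : ((q : ℕ) : ↥O) = c * ϖ) :
    ((q : ℕ) : FF K N) = algebraMap K (FF K N) (c : K) * algebraMap K (FF K N) (ϖ : K) := by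
  rw [← map_mul, ← Subring.coe_mul, ← hc, Subring.coe_natCast, map_natCast]

theorem BaseHyp.natCast_mem_nonunits {U : ValuationSubring (FF K N1)} {ϖ : ↥O}
    (hB : BaseHyp U ϖ) (hϖ : Irreducible ϖ) (hqO : ((q : ℕ) : ↥O) ∈ maximalIdeal ↥O) :
    ((q : ℕ) : FF K N1) ∈ U.nonunits := by
  obtain ⟨c, hc⟩ := exists_natCast_eq_mul hϖ hqO
  rw [natCast_eq_algebraMap_mul hc, ValuationSubring.mem_nonunits_iff, map_mul]
  have h1 : U.valuation (algebraMap K (FF K N1) (c : K)) ≤ 1 :=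
    (U.valuation_le_one_iff _).2 (hB.const_mem c)
  have h2 : U.valuation (algebraMap K (FF K N1) (ϖ : K)) < 1 :=
    U.mem_nonunits_iff.1 hB.unif_mem
  exact lt_of_le_of_lt (mul_le_of_le_one_left' h1) h2

variable (γ : FF K N1 →ₐ[K] FF K N2)

/-- **Split table, generic**: base `U`, `Va` unramified of residue degree one, `Vb` with uniformiser
`t`, `q = w t ^ (q - 1)`. -/
theorem split_gen
    (hfin : letI := algebraAlong γ; FiniteDimensional (FF K N1) (FF K N2))
    (hdeg : letI := algebraAlong γ; Module.finrank (FF K N1) (FF K N2) = q)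
    (U : ValuationSubring (FF K N1)) [IsDiscreteValuationRing ↥U] {ϖ : ↥O} (hϖ : Irreducible ϖ)
    (hqO : ((q : ℕ) : ↥O) ∈ maximalIdeal ↥O) (hB : BaseHyp U ϖ)
    (Va Vb : ValuationSubring (FF K N2))
    (hUa : ∀ a ∈ U, γ a ∈ Va) (hUb : ∀ a ∈ U, γ a ∈ Vb)
    (hϖa : algebraMap K (FF K N2) (ϖ : K) ∈ Va.nonunits)
    (lifta : ∀ y ∈ Va, ∃ a ∈ U, y - γ a ∈ Va.nonunits)
    (rama : ∀ y ∈ Va.nonunits, y * (algebraMap K (FF K N2) (ϖ : K))⁻¹ ∈ Va)
    (t : FF K N2) (hta : t ∈ Va) (hta' : t ∉ Va.nonunits) (htb : t ∈ Vb.nonunits)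
    (unifb : ∀ y ∈ Vb.nonunits, y * t⁻¹ ∈ Vb)
    (ramV : ∃ w : FF K N2, w ∈ Vb ∧ w⁻¹ ∈ Vb ∧ ((q : ℕ) : FF K N2) = w * t ^ (q - 1))
    (hint : ∀ y : FF K N2, y ∈ Va → y ∈ Vb →
      ((γ : FF K N1 →+* FF K N2).comp U.subtype).IsIntegralElem y)
    (w : FF K N2) (a₁ a₂ : FF K N1) (ha₁ : a₁ ∈ U) (ha₂ : a₂ ∈ U)
    (h₁ : w - γ a₁ ∈ Va.nonunits) (h₂ : w - γ a₂ ∈ Vb.nonunits) :
    normAlong γ w - a₁ * a₂ ^ (q - 1) ∈ U.nonunits := by
  letI : Algebra (FF K N1) (FF K N2) := algebraAlong γ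
  haveI : FiniteDimensional (FF K N1) (FF K N2) := hfin
  haveI : Algebra.IsSeparable (FF K N1) (FF K N2) := inferInstance
  have hqp : q.Prime := hq.out
  have hq1 : q - 1 + 1 = q := Nat.sub_add_cancel hqp.one_le
  obtain ⟨c, hc⟩ := exists_natCast_eq_mul hϖ hqO
  have hc2 : ((q : ℕ) : FF K N2) =
      algebraMap K (FF K N2) (c : K) * algebraMap K (FF K N2) (ϖ : K) :=
    natCast_eq_algebraMap_mul hc
  have hϖ1 : algebraMap K (FF K N1) (ϖ : K) ≠ 0 := algebraMap_unif_ne_zero hϖ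
  have hϖ2 : algebraMap K (FF K N2) (ϖ : K) ≠ 0 := algebraMap_unif_ne_zero hϖ
  have hπ2 : algebraMap (FF K N1) (FF K N2) (algebraMap K (FF K N1) (ϖ : K)) =
      algebraMap K (FF K N2) (ϖ : K) := γ.commutes _
  obtain ⟨w0, hw0, hw0', hw0q⟩ := ramV
  have ht0 : t ≠ 0 := by
    rintro rfl
    exact hta' (by rw [Va.mem_nonunits_iff, map_zero]; exact zero_lt_one)
  have key := NormFree.norm_split q U (hB.natCast_mem_nonunits hϖ hqO)
    (⟨algebraMap K (FF K N1) (ϖ : K), U.nonunits_subset hB.unif_mem⟩ : ↥U)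
    (NormFree.irreducible_unif U _ hB.unif_mem hB.unif hϖ1) Va Vb hUa hUb
    (by rw [hπ2]; exact hϖa) lifta
    (by intro y hy; rw [hπ2]; exact rama y hy)
    t hta hta' htb unifb (q - 1)
    (by
      rw [hπ2]
      -- `t^(q-1) / ϖ = w0⁻¹ * c`
      have h1 : t ^ (q - 1) * (algebraMap K (FF K N2) (ϖ : K))⁻¹ =
          w0⁻¹ * algebraMap K (FF K N2) (c : K) := by
        have hP0 : t ^ (q - 1) ≠ 0 := pow_ne_zero _ ht0
        have hq0 : ((q : ℕ) : FF K N2) ≠ 0 := by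
          rw [Nat.cast_ne_zero]; exact hqp.ne_zero
        have hw00 : w0 ≠ 0 := by
          intro h0; rw [h0, zero_mul] at hw0q; exact hq0 hw0q
        have hcw : algebraMap K (FF K N2) (c : K) * algebraMap K (FF K N2) (ϖ : K) =
            w0 * t ^ (q - 1) := by rw [← hc2, hw0q]
        field_simp
        rw [mul_comm (t ^ (q - 1)), ← hcw]
        ring
      rw [h1]
      refine mul_mem hw0' ?_
      have : algebraMap K (FF K N2) (c : K) = γ (algebraMap K (FF K N1) (c : K)) :=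
        (γ.commutes _).symm
      rw [this]
      exact hUb _ (hB.const_mem c))
    hint (by rw [hq1]; exact hdeg) w a₁ a₂ ha₁ ha₂ h₁ h₂
  exact key

/-- **Inseparable table, generic**: base `U`, one valuation ring `V` above it, unramified. -/
theorem insep_gen
    (hfin : letI := algebraAlong γ; FiniteDimensional (FF K N1) (FF K N2))
    (hdeg : letI := algebraAlong γ; Module.finrank (FF K N1) (FF K N2) = q)
    (U : ValuationSubring (FF K N1)) [IsDiscreteValuationRing ↥U] {ϖ : ↥O} (hϖ : Irreducible ϖ)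
    (hqO : ((q : ℕ) : ↥O) ∈ maximalIdeal ↥O) (hB : BaseHyp U ϖ)
    (V : ValuationSubring (FF K N2)) (hU : ∀ a ∈ U, γ a ∈ V)
    (ram : ∀ y ∈ V.nonunits, y * (algebraMap K (FF K N2) (ϖ : K))⁻¹ ∈ V)
    (hint : ∀ y : FF K N2, y ∈ V →
      ((γ : FF K N1 →+* FF K N2).comp U.subtype).IsIntegralElem y)
    (w : FF K N2) (a : FF K N1) (ha : a ∈ U) (h₁ : w ^ q - γ a ∈ V.nonunits) :
    normAlong γ w - a ∈ U.nonunits := by
  letI : Algebra (FF K N1) (FF K N2) := algebraAlong γ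
  haveI : FiniteDimensional (FF K N1) (FF K N2) := hfin
  haveI : Algebra.IsSeparable (FF K N1) (FF K N2) := inferInstance
  have hϖ1 : algebraMap K (FF K N1) (ϖ : K) ≠ 0 := algebraMap_unif_ne_zero hϖ
  have hπ2 : algebraMap (FF K N1) (FF K N2) (algebraMap K (FF K N1) (ϖ : K)) =
      algebraMap K (FF K N2) (ϖ : K) := γ.commutes _
  exact NormFree.norm_insep q U (hB.natCast_mem_nonunits hϖ hqO)
    (⟨algebraMap K (FF K N1) (ϖ : K), U.nonunits_subset hB.unif_mem⟩ : ↥U)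
    (NormFree.irreducible_unif U _ hB.unif_mem hB.unif hϖ1) V hU
    (by intro y hy; rw [hπ2]; exact ram y hy) hint hdeg w a ha h₁

/-- `Nm (γ a) = a ^ q`. -/
theorem normAlong_map
    (hdeg : letI := algebraAlong γ; Module.finrank (FF K N1) (FF K N2) = q) (a : FF K N1) :
    normAlong γ (γ a) = a ^ q := by
  letI : Algebra (FF K N1) (FF K N2) := algebraAlong γ
  have h := Algebra.norm_algebraMap (S := FF K N2) a
  rw [hdeg] at h
  exact h

end Generic

/-! ### The instantiation at a `ThreeVal` -/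

section Inst

variable {K : Type} [Field K] [CharZero K] {M0 q : ℕ} [NeZero M0] [hq : Fact q.Prime]
  {O : Subring K} [IsDiscreteValuationRing ↥O] [IsFractionRing ↥O K]
  {sv : SecondVal K M0 q O}

local notation "F1" => FF K (M0 * q)
local notation "F2" => FF K (M0 * q * q)
local notation "V10" => gaussVS K (M0 * q) O
local notation "V20" => gaussVS K (M0 * q * q) O
local notation "α2" => alphaF K (M0 * q) q
local notation "β2" => betaF K (M0 * q) q

/-- the Gauss valuation ring as a base. -/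
theorem baseHyp_gauss {ϖ : ↥O} (hϖ : Irreducible ϖ) : BaseHyp (V10) ϖ where
  const_mem := fun c => (algebraMap ↥O (gaussSubalgebra K (M0 * q) O) c).2
  unif_mem := Fermat.Agent.S36.V.CountAlong.algebraMap_unif_mem_nonunits K (M0 * q) O hϖ
  unif := Fermat.Agent.S36.V.CountAlong.gauss_ram_one K (M0 * q) O hϖ

/-- the second valuation ring as a base. -/
theorem baseHyp_second (sv : SecondVal K M0 q O) {ϖ : ↥O} (hϖ : Irreducible ϖ) :
    BaseHyp sv.V ϖ where
  const_mem := fun c => by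
    have h := sv.beta_mem _ (algebraMap ↥O (gaussSubalgebra K M0 O) c).2
    have e : betaF K M0 q (algebraMap K (FF K M0) (c : K)) = algebraMap K F1 (c : K) :=
      AlgHom.commutes _ _
    rw [← e]
    exact h
  unif_mem := Fermat.Agent.S36.V.CountAlong.secondVal_unif_mem_nonunits sv hϖ
  unif := sv.ram_one ϖ hϖ

variable (ι : K →+* ℂ)

include ι in
theorem finrank_alpha : letI := algebraAlong α2; Module.finrank F1 F2 = q := by
  letI : Algebra F1 F2 := (alphaF K (M0 * q) q).toRingHom.toAlgebra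
  exact Fermat.Agent.S36.V.CountAlong.finrank_of_algebraMap_eq_alphaF_of_dvd K (M0 * q) q ι
    (dvd_mul_left q M0) rfl

include ι in
theorem finrank_beta : letI := algebraAlong β2; Module.finrank F1 F2 = q := by
  letI : Algebra F1 F2 := (betaF K (M0 * q) q).toRingHom.toAlgebra
  exact Fermat.Agent.S36.V.CountAlong.finrank_of_algebraMap_eq_betaF_of_dvd K (M0 * q) q ι
    (dvd_mul_left q M0) rfl

include ι in
theorem finite_alpha : letI := algebraAlong α2; FiniteDimensional F1 F2 := by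
  letI : Algebra F1 F2 := algebraAlong α2
  have h : Module.finrank F1 F2 = q := finrank_alpha ι
  exact Module.finite_of_finrank_pos (by rw [h]; exact hq.out.pos)

include ι in
theorem finite_beta : letI := algebraAlong β2; FiniteDimensional F1 F2 := by
  letI : Algebra F1 F2 := algebraAlong β2
  have h : Module.finrank F1 F2 = q := finrank_beta ι
  exact Module.finite_of_finrank_pos (by rw [h]; exact hq.out.pos)

variable (T : ThreeVal K M0 q O sv) {ϖ : ↥O} (hϖ : Irreducible ϖ)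
  (hqO : ((q : ℕ) : ↥O) ∈ maximalIdeal ↥O)

theorem alpha_mem_V11 (a : F1) (ha : a ∈ V10) : α2 a ∈ T.V11 := by
  have h : a ∈ T.V11.comap (a2 K M0 q) := by rw [T.comap_alpha_V11]; exact ha
  simpa only [ValuationSubring.mem_comap, RingHom.coe_coe] using h

theorem beta_mem_V11 (a : F1) (ha : a ∈ sv.V) : β2 a ∈ T.V11 := by
  have h : a ∈ T.V11.comap (b2 K M0 q) := by rw [T.comap_beta_V11]; exact ha
  simpa only [ValuationSubring.mem_comap, RingHom.coe_coe] using h

theorem alpha_mem_V02 (a : F1) (ha : a ∈ sv.V) : α2 a ∈ T.V02 := by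
  have h : a ∈ T.V02.comap (a2 K M0 q) := by rw [T.comap_alpha_V02]; exact ha
  simpa only [ValuationSubring.mem_comap, RingHom.coe_coe] using h

theorem beta_mem_V02 (a : F1) (ha : a ∈ sv.V) : β2 a ∈ T.V02 := by
  have h : a ∈ T.V02.comap (b2 K M0 q) := by rw [T.comap_beta_V02]; exact ha
  simpa only [ValuationSubring.mem_comap, RingHom.coe_coe] using h

include hϖ in
theorem unif_mem_nonunits_V02 : algebraMap K F2 (ϖ : K) ∈ T.V02.nonunits := by
  have h1 : algebraMap K F1 (ϖ : K) ∈ (T.V02.comap (b2 K M0 q)).nonunits := by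
    rw [T.comap_beta_V02]
    exact Fermat.Agent.S36.V.CountAlong.secondVal_unif_mem_nonunits sv hϖ
  rw [Fermat.Agent.S36.V.Transport.mem_nonunits_comap, RingHom.coe_coe] at h1
  have e : β2 (algebraMap K F1 (ϖ : K)) = algebraMap K F2 (ϖ : K) := (β2).commutes _
  rw [← e]
  exact h1

include ι hϖ hqO in
/-- **`α₂`, split branch**: `w ≡ α₂ a₁` on `V20`, `w ≡ α₂ a₂` on `V11` ⟹
`N_{α₂} w ≡ a₁ a₂ ^ (q - 1)` on `V10`. -/
theorem norm_split_alpha (w : F2) (a₁ a₂ : F1) (ha₁ : a₁ ∈ V10) (ha₂ : a₂ ∈ V10)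
    (h₁ : w - α2 a₁ ∈ (V20).nonunits) (h₂ : w - α2 a₂ ∈ T.V11.nonunits) :
    normAlong α2 w - a₁ * a₂ ^ (q - 1) ∈ (V10).nonunits := by
  haveI : IsDiscreteValuationRing ↥V10 := isDiscreteValuationRing_gauss K (M0 * q) O
  exact split_gen α2 (finite_alpha ι) (finrank_alpha ι) V10 hϖ hqO (baseHyp_gauss hϖ) V20 T.V11
    (fun a ha => alphaF_mem K O (M0 * q) q ha) (alpha_mem_V11 T)
    (Fermat.Agent.S36.V.CountAlong.algebraMap_unif_mem_nonunits K (M0 * q * q) O hϖ)
    (fun y hy => by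
      obtain ⟨a, ha⟩ := T.deg_one_V20 y hy
      exact ⟨a, a.2, ha⟩)
    (Fermat.Agent.S36.V.CountAlong.gauss_ram_one K (M0 * q * q) O hϖ)
    (PiElt K M0 q) PiElt_mem_gaussSubalgebra
    (by
      intro hnu
      exact theta_PiElt_ne_zero hq.out
        ((mem_nonunits_gaussVS_iff K (M0 * q * q) O PiElt_mem_gaussSubalgebra).1 hnu))
    T.Pi_mem_nonunits T.unif_V11 T.ram_V11 T.isIntegral_alpha_V10 w a₁ a₂ ha₁ ha₂ h₁ h₂

include ι T hϖ hqO in
/-- **`β₂`, inseparable branch**: `w ^ q ≡ β₂ a` on `V20` ⟹ `N_{β₂} w ≡ a` on `V10`. -/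
theorem norm_insep_beta (w : F2) (a : F1) (ha : a ∈ V10)
    (h₁ : w ^ q - β2 a ∈ (V20).nonunits) : normAlong β2 w - a ∈ (V10).nonunits := by
  haveI : IsDiscreteValuationRing ↥V10 := isDiscreteValuationRing_gauss K (M0 * q) O
  exact insep_gen β2 (finite_beta ι) (finrank_beta ι) V10 hϖ hqO (baseHyp_gauss hϖ) V20
    (fun a ha => betaF_mem K O (M0 * q) q ha)
    (Fermat.Agent.S36.V.CountAlong.gauss_ram_one K (M0 * q * q) O hϖ)
    T.isIntegral_beta_V10 w a ha h₁

variable (hqM0 : ¬ q ∣ M0)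

include ι hϖ hqO hqM0 in
/-- **`β₂`, split branch**: `w ≡ β₂ a₁` on `V02`, `w ≡ β₂ a₂` on `V11` ⟹
`N_{β₂} w ≡ a₁ a₂ ^ (q - 1)` on `V01`. -/
theorem norm_split_beta (w : F2) (a₁ a₂ : F1) (ha₁ : a₁ ∈ sv.V) (ha₂ : a₂ ∈ sv.V)
    (h₁ : w - β2 a₁ ∈ T.V02.nonunits) (h₂ : w - β2 a₂ ∈ T.V11.nonunits) :
    normAlong β2 w - a₁ * a₂ ^ (q - 1) ∈ sv.V.nonunits := by
  haveI : IsDiscreteValuationRing ↥sv.V :=
    Fermat.Agent.S36.V.CountAlong.isDiscreteValuationRing_secondVal ι hqM0 sv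
  exact split_gen β2 (finite_beta ι) (finrank_beta ι) sv.V hϖ hqO (baseHyp_second sv hϖ) T.V02
    T.V11 (beta_mem_V02 T) (beta_mem_V11 T) (unif_mem_nonunits_V02 T hϖ)
    (fun y hy => by
      obtain ⟨a, ha⟩ := T.deg_one_V02 y hy
      exact ⟨a, a.2, ha⟩)
    (T.ram_one_V02 ϖ hϖ) (PiElt K M0 q) T.Pi_unit_V02.1 T.Pi_unit_V02.2
    T.Pi_mem_nonunits T.unif_V11 T.ram_V11
    (fun y hy2 hy1 => T.isIntegral_beta_V01 y hy1 hy2) w a₁ a₂ ha₁ ha₂ h₁ h₂

include ι hϖ hqO hqM0 in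
/-- **`α₂`, inseparable branch**: `w ^ q ≡ α₂ a` on `V02` ⟹ `N_{α₂} w ≡ a` on `V01`. -/
theorem norm_insep_alpha (w : F2) (a : F1) (ha : a ∈ sv.V)
    (h₁ : w ^ q - α2 a ∈ T.V02.nonunits) : normAlong α2 w - a ∈ sv.V.nonunits := by
  haveI : IsDiscreteValuationRing ↥sv.V :=
    Fermat.Agent.S36.V.CountAlong.isDiscreteValuationRing_secondVal ι hqM0 sv
  exact insep_gen α2 (finite_alpha ι) (finrank_alpha ι) sv.V hϖ hqO (baseHyp_second sv hϖ) T.V02
    (alpha_mem_V02 T) (T.ram_one_V02 ϖ hϖ) T.isIntegral_alpha_V01 w a ha h₁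

include ι hϖ hqO hqM0 in
/-- **The norm table of `α₂`**: `(Us, Ui; Va, Vb, Vc) = (V10, V01; V20, V11, V02)`. -/
theorem normTable_alpha :
    NormTable (a2 K M0 q) (normAlong α2) q (V10) sv.V (V20) T.V11 T.V02 where
  lift_a := fun y hy => by
    obtain ⟨a, ha⟩ := T.deg_one_V20 y hy
    exact ⟨a, a.2, ha⟩
  lift_b := fun y hy => by
    obtain ⟨a, ha⟩ := T.deg_one_V11_alpha y hy
    exact ⟨a, a.2, ha⟩
  lift_c := fun y hy => by
    obtain ⟨a, ha⟩ := T.insep_V02 y hy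
    exact ⟨a, a.2, ha⟩
  norm_split := norm_split_alpha ι T hϖ hqO
  norm_insep := norm_insep_alpha ι T hϖ hqO hqM0
  norm_map := normAlong_map α2 (finrank_alpha ι)

include ι hϖ hqO hqM0 in
/-- **The norm table of `β₂`**: `(Us, Ui; Va, Vb, Vc) = (V01, V10; V02, V11, V20)`. -/
theorem normTable_beta :
    NormTable (b2 K M0 q) (normAlong β2) q sv.V (V10) T.V02 T.V11 (V20) where
  lift_a := fun y hy => by
    obtain ⟨a, ha⟩ := T.deg_one_V02 y hy
    exact ⟨a, a.2, ha⟩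
  lift_b := fun y hy => by
    obtain ⟨a, ha⟩ := T.deg_one_V11_beta y hy
    exact ⟨a, a.2, ha⟩
  lift_c := fun y hy => by
    obtain ⟨a, ha⟩ := T.insep_V20 y hy
    exact ⟨a, a.2, ha⟩
  norm_split := norm_split_beta ι T hϖ hqO hqM0
  norm_insep := norm_insep_beta ι T hϖ hqO
  norm_map := normAlong_map β2 (finrank_beta ι)

end Inst

end Fermat.Agent.S36.NormThreeVal
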