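/-
S36, block [N] (helper11 for helper12, #1646 (D)): **the abstract congruence lemma**.

`F` a field, `V V'` valuation subrings with "uniformisers" `ϖ`, `ϖ'` (nonzero nonunits), and an identity
`N = c * h ^ e` in `F`.  If all of `c, h, N` have valuations that are integral powers of the
uniformisers, `c` with the SAME exponent at `V` and `V'` (a constant), then `e ∣ s - t` where
`s, t` are the exponents of `N` at `V`, `V'`.

Applied to `N = N_α f = c_a h_a^e` (`V = V10`, `V' = V01`, `s = a + b`, `t = q c`) and to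
`N = N_β f = c_b h_b^e` (`s = q a`, `t = b + c`) this gives the two congruences
`a + b ≡ q c`, `q a ≡ b + c (mod e)` of the blueprint.

Mathlib only.
-/
import Mathlib

set_option autoImplicit false

namespace Fermat.Agent.S36.NormCongr

variable {F : Type*} [Field F]

/-- `n ↦ v(ϖ) ^ n` is injective for a nonzero nonunit `ϖ`. -/
theorem zpow_inj_of_mem_nonunits (V : ValuationSubring F) {ϖ : F} (h0 : ϖ ≠ 0)
    (hϖ : ϖ ∈ V.nonunits) {m n : ℤ} (h : V.valuation ϖ ^ m = V.valuation ϖ ^ n) : m = n := by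
  have hpos : 0 < V.valuation ϖ := (Valuation.pos_iff _).2 h0
  have hne : V.valuation ϖ ≠ 1 := ne_of_lt ((V.mem_nonunits_iff).1 hϖ)
  exact (zpow_right_inj₀ hpos hne).1 h

/-- `v(ϖ) ≠ 0`. -/
theorem valuation_ne_zero (V : ValuationSubring F) {ϖ : F} (h0 : ϖ ≠ 0) : V.valuation ϖ ≠ 0 :=
  (Valuation.ne_zero_iff _).2 h0

/-- the exponent of `c * h ^ e` is `r + e * x`. -/
theorem valuation_mul_pow (V : ValuationSubring F) {ϖ : F} (h0 : ϖ ≠ 0) {c h : F} (e : ℕ)
    {r x : ℤ} (hc : V.valuation c = V.valuation ϖ ^ r) (hh : V.valuation h = V.valuation ϖ ^ x) :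
    V.valuation (c * h ^ e) = V.valuation ϖ ^ (r + e * x) := by
  rw [map_mul, map_pow, hc, hh, zpow_add₀ (valuation_ne_zero V h0), mul_comm (e : ℤ) x, zpow_mul,
    zpow_natCast]

/-- **Additivity of exponents**: `N = c * h ^ e` ⇒ `s = r + e * x`. -/
theorem exponent_eq (V : ValuationSubring F) {ϖ : F} (h0 : ϖ ≠ 0) (hϖ : ϖ ∈ V.nonunits)
    {N c h : F} {e : ℕ} (hN : N = c * h ^ e) {r x s : ℤ}
    (hc : V.valuation c = V.valuation ϖ ^ r) (hh : V.valuation h = V.valuation ϖ ^ x)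
    (hs : V.valuation N = V.valuation ϖ ^ s) : s = r + e * x := by
  apply zpow_inj_of_mem_nonunits V h0 hϖ
  rw [← hs, hN, valuation_mul_pow V h0 e hc hh]

/-- **The congruence lemma** (two possibly different uniformisers `ϖ` of `V`, `ϖ'` of `V'`). -/
theorem dvd_sub_of_eq_mul_pow' (V V' : ValuationSubring F) {ϖ ϖ' : F} (h0 : ϖ ≠ 0) (h0' : ϖ' ≠ 0)
    (hϖ : ϖ ∈ V.nonunits) (hϖ' : ϖ' ∈ V'.nonunits) {N c h : F} {e : ℕ} (hN : N = c * h ^ e)
    {r x y s t : ℤ}
    (hc : V.valuation c = V.valuation ϖ ^ r) (hc' : V'.valuation c = V'.valuation ϖ' ^ r)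
    (hh : V.valuation h = V.valuation ϖ ^ x) (hh' : V'.valuation h = V'.valuation ϖ' ^ y)
    (hs : V.valuation N = V.valuation ϖ ^ s) (ht : V'.valuation N = V'.valuation ϖ' ^ t) :
    (e : ℤ) ∣ s - t := by
  have e1 := exponent_eq V h0 hϖ hN hc hh hs
  have e2 := exponent_eq V' h0' hϖ' hN hc' hh' ht
  exact ⟨x - y, by rw [e1, e2]; ring⟩

/-- **The congruence lemma** (helper12's shape: the same `ϖ` for `V` and `V'`). -/
theorem dvd_sub_of_eq_mul_pow (V V' : ValuationSubring F) {ϖ : F} (h0 : ϖ ≠ 0)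
    (hϖ : ϖ ∈ V.nonunits) (hϖ' : ϖ ∈ V'.nonunits) {N c h : F} {e : ℕ} (hN : N = c * h ^ e)
    {r x y s t : ℤ}
    (hc : V.valuation c = V.valuation ϖ ^ r) (hc' : V'.valuation c = V'.valuation ϖ ^ r)
    (hh : V.valuation h = V.valuation ϖ ^ x) (hh' : V'.valuation h = V'.valuation ϖ ^ y)
    (hs : V.valuation N = V.valuation ϖ ^ s) (ht : V'.valuation N = V'.valuation ϖ ^ t) :
    (e : ℤ) ∣ s - t :=
  dvd_sub_of_eq_mul_pow' V V' h0 h0 hϖ hϖ' hN hc hc' hh hh' hs ht

/-- `Int.ModEq` form. -/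
theorem modEq_of_eq_mul_pow (V V' : ValuationSubring F) {ϖ : F} (h0 : ϖ ≠ 0)
    (hϖ : ϖ ∈ V.nonunits) (hϖ' : ϖ ∈ V'.nonunits) {N c h : F} {e : ℕ} (hN : N = c * h ^ e)
    {r x y s t : ℤ}
    (hc : V.valuation c = V.valuation ϖ ^ r) (hc' : V'.valuation c = V'.valuation ϖ ^ r)
    (hh : V.valuation h = V.valuation ϖ ^ x) (hh' : V'.valuation h = V'.valuation ϖ ^ y)
    (hs : V.valuation N = V.valuation ϖ ^ s) (ht : V'.valuation N = V'.valuation ϖ ^ t) :
    s ≡ t [ZMOD (e : ℤ)] :=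
  (Int.modEq_iff_dvd.2 (dvd_sub_of_eq_mul_pow V V' h0 hϖ hϖ' hN hc hc' hh hh' hs ht)).symm

/-! ### Producers of the hypotheses -/

/-- the valuation of a unit of `V` is one -/
theorem valuation_eq_one_of_mem (V : ValuationSubring F) {u : F} (hu0 : u ≠ 0)
    (hu : u ∈ V) (hu' : u⁻¹ ∈ V) : V.valuation u = 1 := by
  have h1 : V.valuation u ≤ 1 := (V.valuation_le_one_iff _).2 hu
  have h2 : V.valuation u⁻¹ ≤ 1 := (V.valuation_le_one_iff _).2 hu'
  rw [map_inv₀] at h2
  have hpos : 0 < V.valuation u := (Valuation.pos_iff _).2 hu0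
  exact le_antisymm h1 ((inv_le_one₀ hpos).1 h2)

/-- a unit of `V` times `ϖ ^ s` has exponent `s`. -/
theorem valuation_unit_mul_zpow (V : ValuationSubring F) {ϖ u N : F} {s : ℤ} (hu0 : u ≠ 0)
    (hu : u ∈ V) (hu' : u⁻¹ ∈ V) (hN : N = u * ϖ ^ s) :
    V.valuation N = V.valuation ϖ ^ s := by
  rw [hN, map_mul, valuation_eq_one_of_mem V hu0 hu hu', one_mul, map_zpow₀]

/-- the image of a unit of a subring `A → F` with `A ⊆ V` has valuation one -/
theorem valuation_algebraMap_unit {A : Type*} [CommRing A] [Algebra A F] (V : ValuationSubring F)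
    (hA : ∀ a : A, algebraMap A F a ∈ V) (u : Aˣ) : V.valuation (algebraMap A F u) = 1 := by
  have h1 : algebraMap A F u * algebraMap A F (↑u⁻¹ : A) = 1 := by
    rw [← map_mul, Units.mul_inv, map_one]
  have hu0 : algebraMap A F u ≠ 0 := left_ne_zero_of_mul_eq_one h1
  refine valuation_eq_one_of_mem V hu0 (hA _) ?_
  rw [← eq_inv_of_mul_eq_one_right h1]
  exact hA _

/-- shape of `NormVal.norm_val_two/_insep`: `N = u * ϖ ^ s` with `u ∈ Aˣ`, `A ⊆ V`. -/
theorem valuation_of_eq_unit_mul_zpow {A : Type*} [CommRing A] [Algebra A F]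
    (V : ValuationSubring F) (hA : ∀ a : A, algebraMap A F a ∈ V) (u : Aˣ) (ϖ : A) {N : F} {s : ℤ}
    (hN : N = algebraMap A F u * algebraMap A F ϖ ^ s) :
    V.valuation N = V.valuation (algebraMap A F ϖ) ^ s := by
  rw [hN, map_mul, valuation_algebraMap_unit V hA u, one_mul, map_zpow₀]

/-- `O → K → F` is injective on nonzero elements (`K = Frac O`, `K`, `F` fields). -/
theorem algebraMap_ne_zero_of_tower {O K : Type*} [CommRing O] [IsDomain O]
    [Field K] [Algebra O K] [IsFractionRing O K] [Algebra O F] [Algebra K F] [IsScalarTower O K F]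
    {a : O} (ha : a ≠ 0) : algebraMap O F a ≠ 0 := by
  intro h
  have h1 : algebraMap K F (algebraMap O K a) = 0 := by
    rw [← IsScalarTower.algebraMap_apply]; exact h
  have h2 : algebraMap O K a = 0 := by
    simpa using h1
  exact ha ((IsFractionRing.injective O K) (by rw [h2, map_zero]))

/-- **Constants**: a nonzero element `c` of `K = Frac O` (`O` a DVR with uniformiser `ϖ`) has the
SAME exponent `r` at every valuation subring of `F` containing `O`. -/
theorem exists_zpow_of_const {O K : Type*} [CommRing O] [IsDomain O] [IsDiscreteValuationRing O]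
    [Field K] [Algebra O K] [IsFractionRing O K] [Algebra O F] [Algebra K F] [IsScalarTower O K F]
    {ϖ : O} (hϖ : Irreducible ϖ) (c : K) (hc : c ≠ 0) :
    ∃ r : ℤ, ∀ V : ValuationSubring F, (∀ a : O, algebraMap O F a ∈ V) →
      V.valuation (algebraMap K F c) = V.valuation (algebraMap O F ϖ) ^ r := by
  obtain ⟨a, b, hb, hab⟩ := IsFractionRing.div_surjective (A := O) c
  have hb0 : b ≠ 0 := nonZeroDivisors.ne_zero hb
  have ha0 : a ≠ 0 := by
    rintro rfl
    rw [map_zero, zero_div] at hab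
    exact hc hab.symm
  obtain ⟨m, u, hu⟩ := IsDiscreteValuationRing.eq_unit_mul_pow_irreducible ha0 hϖ
  obtain ⟨n, u', hu'⟩ := IsDiscreteValuationRing.eq_unit_mul_pow_irreducible hb0 hϖ
  refine ⟨(m : ℤ) - n, fun V hV => ?_⟩
  have hϖ0 : algebraMap O F ϖ ≠ 0 := algebraMap_ne_zero_of_tower (K := K) hϖ.ne_zero
  have hv0 : V.valuation (algebraMap O F ϖ) ≠ 0 := valuation_ne_zero V hϖ0
  have hc' : algebraMap K F c = algebraMap O F a / algebraMap O F b := by
    rw [← hab, map_div₀, ← IsScalarTower.algebraMap_apply, ← IsScalarTower.algebraMap_apply]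
  rw [hc', map_div₀, hu, hu', map_mul, map_mul, map_mul, map_mul, map_pow, map_pow, map_pow,
    map_pow, valuation_algebraMap_unit V hV u, valuation_algebraMap_unit V hV u', one_mul, one_mul,
    zpow_sub₀ hv0, zpow_natCast, zpow_natCast]

/-- **The congruence in the S36 shape.** `N = c * h ^ e` in `F` with `c ∈ K = Frac O` a nonzero
constant; exponents of `N`: `s` at `V`, `t` at `V'` ⇒ `s ≡ t (mod e)`.
(`N = N_α f`, `V = V10`, `V' = V01`: `s = a + b`, `t = q c`; `N = N_β f`: `s = q a`, `t = b + c`.) -/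
theorem modEq_of_const {O K : Type*} [CommRing O] [IsDomain O] [IsDiscreteValuationRing O]
    [Field K] [Algebra O K] [IsFractionRing O K] [Algebra O F] [Algebra K F] [IsScalarTower O K F]
    {ϖ : O} (hϖ : Irreducible ϖ) (V V' : ValuationSubring F)
    (hV : ∀ a : O, algebraMap O F a ∈ V) (hV' : ∀ a : O, algebraMap O F a ∈ V')
    (hϖV : algebraMap O F ϖ ∈ V.nonunits) (hϖV' : algebraMap O F ϖ ∈ V'.nonunits)
    {N h : F} {c : K} (hc : c ≠ 0) {e : ℕ} (hN : N = algebraMap K F c * h ^ e) {x y s t : ℤ}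
    (hh : V.valuation h = V.valuation (algebraMap O F ϖ) ^ x)
    (hh' : V'.valuation h = V'.valuation (algebraMap O F ϖ) ^ y)
    (hs : V.valuation N = V.valuation (algebraMap O F ϖ) ^ s)
    (ht : V'.valuation N = V'.valuation (algebraMap O F ϖ) ^ t) :
    s ≡ t [ZMOD (e : ℤ)] := by
  obtain ⟨r, hr⟩ := exists_zpow_of_const (F := F) hϖ c hc
  have hϖ0 : algebraMap O F ϖ ≠ 0 := algebraMap_ne_zero_of_tower (K := K) hϖ.ne_zero
  exact modEq_of_eq_mul_pow V V' hϖ0 hϖV hϖV' hN (hr V hV) (hr V' hV') hh hh' hs ht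

/-- the same with the existence of the exponents of `h` as hypotheses (`hdisc` shape of
`V/SemiLocalW`): only the exponents `s`, `t` of `N` are named. -/
theorem modEq_of_const_of_disc {O K : Type*} [CommRing O] [IsDomain O] [IsDiscreteValuationRing O]
    [Field K] [Algebra O K] [IsFractionRing O K] [Algebra O F] [Algebra K F] [IsScalarTower O K F]
    {ϖ : O} (hϖ : Irreducible ϖ) (V V' : ValuationSubring F)
    (hV : ∀ a : O, algebraMap O F a ∈ V) (hV' : ∀ a : O, algebraMap O F a ∈ V')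
    (hϖV : algebraMap O F ϖ ∈ V.nonunits) (hϖV' : algebraMap O F ϖ ∈ V'.nonunits)
    (hdisc : ∀ b : F, b ≠ 0 → ∃ n : ℤ, V.valuation b = V.valuation (algebraMap O F ϖ) ^ n)
    (hdisc' : ∀ b : F, b ≠ 0 → ∃ n : ℤ, V'.valuation b = V'.valuation (algebraMap O F ϖ) ^ n)
    {N h : F} (hh0 : h ≠ 0) {c : K} (hc : c ≠ 0) {e : ℕ} (hN : N = algebraMap K F c * h ^ e)
    {s t : ℤ}
    (hs : V.valuation N = V.valuation (algebraMap O F ϖ) ^ s)
    (ht : V'.valuation N = V'.valuation (algebraMap O F ϖ) ^ t) :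
    s ≡ t [ZMOD (e : ℤ)] := by
  obtain ⟨x, hx⟩ := hdisc h hh0
  obtain ⟨y, hy⟩ := hdisc' h hh0
  exact modEq_of_const hϖ V V' hV hV' hϖV hϖV' hc hN hx hy hs ht

end Fermat.Agent.S36.NormCongr
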