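/-
S36 block [N], instantiation (N-S36) over the base `V10 = gaussVS K (M₀ q) O`, hypothesis-driven on the
outputs of `V/CountAlong`:

* `norm_split_alpha` : the `α₂`-table `{V20 (1,1), V11 (q-1,1)}`:
  `w ≡ α₂ a₁` on `V20`, `w ≡ α₂ a₂` on `V11` ⟹ `N_{α₂}(w) ≡ a₁ a₂ ^ (q - 1)` on `V10`;
* `norm_insep_beta` : the `β₂`-table `{V20 (1,q insep)}`:
  `w ^ q ≡ β₂ a` on `V20` ⟹ `N_{β₂}(w) ≡ a` on `V10`;

in the exact shape of `D/NormGlue.SplitInsep.norm_split / norm_insep` with `Nm = P4.FrobStep.normAlong`.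
Everything about `V20`, `V11 = V/MidVal.midVS` that is on main is discharged here (uniformiser of the
base, `V20` unramified, `Π` a unit of `V20` and a nonunit of `V11`, `Π^(q-1)/ϖ ∈ V11` from the Wilson
witness); the remaining inputs are: the degree, residue degree one of `V20` along `α₂`, `Π` a uniformiser
of `V11`, and the two "only" statements.
-/
import Mathlib
import Fermat.Agent.S36.NormFree
import Fermat.Agent.S36.V.MidVal
import Fermat.Agent.P4.FrobStep

set_option autoImplicit false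
set_option maxHeartbeats 400000
set_option synthInstance.maxHeartbeats 400000
set_option linter.unusedSectionVars false
set_option linter.style.haveILetI false

open ModularCurve AlgebraicCurve
open Fermat.Agent.S28.Gauss Fermat.Agent.N4.Setting Fermat.Agent.N4.FibreEmbedding
open Fermat.Agent.N4F.E.DegreeLevelRaise Fermat.Agent.N4F.E.GaussDVR
open Fermat.Agent.S36.V.MidVal Fermat.Agent.P4.FrobStep IsLocalRing

noncomputable section

namespace Fermat.Agent.S36.NormS36

section Base

variable (K : Type) [Field K] [CharZero K] (N q : ℕ) [NeZero N] [NeZero q]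
  (O : Subring K) [IsDiscreteValuationRing ↥O] [IsFractionRing ↥O K]

/-- the uniformiser of `O` as an element of the Gauss valuation ring. -/
def unifVS (ϖ : ↥O) : ↥(gaussVS K N O) := unif K N O ϖ

theorem irreducible_unifVS {ϖ : ↥O} (hϖ : Irreducible ϖ) :
    haveI : IsDiscreteValuationRing ↥(gaussVS K N O) := isDiscreteValuationRing_gauss K N O
    Irreducible (unifVS K N O ϖ) :=
  irreducible_unif K N O hϖ

theorem coe_unifVS (ϖ : ↥O) :
    ((unifVS K N O ϖ : ↥(gaussVS K N O)) : FF K N) = algebraMap K (FF K N) (ϖ : K) := rfl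

/-- a constant of the maximal ideal of `O` is a nonunit of the Gauss valuation ring. -/
theorem algebraMap_mem_nonunits_gaussVS {c : ↥O} (hc : c ∈ maximalIdeal ↥O) :
    algebraMap K (FF K N) (c : K) ∈ (gaussVS K N O).nonunits := by
  have hmem : algebraMap K (FF K N) (c : K) ∈ gaussSubalgebra K N O :=
    (algebraMap ↥O (gaussSubalgebra K N O) c).2
  rw [Fermat.Agent.P3G.SecondValuation.mem_nonunits_gaussVS_iff K N O hmem]
  have h1 : theta K N O (algebraMap ↥O (gaussSubalgebra K N O) c) = 0 := by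
    rw [theta_algebraMap, (residue_eq_zero_iff c).2 hc, map_zero]
  exact h1

end Base

section Alpha

variable {K : Type} [Field K] [CharZero K] {M0 q : ℕ} [NeZero M0] [NeZero q]
  {O : Subring K} [IsDiscreteValuationRing ↥O] [IsFractionRing ↥O K]
  {K' : Type} [Field K'] [Algebra K K']
  {O' : Subring K'} [IsDiscreteValuationRing ↥O'] [IsFractionRing ↥O' K']
  {s : FF K (M0 * q * q) →+* LaurentSeries K'} {u : K'ˣ}

local notation "F1" => FF K (M0 * q)
local notation "F2" => FF K (M0 * q * q)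
local notation "V10" => gaussVS K (M0 * q) O
local notation "V20" => gaussVS K (M0 * q * q) O
local notation "α2" => alphaF K (M0 * q) q

/-- **The `α₂`-table over `V10`: `N_{α₂}(w) ≡ a₁ a₂ ^ (q - 1)` on `V10` if `w ≡ α₂ a₁` on `V20` and
`w ≡ α₂ a₂` on `V11`.**  Inputs from `V/CountAlong`: degree `q`, residue degree one of `V20`, `Π` a
uniformiser of `V11`, and "only `V20`, `V11` over `V10`". -/
theorem norm_split_alpha (h : MidEmb K M0 q O K' O' s u) {ϖ : ↥O} (hϖ : Irreducible ϖ)
    (hqO : ((q : ℕ) : ↥O) ∈ maximalIdeal ↥O)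
    (hfin : letI := algebraAlong α2; FiniteDimensional F1 F2)
    (hdeg : letI := algebraAlong α2; Module.finrank F1 F2 = q)
    (lift20 : ∀ y ∈ V20, ∃ a ∈ V10, y - α2 a ∈ (V20).nonunits)
    (unif11 : ∀ y ∈ (midVS h).nonunits, y * (PiElt K M0 q)⁻¹ ∈ midVS h)
    (hint : ∀ y : F2, y ∈ V20 → y ∈ midVS h →
      ((α2 : F1 →+* F2).comp (V10).subtype).IsIntegralElem y)
    (w : F2) (a₁ a₂ : F1) (ha₁ : a₁ ∈ V10) (ha₂ : a₂ ∈ V10)
    (h₁ : w - α2 a₁ ∈ (V20).nonunits) (h₂ : w - α2 a₂ ∈ (midVS h).nonunits) :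
    normAlong α2 w - a₁ * a₂ ^ (q - 1) ∈ (V10).nonunits := by
  haveI : Fact q.Prime := ⟨h.prime⟩
  letI : Algebra F1 F2 := algebraAlong α2
  haveI : FiniteDimensional F1 F2 := hfin
  haveI : Algebra.IsSeparable F1 F2 := inferInstance
  haveI : IsDiscreteValuationRing ↥V10 := isDiscreteValuationRing_gauss K (M0 * q) O
  have hq1 : q - 1 + 1 = q := Nat.sub_add_cancel h.prime.one_le
  -- `q` and `ϖ` as elements of the fields
  have hqK : ((q : ℕ) : F1) = algebraMap K F1 (((q : ℕ) : ↥O) : K) := by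
    rw [Subring.coe_natCast, map_natCast]
  have hqU : ((q : ℕ) : F1) ∈ (V10).nonunits := by
    rw [hqK]; exact NormS36.algebraMap_mem_nonunits_gaussVS K (M0 * q) O hqO
  have hπ2 : algebraMap F1 F2 ((unifVS K (M0 * q) O ϖ : ↥V10) : F1) =
      algebraMap K F2 (ϖ : K) := by
    rw [coe_unifVS]
    exact (α2).commutes _
  have hϖK : ((ϖ : ↥O) : K) ≠ 0 := fun h0 => hϖ.ne_zero (Subtype.ext h0)
  have hϖ2 : algebraMap K F2 (ϖ : K) ≠ 0 := by
    rw [Ne, map_eq_zero]; exact hϖK
  have hϖm : ϖ ∈ maximalIdeal ↥O := by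
    rw [hϖ.maximalIdeal_eq]; exact Ideal.mem_span_singleton_self ϖ
  -- `q = ϖ c` in `O`
  obtain ⟨c, hc⟩ : ∃ c : ↥O, ((q : ℕ) : ↥O) = c * ϖ := by
    rw [hϖ.maximalIdeal_eq, Ideal.mem_span_singleton'] at hqO
    obtain ⟨c, hc⟩ := hqO
    exact ⟨c, hc.symm⟩
  have hc2 : ((q : ℕ) : F2) = algebraMap K F2 (c : K) * algebraMap K F2 (ϖ : K) := by
    rw [← map_mul, ← Subring.coe_mul, ← hc, Subring.coe_natCast, map_natCast]
  have key := NormFree.norm_split q V10 hqU (unifVS K (M0 * q) O ϖ)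
    (irreducible_unifVS K (M0 * q) O hϖ) V20 (midVS h)
    (fun a ha => alphaF_mem K O (M0 * q) q ha)
    (fun a ha => alphaF_mem_midVS h ha)
    (by
      rw [hπ2]
      exact NormS36.algebraMap_mem_nonunits_gaussVS K (M0 * q * q) O hϖm)
    lift20
    (by
      intro y hy
      rw [hπ2]
      have hyG : y ∈ gaussSubalgebra K (M0 * q * q) O := (V20).nonunits_subset hy
      have h0 := (Fermat.Agent.P3G.SecondValuation.mem_nonunits_gaussVS_iff K (M0 * q * q) O
        hyG).1 hy
      obtain ⟨z, hz⟩ := exists_eq_unif_mul K (M0 * q * q) O hϖ ⟨y, hyG⟩ h0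
      have hz' : y = algebraMap K F2 (ϖ : K) * (z : F2) := congrArg Subtype.val hz
      rw [hz', mul_comm (algebraMap K F2 (ϖ : K)), mul_inv_cancel_right₀ hϖ2]
      exact z.2)
    (PiElt K M0 q) PiElt_mem_gaussSubalgebra
    (by
      intro hnu
      exact theta_PiElt_ne_zero h.prime
        ((Fermat.Agent.P3G.SecondValuation.mem_nonunits_gaussVS_iff K (M0 * q * q) O
          PiElt_mem_gaussSubalgebra).1 hnu))
    (PiElt_mem_nonunits h) unif11 (q - 1)
    (by
      rw [hπ2]
      -- `Π^(q-1) / ϖ = (Π^(q-1) / q) * (q / ϖ)`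
      have h1 : PiElt K M0 q ^ (q - 1) * (algebraMap K F2 (ϖ : K))⁻¹ =
          (wilsonElt K M0 q)⁻¹ * algebraMap K F2 (c : K) := by
        have hw := natCast_eq_wilsonElt_mul h
        have hP0 : PiElt K M0 q ^ (q - 1) ≠ 0 := pow_ne_zero _ h.PiElt_ne_zero
        have hq0 : ((q : ℕ) : F2) ≠ 0 := by
          rw [Nat.cast_ne_zero]; exact h.prime.ne_zero
        have hw0 : wilsonElt K M0 q ≠ 0 := by
          intro h0; rw [h0, zero_mul] at hw; exact hq0 hw
        have hcw : algebraMap K F2 (c : K) * algebraMap K F2 (ϖ : K) =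
            wilsonElt K M0 q * PiElt K M0 q ^ (q - 1) := by rw [← hc2, hw]
        field_simp
        rw [mul_comm (PiElt K M0 q ^ (q - 1)), ← hcw]
        ring
      rw [h1]
      exact mul_mem (wilsonElt_inv_mem_midVS h)
        (by
          have : algebraMap K F2 (c : K) = α2 (algebraMap K F1 (c : K)) := ((α2).commutes _).symm
          rw [this]
          exact alphaF_mem_midVS h (algebraMap ↥O (gaussSubalgebra K (M0 * q) O) c).2))
    hint (by rw [hq1]; exact hdeg) w a₁ a₂ ha₁ ha₂ h₁ h₂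
  exact key

end Alpha

section Beta

variable {K : Type} [Field K] [CharZero K] {M0 q : ℕ} [NeZero M0] [NeZero q]
  {O : Subring K} [IsDiscreteValuationRing ↥O] [IsFractionRing ↥O K]

local notation "F1" => FF K (M0 * q)
local notation "F2" => FF K (M0 * q * q)
local notation "V10" => gaussVS K (M0 * q) O
local notation "V20" => gaussVS K (M0 * q * q) O
local notation "β2" => betaF K (M0 * q) q

/-- **The `β₂`-table over `V10`: `N_{β₂}(w) ≡ a` on `V10` if `w ^ q ≡ β₂ a` on `V20`.**  Inputs from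
`V/CountAlong`: degree `q` and "only `V20` over `V10` along `β₂`". -/
theorem norm_insep_beta (hq : q.Prime) {ϖ : ↥O} (hϖ : Irreducible ϖ)
    (hqO : ((q : ℕ) : ↥O) ∈ maximalIdeal ↥O)
    (hfin : letI := algebraAlong β2; FiniteDimensional F1 F2)
    (hdeg : letI := algebraAlong β2; Module.finrank F1 F2 = q)
    (hint : ∀ y : F2, y ∈ V20 → ((β2 : F1 →+* F2).comp (V10).subtype).IsIntegralElem y)
    (w : F2) (a : F1) (ha : a ∈ V10) (h₁ : w ^ q - β2 a ∈ (V20).nonunits) :
    normAlong β2 w - a ∈ (V10).nonunits := by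
  haveI : Fact q.Prime := ⟨hq⟩
  letI : Algebra F1 F2 := algebraAlong β2
  haveI : FiniteDimensional F1 F2 := hfin
  haveI : Algebra.IsSeparable F1 F2 := inferInstance
  haveI : IsDiscreteValuationRing ↥V10 := isDiscreteValuationRing_gauss K (M0 * q) O
  have hqK : ((q : ℕ) : F1) = algebraMap K F1 (((q : ℕ) : ↥O) : K) := by
    rw [Subring.coe_natCast, map_natCast]
  have hqU : ((q : ℕ) : F1) ∈ (V10).nonunits := by
    rw [hqK]; exact NormS36.algebraMap_mem_nonunits_gaussVS K (M0 * q) O hqO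
  have hπ2 : algebraMap F1 F2 ((unifVS K (M0 * q) O ϖ : ↥V10) : F1) =
      algebraMap K F2 (ϖ : K) := by
    rw [coe_unifVS]
    exact (β2).commutes _
  have hϖK : ((ϖ : ↥O) : K) ≠ 0 := fun h0 => hϖ.ne_zero (Subtype.ext h0)
  have hϖ2 : algebraMap K F2 (ϖ : K) ≠ 0 := by
    rw [Ne, map_eq_zero]; exact hϖK
  exact NormFree.norm_insep q V10 hqU (unifVS K (M0 * q) O ϖ)
    (irreducible_unifVS K (M0 * q) O hϖ) V20
    (fun a ha => betaF_mem K O (M0 * q) q ha)
    (by
      intro y hy
      rw [hπ2]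
      have hyG : y ∈ gaussSubalgebra K (M0 * q * q) O := (V20).nonunits_subset hy
      have h0 := (Fermat.Agent.P3G.SecondValuation.mem_nonunits_gaussVS_iff K (M0 * q * q) O
        hyG).1 hy
      obtain ⟨z, hz⟩ := exists_eq_unif_mul K (M0 * q * q) O hϖ ⟨y, hyG⟩ h0
      have hz' : y = algebraMap K F2 (ϖ : K) * (z : F2) := congrArg Subtype.val hz
      rw [hz', mul_comm (algebraMap K F2 (ϖ : K)), mul_inv_cancel_right₀ hϖ2]
      exact z.2)
    hint hdeg w a ha h₁

end Beta

end Fermat.Agent.S36.NormS36
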