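/-
S36 block [N]: transport of norms along a commutative square of field isomorphisms (used to move the
norm–residue tables over the base `V10` to the base `V01` by the Fricke involutions `w₁`, `w₂`:
`w₂ ∘ α₂ = β₂ ∘ w₁`).  Mathlib + P4/FrobStep (`normAlong`).

* `norm_transport` : `σ' ∘ φ = ψ ∘ σ` ⟹ `N_ψ (σ' y) = σ (N_φ y)` (ring-hom form, the algebra
  structures being `φ.toAlgebra`, `ψ.toAlgebra`);
* `normAlong_transport` : the same for `P4.FrobStep.normAlong`.
-/
import Mathlib
import Fermat.Agent.P4.FrobStep

set_option autoImplicit false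

noncomputable section

namespace Fermat.Agent.S36.NormTransport

open AlgebraicCurve Fermat.Agent.P4.FrobStep

section Ring

variable {F F' : Type*} [Field F] [Field F']

/-- **Transport of the norm along a commutative square of field isomorphisms**, ring-hom form:
if `σ' ∘ φ = ψ ∘ σ` then `N_ψ (σ' y) = σ (N_φ y)`. -/
theorem norm_transport (φ ψ : F →+* F') (σ : F ≃+* F) (σ' : F' ≃+* F')
    (h : ∀ x, σ' (φ x) = ψ (σ x)) (y : F') :
    (letI := ψ.toAlgebra; Algebra.norm F (σ' y)) = σ (letI := φ.toAlgebra; Algebra.norm F y) := by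
  have key := @Algebra.norm_eq_of_equiv_equiv F F' F F' _ _ _ _ φ.toAlgebra ψ.toAlgebra σ σ'
    (by
      ext x
      exact (h x).symm) y
  rw [key, RingEquiv.apply_symm_apply]

end Ring

section Alg

variable {K F F' : Type*} [Field K] [Field F] [Field F'] [Algebra K F] [Algebra K F']

/-- **Transport of `normAlong`** along a commutative square of `K`-isomorphisms. -/
theorem normAlong_transport (φ ψ : F →ₐ[K] F') (σ : F ≃ₐ[K] F) (σ' : F' ≃ₐ[K] F')
    (h : ∀ x, σ' (φ x) = ψ (σ x)) (y : F') :
    normAlong ψ (σ' y) = σ (normAlong φ y) :=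
  norm_transport φ.toRingHom ψ.toRingHom σ.toRingEquiv σ'.toRingEquiv h y

end Alg

end Fermat.Agent.S36.NormTransport
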