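/-
S36 block [N], instantiation over the base `V01` (helper16): **the two norm tables over the second
vertical valuation ring `V01` of level `M₀ q`**, obtained from helper12's tables over `V10`
(`S36/NormS36`) by the Fricke transport of norms (`V/FrickeNorm`).  Hypothesis-driven on the three
transport identities of `V/Transport`:

  `V01 = V10.comap w₁`,   `V02 = V20.comap w₂`,   `V11.comap w₂ = V11`

(`w₁`, `w₂` the Fricke involutions of levels `M₀ q`, `M₀ q²`, written
`(wK K ι _).toAlgHom.toRingHom`, which is the unfolding of `wKhom`).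

* `norm_split_beta_twin` : the `β₂`-table `{V02 (1,1), V11 (q-1,1)}` over `V01`:
  `w ≡ β₂ a₁` on `V02`, `w ≡ β₂ a₂` on `V11` ⟹ `N_{β₂}(w) ≡ a₁ a₂ ^ (q - 1)` on `V01`;
* `norm_insep_alpha_twin` : the `α₂`-table `{V02 (1,q insep)}` over `V01`:
  `w ^ q ≡ α₂ a` on `V02` ⟹ `N_{α₂}(w) ≡ a` on `V01`;

in the exact shape of `D/NormGlue.SplitInsep.norm_split / norm_insep` with `Nm = P4.FrobStep.normAlong`.
The `V/CountAlong` hypotheses of `NormS36` are passed through untouched.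
-/
import Mathlib
import Fermat.Agent.S36.NormS36
import Fermat.Agent.S36.V.FrickeNorm

set_option autoImplicit false
set_option linter.unusedSectionVars false
set_option linter.style.haveILetI false

open ModularCurve AlgebraicCurve
open Fermat.Agent.S28.Gauss Fermat.Agent.N4.Setting Fermat.Agent.N4.FibreEmbedding
open Fermat.Agent.N4F.E.DegreeLevelRaise Fermat.Agent.N4F.E.GaussDVR
open Fermat.Agent.S36.V.MidVal Fermat.Agent.S36.V.FrickeK Fermat.Agent.P4.FrobStep IsLocalRing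

noncomputable section

namespace Fermat.Agent.S36.NormS36Twin

variable {K : Type} [Field K] [CharZero K] (ι : K →+* ℂ) {M0 q : ℕ} [NeZero M0] [NeZero q]
  {O : Subring K} [IsDiscreteValuationRing ↥O] [IsFractionRing ↥O K]

local notation "F1" => FF K (M0 * q)
local notation "F2" => FF K (M0 * q * q)
local notation "V10" => gaussVS K (M0 * q) O
local notation "V20" => gaussVS K (M0 * q * q) O
local notation "α2" => alphaF K (M0 * q) q
local notation "β2" => betaF K (M0 * q) q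

section Split

variable {K' : Type} [Field K'] [Algebra K K']
  {O' : Subring K'} [IsDiscreteValuationRing ↥O'] [IsFractionRing ↥O' K']
  {s : FF K (M0 * q * q) →+* LaurentSeries K'} {u : K'ˣ}

/-- **The `β₂`-table over `V01`: `N_{β₂}(w) ≡ a₁ a₂ ^ (q - 1)` on `V01` if `w ≡ β₂ a₁` on `V02` and
`w ≡ β₂ a₂` on `V11`.** -/
theorem norm_split_beta_twin (h : MidEmb K M0 q O K' O' s u) {ϖ : ↥O} (hϖ : Irreducible ϖ)
    (hqO : ((q : ℕ) : ↥O) ∈ maximalIdeal ↥O)
    (hfin : letI := algebraAlong α2; FiniteDimensional F1 F2)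
    (hdeg : letI := algebraAlong α2; Module.finrank F1 F2 = q)
    (lift20 : ∀ y ∈ V20, ∃ a ∈ V10, y - α2 a ∈ (V20).nonunits)
    (unif11 : ∀ y ∈ (midVS h).nonunits, y * (PiElt K M0 q)⁻¹ ∈ midVS h)
    (hint : ∀ y : F2, y ∈ V20 → y ∈ midVS h →
      ((α2 : F1 →+* F2).comp (V10).subtype).IsIntegralElem y)
    (V01 : ValuationSubring F1) (V02 : ValuationSubring F2)
    (h01 : V01 = (V10).comap (wK K ι (M0 * q)).toAlgHom.toRingHom) (h02 : V02 = (V20).comap (wK K ι (M0 * q * q)).toAlgHom.toRingHom)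
    (h11 : (midVS h).comap (wK K ι (M0 * q * q)).toAlgHom.toRingHom = midVS h)
    (w : F2) (a₁ a₂ : F1) (ha₁ : a₁ ∈ V01) (ha₂ : a₂ ∈ V01)
    (h₁ : w - β2 a₁ ∈ V02.nonunits) (h₂ : w - β2 a₂ ∈ (midVS h).nonunits) :
    normAlong β2 w - a₁ * a₂ ^ (q - 1) ∈ V01.nonunits := by
  subst h01 h02
  have h₂' : w - β2 a₂ ∈ ((midVS h).comap (wK K ι (M0 * q * q)).toAlgHom.toRingHom).nonunits := by
    rw [h11]; exact h₂
  exact Fermat.Agent.S36.V.FrickeNorm.norm_split_beta_of_alpha K ι (M0 * q) q V10 V20 (midVS h)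
    (q - 1)
    (fun w a₁ a₂ ha₁ ha₂ h₁ h₂ => Fermat.Agent.S36.NormS36.norm_split_alpha h hϖ hqO hfin hdeg
      lift20 unif11 hint w a₁ a₂ ha₁ ha₂ h₁ h₂)
    w a₁ a₂ ha₁ ha₂ h₁ h₂'

end Split

/-- **The `α₂`-table over `V01`: `N_{α₂}(w) ≡ a` on `V01` if `w ^ q ≡ α₂ a` on `V02`.** -/
theorem norm_insep_alpha_twin (hq : q.Prime) {ϖ : ↥O} (hϖ : Irreducible ϖ)
    (hqO : ((q : ℕ) : ↥O) ∈ maximalIdeal ↥O)
    (hfin : letI := algebraAlong β2; FiniteDimensional F1 F2)
    (hdeg : letI := algebraAlong β2; Module.finrank F1 F2 = q)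
    (hint : ∀ y : F2, y ∈ V20 → ((β2 : F1 →+* F2).comp (V10).subtype).IsIntegralElem y)
    (V01 : ValuationSubring F1) (V02 : ValuationSubring F2)
    (h01 : V01 = (V10).comap (wK K ι (M0 * q)).toAlgHom.toRingHom) (h02 : V02 = (V20).comap (wK K ι (M0 * q * q)).toAlgHom.toRingHom)
    (w : F2) (a : F1) (ha : a ∈ V01) (h₁ : w ^ q - α2 a ∈ V02.nonunits) :
    normAlong α2 w - a ∈ V01.nonunits := by
  subst h01 h02
  exact Fermat.Agent.S36.V.FrickeNorm.norm_insep_alpha_of_beta K ι (M0 * q) q V10 V20 q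
    (fun w a ha h₁ => Fermat.Agent.S36.NormS36.norm_insep_beta hq hϖ hqO hfin hdeg hint w a ha h₁)
    w a ha h₁

end Fermat.Agent.S36.NormS36Twin
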