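/-
S36 block [N]: the two norm tables of `NormThreeVal` restated VERBATIM in the consumer shape of
`Descent/SpineFinal.levelData_of_tables` — families `U = ConstHypInst.baseFam sv`,
`V = ThreeValCover.fam3 K M0 q O T.V11 T.V02`, uniformiser `q` (`O` unramified) — generic in `(K, O)`.
-/
import Mathlib
import Fermat.Agent.S36.NormThreeVal
import Fermat.Agent.S36.Descent.ConstHypInst
import Fermat.Agent.S36.C.ThreeValCover

set_option autoImplicit false
set_option linter.unusedSectionVars false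

open ModularCurve AlgebraicCurve
open Fermat.Agent.N4.Setting Fermat.Agent.N4.FibreEmbedding
open Fermat.Agent.N4F.E.DegreeLevelRaise Fermat.Agent.N4F.E.GaussDVR
open Fermat.Agent.P3G.SecondValuation Fermat.Agent.S36.V.ThreeVal
open Fermat.Agent.P4.FrobStep Fermat.Agent.S36.Descent.NormPlumb
open Fermat.Agent.S36.Descent.ConstHypInst Fermat.Agent.S36.C.ThreeValCover IsLocalRing

noncomputable section

namespace Fermat.Agent.S36.NormThreeValFam

variable {K : Type} [Field K] [CharZero K] {M0 q : ℕ} [NeZero M0] [hq : Fact q.Prime]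
  {O : Subring K} [IsDiscreteValuationRing ↥O] [IsFractionRing ↥O K]
  {sv : SecondVal K M0 q O}

theorem natCast_mem_maximalIdeal (hirr : Irreducible ((q : ℕ) : ↥O)) :
    ((q : ℕ) : ↥O) ∈ maximalIdeal ↥O := by
  rw [hirr.maximalIdeal_eq]
  exact Ideal.mem_span_singleton_self _

/-- **The norm table of `α₂`**, families `baseFam sv` / `fam3 … T.V11 T.V02`. -/
theorem normTable_alpha_fam (ι : K →+* ℂ) (hqM0 : ¬ q ∣ M0) (hirr : Irreducible ((q : ℕ) : ↥O))
    (T : ThreeVal K M0 q O sv) :
    NormTable (a2 K M0 q) (normAlong (alphaF K (M0 * q) q)) q (baseFam sv 0) (baseFam sv 1)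
      (fam3 K M0 q O T.V11 T.V02 0) (fam3 K M0 q O T.V11 T.V02 1)
      (fam3 K M0 q O T.V11 T.V02 2) :=
  Fermat.Agent.S36.NormThreeVal.normTable_alpha ι T hirr (natCast_mem_maximalIdeal hirr) hqM0

/-- **The norm table of `β₂`**, families `baseFam sv` / `fam3 … T.V11 T.V02`. -/
theorem normTable_beta_fam (ι : K →+* ℂ) (hqM0 : ¬ q ∣ M0) (hirr : Irreducible ((q : ℕ) : ↥O))
    (T : ThreeVal K M0 q O sv) :
    NormTable (b2 K M0 q) (normAlong (betaF K (M0 * q) q)) q (baseFam sv 1) (baseFam sv 0)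
      (fam3 K M0 q O T.V11 T.V02 2) (fam3 K M0 q O T.V11 T.V02 1)
      (fam3 K M0 q O T.V11 T.V02 0) :=
  Fermat.Agent.S36.NormThreeVal.normTable_beta ι T hirr (natCast_mem_maximalIdeal hirr) hqM0

end Fermat.Agent.S36.NormThreeValFam
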